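import Fermat.Agent.ExtVanish.ClassZeta

/-!
# Density of the split primes of a class group character

The primes whose class lies in a subgroup `H` of the class group of a number field have analytic
density at most `1/[Cl : H]` (`exists_density_bound_subgroup`). In particular, if a character of
the class group has prime order `p`, the primes on which it is trivial have density at most `1/p`
(`exists_density_bound`).

The Euler product over finitely many primes, its limit and the grouping by classes are stated for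
any multiplicative function on ideals bounded by `(NI)⁻ˢ` (`hasSum_supported`,
`tendsto_tsum_supported`, `hasSum_classes`).
-/

set_option autoImplicit false

noncomputable section

namespace Fermat.Agent.ExtVanish

open NumberField Module Filter Topology
open Fermat.Agent.Density
open scoped Classical nonZeroDivisors

variable {K : Type*} [Field K] [NumberField K]

/-- A class group character as a function on ideals, `0` at the zero ideal. -/
def classCharFun (χ : ClassGroup (𝓞 K) →* ℂ) (I : Ideal (𝓞 K)) : ℂ :=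
  if h : I = ⊥ then 0 else χ (ClassGroup.mk0 ⟨I, mem_nonZeroDivisors_iff_ne_zero.mpr h⟩)

theorem classCharFun_of_ne_bot (χ : ClassGroup (𝓞 K) →* ℂ) {I : Ideal (𝓞 K)} (h : I ≠ ⊥) :
    classCharFun χ I = χ (ClassGroup.mk0 ⟨I, mem_nonZeroDivisors_iff_ne_zero.mpr h⟩) :=
  dif_neg h

theorem classCharFun_mul (χ : ClassGroup (𝓞 K) →* ℂ) (I J : Ideal (𝓞 K)) :
    classCharFun χ (I * J) = classCharFun χ I * classCharFun χ J := by
  by_cases hI : I = ⊥
  · simp [hI, classCharFun]
  by_cases hJ : J = ⊥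
  · simp [hJ, classCharFun]
  rw [classCharFun_of_ne_bot χ (I := I * J) (mul_ne_zero hI hJ), classCharFun_of_ne_bot χ hI,
    classCharFun_of_ne_bot χ hJ, ← map_mul, ← map_mul]
  rfl

theorem classCharFun_top (χ : ClassGroup (𝓞 K) →* ℂ) :
    classCharFun χ (⊤ : Ideal (𝓞 K)) = 1 := by
  rw [classCharFun_of_ne_bot χ top_ne_bot, (ClassGroup.mk0_eq_one_iff _).mpr
    ⟨1, by simp⟩, map_one]

theorem idealWeight_bot {s : ℝ} (hs : 0 < s) : idealWeight s (⊥ : Ideal (𝓞 K)) = 0 := by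
  rw [idealWeight, Ideal.absNorm_bot, Nat.cast_zero, Real.zero_rpow (by linarith)]

theorem idealWeight_mul (s : ℝ) (I J : Ideal (𝓞 K)) :
    idealWeight s (I * J) = idealWeight s I * idealWeight s J := by
  rw [idealWeight, idealWeight, idealWeight, map_mul, Nat.cast_mul,
    Real.mul_rpow (Nat.cast_nonneg _) (Nat.cast_nonneg _)]

theorem idealWeight_top (s : ℝ) : idealWeight s (⊤ : Ideal (𝓞 K)) = 1 := by simp [idealWeight]

theorem summable_idealWeight {s : ℝ} (hs : 1 < s) :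
    Summable fun I : Ideal (𝓞 K) => idealWeight s I :=
  summable_of_sum_le (idealWeight_nonneg s) (sum_idealWeight_le_tsum_zetaTerm hs)

/-- The terms of the L-series of a class group character. -/
def lTerm (χ : ClassGroup (𝓞 K) →* ℂ) (s : ℝ) (I : Ideal (𝓞 K)) : ℂ :=
  classCharFun χ I * idealWeight s I

theorem lTerm_mul (χ : ClassGroup (𝓞 K) →* ℂ) (s : ℝ) (I J : Ideal (𝓞 K)) :
    lTerm χ s (I * J) = lTerm χ s I * lTerm χ s J := by
  unfold lTerm
  rw [classCharFun_mul, idealWeight_mul, Complex.ofReal_mul]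
  ring

theorem norm_lTerm_le {χ : ClassGroup (𝓞 K) →* ℂ} (hχ : ∀ C, ‖χ C‖ = 1) (s : ℝ)
    (I : Ideal (𝓞 K)) : ‖lTerm χ s I‖ ≤ idealWeight s I := by
  rw [lTerm, norm_mul, Complex.norm_real, Real.norm_of_nonneg (idealWeight_nonneg s I)]
  refine mul_le_of_le_one_left (idealWeight_nonneg s I) ?_
  unfold classCharFun
  split_ifs
  · simp
  · rw [hχ]

/-- The ideals all of whose prime divisors lie in a given set. -/
def supportedIdeals (S : Finset (Ideal (𝓞 K))) : Set (Ideal (𝓞 K)) :=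
  {I | I ≠ ⊥ ∧ ∀ P : Ideal (𝓞 K), P.IsPrime → P ≠ ⊥ → P ∣ I → P ∈ S}

theorem supportedIdeals_empty : supportedIdeals (∅ : Finset (Ideal (𝓞 K))) = {⊤} := by
  ext I
  simp only [supportedIdeals, Set.mem_ofPred_eq, Finset.notMem_empty, Set.mem_singleton_iff]
  constructor
  · rintro ⟨h0, h⟩
    by_contra hI
    obtain ⟨P, hP, hle⟩ := I.exists_le_maximal hI
    exact h P hP.isPrime (fun hb => h0 (le_bot_iff.mp (hb ▸ hle))) (Ideal.dvd_iff_le.mpr hle)
  · rintro rfl
    exact ⟨top_ne_bot, fun P hP _ hd => hP.ne_top (top_le_iff.mp (Ideal.dvd_iff_le.mp hd))⟩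

theorem summable_norm_of_le_idealWeight {f : Ideal (𝓞 K) → ℂ} {s : ℝ} (hs : 1 < s)
    (hle : ∀ I, ‖f I‖ ≤ idealWeight s I) : Summable fun I => ‖f I‖ :=
  Summable.of_nonneg_of_le (fun _ => norm_nonneg _) hle (summable_idealWeight hs)

theorem apply_bot_of_le_idealWeight {f : Ideal (𝓞 K) → ℂ} {s : ℝ} (hs : 1 < s)
    (hle : ∀ I, ‖f I‖ ≤ idealWeight s I) : f ⊥ = 0 := by
  simpa [idealWeight_bot (K := K) (by linarith : (0 : ℝ) < s)] using hle ⊥

/-- The Euler product over a finite set of primes, for a multiplicative function on ideals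
bounded by `(NI)⁻ˢ`. -/
theorem hasSum_supported {f : Ideal (𝓞 K) → ℂ} {s : ℝ} (hs : 1 < s) (htop : f ⊤ = 1)
    (hmul : ∀ I J, f (I * J) = f I * f J) (hle : ∀ I, ‖f I‖ ≤ idealWeight s I)
    (S : Finset (Ideal (𝓞 K))) (hS : ∀ P ∈ S, P.IsPrime ∧ P ≠ ⊥) :
    HasSum (fun I : supportedIdeals S => f I) (∏ P ∈ S, (1 - f P)⁻¹) := by
  induction S using Finset.induction_on with
  | empty =>
    rw [Finset.prod_empty, supportedIdeals_empty]
    convert hasSum_unique (fun I : ({⊤} : Set (Ideal (𝓞 K))) => f I) using 1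
    rw [Set.default_coe_singleton, htop]
  | insert P S hPS ih =>
    obtain ⟨hP, hP0⟩ := hS P (Finset.mem_insert_self _ _)
    have hS' : ∀ Q ∈ S, Q.IsPrime ∧ Q ≠ ⊥ := fun Q hQ => hS Q (Finset.mem_insert_of_mem hQ)
    have hPp : Prime P := Ideal.prime_of_isPrime hP0 hP
    have hndvd : ∀ J ∈ supportedIdeals S, ¬ P ∣ J := fun J hJ h => hPS (hJ.2 P hP hP0 h)
    have hmem : ∀ p : ℕ × supportedIdeals S,
        P ^ p.1 * (p.2 : Ideal (𝓞 K)) ∈ supportedIdeals (insert P S) := by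
      refine fun p => ⟨mul_ne_zero (pow_ne_zero _ hP0) p.2.2.1, fun Q hQ hQ0 hd => ?_⟩
      rcases (Ideal.prime_of_isPrime hQ0 hQ).dvd_or_dvd hd with h | h
      · exact Finset.mem_insert.mpr (Or.inl (associated_iff_eq.mp
          ((Ideal.prime_of_isPrime hQ0 hQ).associated_of_dvd hPp
            ((Ideal.prime_of_isPrime hQ0 hQ).dvd_of_dvd_pow h))))
      · exact Finset.mem_insert_of_mem (p.2.2.2 Q hQ hQ0 h)
    let e : ℕ × supportedIdeals S → supportedIdeals (insert P S) := fun p => ⟨_, hmem p⟩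
    have hbij : Function.Bijective e := by
      constructor
      · rintro ⟨k, J⟩ ⟨k', J'⟩ h
        have h' : P ^ k * (J : Ideal (𝓞 K)) = P ^ k' * (J' : Ideal (𝓞 K)) :=
          congrArg Subtype.val h
        have key : ∀ (k k' : ℕ) (J J' : supportedIdeals S), k ≤ k' →
            P ^ k * (J : Ideal (𝓞 K)) = P ^ k' * (J' : Ideal (𝓞 K)) → k = k' ∧ J = J' := by
          intro k k' J J' hle h
          obtain ⟨d, rfl⟩ := Nat.exists_eq_add_of_le hle
          rw [pow_add, mul_assoc] at h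
          have h2 := mul_left_cancel₀ (pow_ne_zero _ hP0) h
          rcases Nat.eq_zero_or_pos d with rfl | hd
          · exact ⟨rfl, Subtype.ext (by simpa using h2)⟩
          · exact absurd (h2 ▸ dvd_mul_of_dvd_left (dvd_pow_self P hd.ne') _) (hndvd J J.2)
        rcases le_total k k' with hle | hle
        · obtain ⟨rfl, rfl⟩ := key k k' J J' hle h'; rfl
        · obtain ⟨rfl, rfl⟩ := key k' k J' J hle h'.symm; rfl
      · rintro ⟨I, hI0, hI⟩
        obtain ⟨J, hIJ, hJ⟩ :=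
          (FiniteMultiplicity.of_prime_left hPp hI0).exists_eq_pow_mul_and_not_dvd
        refine ⟨(multiplicity P I, ⟨J, ?_, fun Q hQ hQ0 hd => ?_⟩), Subtype.ext hIJ.symm⟩
        · intro h0
          rw [h0] at hJ
          exact hJ (dvd_zero P)
        · rcases Finset.mem_insert.mp (hI Q hQ hQ0 (hIJ ▸ dvd_mul_of_dvd_right hd _)) with rfl | h
          · exact absurd hd hJ
          · exact h
    have hpow : ∀ k : ℕ, f (P ^ k) = f P ^ k := fun k => by
      induction k with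
      | zero => rw [pow_zero, pow_zero, Ideal.one_eq_top, htop]
      | succ k ih => rw [pow_succ, pow_succ, hmul, ih]
    have hsm : ‖f P‖ < 1 :=
      lt_of_le_of_lt ((hle P).trans (idealWeight_prime_le_half hs hP hP0)) (by norm_num)
    have hgeo := hasSum_geometric_of_norm_lt_one hsm
    have hg : Summable fun k : ℕ => ‖f P ^ k‖ := by
      simpa [norm_pow] using summable_geometric_of_lt_one (norm_nonneg _) hsm
    have hJ : Summable fun J : supportedIdeals S => ‖f J‖ :=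
      (summable_norm_of_le_idealWeight hs hle).subtype _
    have hprod : Summable fun q : ℕ × supportedIdeals S => f P ^ q.1 * f (q.2 : Ideal (𝓞 K)) :=
      summable_mul_of_summable_norm (f := fun k : ℕ => f P ^ k)
        (g := fun J : supportedIdeals S => f (J : Ideal (𝓞 K))) hg hJ
    have hmul' := hgeo.mul (ih hS') hprod
    rw [Finset.prod_insert hPS, ← (Equiv.ofBijective e hbij).hasSum_iff]
    refine hmul'.congr_fun fun p => ?_
    show f (P ^ p.1 * (p.2 : Ideal (𝓞 K))) = _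
    rw [hmul, hpow]

theorem norm_sub_tsum_le {α : Type*} {f : α → ℂ} (hf : Summable fun a => ‖f a‖)
    (A : Set α) (F : Finset α) (hFA : (F : Set α) ⊆ A) :
    ‖(∑' a, f a) - ∑' a : A, f a‖ ≤ (∑' a, ‖f a‖) - ∑ a ∈ F, ‖f a‖ := by
  have hc := hf.of_norm.tsum_subtype_add_tsum_subtype_compl A
  rw [show (∑' a, f a) - ∑' a : A, f a = ∑' a : (Aᶜ : Set α), f a by rw [← hc]; ring]
  refine (norm_tsum_le_tsum_norm (hf.subtype _)).trans ?_
  have h2 := hf.tsum_subtype_add_tsum_subtype_compl A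
  have h3 : ∑ a ∈ F, ‖f a‖ ≤ ∑' a : A, ‖f a‖ := by
    rw [tsum_subtype A fun a => ‖f a‖,
      ← Finset.sum_congr rfl fun a (ha : a ∈ F) =>
        Set.indicator_of_mem (hFA ha) fun a => ‖f a‖]
    exact (hf.indicator A).sum_le_tsum F fun a _ =>
      Set.indicator_nonneg (fun b _ => norm_nonneg (f b)) a
  linarith

/-- The primes in `T` together with those dividing a nonzero member of `F`. -/
def primesDividing (T F : Finset (Ideal (𝓞 K))) : Finset (Ideal (𝓞 K)) :=
  T ∪ (F.filter (· ≠ ⊥)).biUnion fun I =>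
    (UniqueFactorizationMonoid.normalizedFactors I).toFinset

theorem isPrime_of_mem_primesDividing {T F : Finset (Ideal (𝓞 K))}
    (hT : ∀ P ∈ T, P.IsPrime ∧ P ≠ ⊥) : ∀ P ∈ primesDividing T F, P.IsPrime ∧ P ≠ ⊥ := by
  intro P hP
  rcases Finset.mem_union.mp hP with h | h
  · exact hT P h
  · obtain ⟨I, -, hPI⟩ := Finset.mem_biUnion.mp h
    have := UniqueFactorizationMonoid.prime_of_normalized_factor P (Multiset.mem_toFinset.mp hPI)
    exact ⟨Ideal.isPrime_of_prime this, this.ne_zero⟩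

/-- As the finite set of ideals grows, the sum over the ideals supported at its prime divisors
tends to the sum over all ideals. -/
theorem tendsto_tsum_supported {f : Ideal (𝓞 K) → ℂ} {s : ℝ} (hs : 1 < s)
    (hle : ∀ I, ‖f I‖ ≤ idealWeight s I) (T : Finset (Ideal (𝓞 K))) :
    Tendsto (fun F => ∑' I : supportedIdeals (primesDividing T F), f I) atTop
      (𝓝 (∑' I, f I)) := by
  have hsum := summable_norm_of_le_idealWeight hs hle
  rw [tendsto_iff_norm_sub_tendsto_zero]
  refine squeeze_zero (fun F => norm_nonneg _) (fun F => ?_)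
    (g := fun F => (∑' I, ‖f I‖) - ∑ I ∈ F, ‖f I‖) ?_
  · rw [norm_sub_rev]
    refine (norm_sub_tsum_le hsum _ (F.filter (· ≠ ⊥)) ?_).trans (le_of_eq ?_)
    · intro I hI
      rw [Finset.mem_coe, Finset.mem_filter] at hI
      refine ⟨hI.2, fun P hP hP0 hd => Finset.mem_union_right _ (Finset.mem_biUnion.mpr
        ⟨I, Finset.mem_filter.mpr hI, Multiset.mem_toFinset.mpr ?_⟩)⟩
      exact (UniqueFactorizationMonoid.mem_normalizedFactors_iff hI.2).mpr
        ⟨Ideal.prime_of_isPrime hP0 hP, hd⟩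
    · congr 1
      refine Finset.sum_filter_of_ne fun I _ hI hb => hI ?_
      rw [hb, apply_bot_of_le_idealWeight hs hle, norm_zero]
  · have h0 := (tendsto_const_nhds (x := ∑' I, ‖f I‖)).sub
      (show Tendsto (fun F : Finset (Ideal (𝓞 K)) => ∑ I ∈ F, ‖f I‖) atTop _ from hsum.hasSum)
    rwa [sub_self] at h0

/-- A sum over all ideals, grouped by classes. -/
theorem hasSum_classes {f : Ideal (𝓞 K) → ℂ} {s : ℝ} (hs : 1 < s)
    (hle : ∀ I, ‖f I‖ ≤ idealWeight s I) {g : ClassGroup (𝓞 K) → ℂ}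
    (hfib : ∀ C, HasSum (fun I : IdealsInClass K C => f I.1) (g C)) :
    HasSum f (∑ C, g C) := by
  let ι : (Σ C : ClassGroup (𝓞 K), IdealsInClass K C) → Ideal (𝓞 K) := fun x => (x.2.1 : Ideal _)
  have hinj : Function.Injective ι := by
    rintro ⟨C, I, hI⟩ ⟨C', I', hI'⟩ h
    obtain rfl : I = I' := Subtype.ext h
    subst hI hI'
    rfl
  have hsupp : ∀ I, I ∉ Set.range ι → f I = 0 := by
    intro I hI
    by_cases h : I = ⊥
    · rw [h, apply_bot_of_le_idealWeight hs hle]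
    · exact absurd ⟨⟨_, ⟨⟨I, mem_nonZeroDivisors_iff_ne_zero.mpr h⟩, rfl⟩⟩, rfl⟩ hI
  rw [← hinj.hasSum_iff hsupp]
  have hall : Summable (f ∘ ι) :=
    ((summable_norm_of_le_idealWeight hs hle).of_norm).comp_injective hinj
  have h := hall.hasSum
  rwa [(h.sigma hfib).unique (hasSum_fintype g)] at h

/-- The sum of the terms of the L-series, grouped by classes. -/
theorem hasSum_lTerm_class (χ : ClassGroup (𝓞 K) →* ℂ) (hχ : ∀ C, ‖χ C‖ = 1) {s : ℝ}
    (hs : 1 < s) :
    HasSum (lTerm χ s) (∑ C, χ C * (classZeta K C s : ℂ)) := by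
  refine hasSum_classes hs (norm_lTerm_le hχ s) fun C => ?_
  refine ((Complex.hasSum_ofReal.mpr (summable_idealWeight_class C hs).hasSum).mul_left
    (χ C)).congr_fun fun I => ?_
  rw [lTerm, classCharFun_of_ne_bot χ (nonZeroDivisors.coe_ne_zero I.1)]
  congr 1
  exact congrArg χ I.2

theorem prod_range_one_sub_root_mul {p : ℕ} (hp : 0 < p) {ω : ℂ} (hω : IsPrimitiveRoot ω p)
    (x : ℂ) : ∏ i ∈ Finset.range p, (1 - ω ^ i * x) = 1 - x ^ p := by
  have h := congrArg (Polynomial.eval 1) (X_pow_sub_C_eq_prod hω hp (rfl : x ^ p = x ^ p))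
  simp [Polynomial.eval_prod] at h
  exact h.symm

/-- The product of all twists of a local Euler factor by the characters of a finite group. -/
theorem one_le_norm_prod_chars {Q : Type*} [CommGroup Q] [Finite Q] [Fintype (Q →* ℂˣ)] (c : Q)
    {x : ℝ} (hx0 : 0 ≤ x) (hx : x ≤ 1 / 2) :
    1 ≤ ‖∏ ψ : Q →* ℂˣ, (1 - (ψ c : ℂ) * (x : ℂ))⁻¹‖ ∧
      (c = 1 → Real.exp (Nat.card Q * x) ≤ ‖∏ ψ : Q →* ℂˣ, (1 - (ψ c : ℂ) * (x : ℂ))⁻¹‖) := by
  have hcard : Fintype.card (Q →* ℂˣ) = Nat.card Q := by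
    rw [← Nat.card_eq_fintype_card]
    have : HasEnoughRootsOfUnity ℂ (Monoid.exponent Q) :=
      haveI : NeZero (Monoid.exponent Q) := ⟨Monoid.ExponentExists.of_finite.exponent_ne_zero⟩
      inferInstance
    exact CommGroup.card_monoidHom_of_hasEnoughRootsOfUnity Q ℂ
  have hone : c = 1 → Real.exp (Nat.card Q * x) ≤
      ‖∏ ψ : Q →* ℂˣ, (1 - (ψ c : ℂ) * (x : ℂ))⁻¹‖ := by
    intro h
    simp only [h, map_one, Units.val_one, one_mul, Finset.prod_const, Finset.card_univ, hcard]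
    rw [← Complex.ofReal_one, ← Complex.ofReal_sub, norm_pow, norm_inv, Complex.norm_real,
      Real.norm_of_nonneg (by linarith), Real.exp_nat_mul]
    refine pow_le_pow_left₀ (Real.exp_pos x).le ?_ _
    have h1 : 1 - x ≤ Real.exp (-x) := by linarith [Real.add_one_le_exp (-x)]
    have h2 := inv_anti₀ (by linarith : (0 : ℝ) < 1 - x) h1
    rwa [Real.exp_neg, inv_inv] at h2
  refine ⟨?_, hone⟩
  let ev : (Q →* ℂˣ) →* ℂˣ :=
    { toFun := fun ψ => ψ c, map_one' := rfl, map_mul' := fun _ _ => rfl }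
  set R : Subgroup ℂˣ := ev.range
  have : Finite R := Finite.of_surjective ev.rangeRestrict ev.rangeRestrict_surjective
  set f := Nat.card R
  have hf : 0 < f := Nat.card_pos
  set img : Finset ℂˣ := Finset.univ.image ev
  have himg : ∀ b, b ∈ img ↔ b ∈ R := fun b => by simp [img, R]
  have hfib : ∀ b ∈ img, (Finset.univ.filter fun ψ => ev ψ = b).card =
      (Finset.univ.filter fun ψ => ev ψ = 1).card := fun b hb =>
    MonoidHom.card_fiber_eq_of_mem_range ev (by simpa [img] using hb) ⟨1, map_one ev⟩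
  set m := (Finset.univ.filter fun ψ => ev ψ = 1).card
  have hroots : img.image (fun b : ℂˣ => (b : ℂ)) = Polynomial.nthRootsFinset f (1 : ℂ) := by
    refine Finset.eq_of_subset_of_card_le ?_ ?_
    · intro z hz
      obtain ⟨b, hb, rfl⟩ := Finset.mem_image.1 hz
      rw [Polynomial.mem_nthRootsFinset hf, ← Units.val_pow_eq_pow_val, Units.val_eq_one]
      have := pow_card_eq_one' (x := (⟨b, (himg b).1 hb⟩ : R))
      exact congrArg Subtype.val this
    · rw [Finset.card_image_of_injective _ Units.val_injective]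
      refine le_trans ?_ (le_of_eq (?_ : f = img.card))
      · rw [(Complex.isPrimitiveRoot_exp f hf.ne').card_nthRootsFinset]
      · simp only [f]
        rw [← Nat.card_eq_finsetCard]
        exact Nat.card_congr (Equiv.subtypeEquivRight fun b => (himg b).symm)
  have hprod : ∏ ψ : Q →* ℂˣ, (1 - (ψ c : ℂ) * (x : ℂ)) = (1 - (x : ℂ) ^ f) ^ m := by
    show ∏ ψ : Q →* ℂˣ, (fun b : ℂˣ => 1 - (b : ℂ) * (x : ℂ)) (ev ψ) = _
    rw [Finset.prod_comp (fun b : ℂˣ => 1 - (b : ℂ) * (x : ℂ)) ev,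
      Finset.prod_congr rfl fun b hb => by rw [hfib b hb], Finset.prod_pow]
    congr 1
    rw [← prod_range_one_sub_root_mul hf (Complex.isPrimitiveRoot_exp f hf.ne') (x : ℂ)]
    set ω := Complex.exp (2 * Real.pi * Complex.I / f)
    have hω := Complex.isPrimitiveRoot_exp f hf.ne'
    have e1 : ∏ b ∈ img, (1 - (b : ℂ) * (x : ℂ)) =
        ∏ z ∈ Polynomial.nthRootsFinset f (1 : ℂ), (1 - z * (x : ℂ)) := by
      rw [← hroots, Finset.prod_image fun a _ b _ h => Units.val_injective h]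
    have e2 : Polynomial.nthRootsFinset f (1 : ℂ) = (Finset.range f).image (ω ^ ·) := by
      refine (Finset.eq_of_subset_of_card_le ?_ ?_).symm
      · intro z hz
        obtain ⟨i, -, rfl⟩ := Finset.mem_image.1 hz
        rw [Polynomial.mem_nthRootsFinset hf, ← pow_mul, mul_comm, pow_mul, hω.pow_eq_one, one_pow]
      · rw [hω.card_nthRootsFinset, Finset.card_image_of_injOn
          (fun a ha b hb h => hω.pow_inj (Finset.mem_range.1 ha) (Finset.mem_range.1 hb) h),
          Finset.card_range]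
    rw [e1, e2, Finset.prod_image
      (fun a ha b hb h => hω.pow_inj (Finset.mem_range.1 ha) (Finset.mem_range.1 hb) h)]
  rw [Finset.prod_inv_distrib, hprod, norm_inv, norm_pow,
    ← Complex.ofReal_pow, ← Complex.ofReal_one, ← Complex.ofReal_sub, Complex.norm_real,
    Real.norm_eq_abs]
  have h4 : 0 ≤ x ^ f := pow_nonneg hx0 f
  have h3 : x ^ f ≤ 1 / 2 := (pow_le_of_le_one hx0 (by linarith) hf.ne').trans hx
  rw [abs_of_nonneg (by linarith)]
  exact (one_le_inv₀ (pow_pos (by linarith) _)).mpr (pow_le_one₀ (by linarith) (by linarith))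

/-- The character of the class group attached to a character of a quotient. -/
def quotChar (H : Subgroup (ClassGroup (𝓞 K))) (ψ : ClassGroup (𝓞 K) ⧸ H →* ℂˣ) :
    ClassGroup (𝓞 K) →* ℂ :=
  (Units.coeHom ℂ).comp (ψ.comp (QuotientGroup.mk' H))

omit [NumberField K] in
theorem quotChar_apply (H : Subgroup (ClassGroup (𝓞 K))) (ψ : ClassGroup (𝓞 K) ⧸ H →* ℂˣ)
    (C : ClassGroup (𝓞 K)) : quotChar H ψ C = ((ψ (QuotientGroup.mk C) : ℂˣ) : ℂ) := rfl

theorem norm_quotChar (H : Subgroup (ClassGroup (𝓞 K))) (ψ : ClassGroup (𝓞 K) ⧸ H →* ℂˣ)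
    (C : ClassGroup (𝓞 K)) : ‖quotChar H ψ C‖ = 1 := by
  refine Complex.norm_eq_one_of_pow_eq_one (n := Nat.card (ClassGroup (𝓞 K) ⧸ H)) ?_
    Nat.card_pos.ne'
  rw [quotChar_apply, ← Units.val_pow_eq_pow_val, ← map_pow, pow_card_eq_one', map_one,
    Units.val_one]

theorem exp_mul_sum_le_norm_prod_chars (H : Subgroup (ClassGroup (𝓞 K)))
    [Fintype (ClassGroup (𝓞 K) ⧸ H →* ℂˣ)] {s : ℝ} (hs : 1 < s) (T : Finset (Ideal (𝓞 K)))
    (hT : ∀ P ∈ T, P.IsPrime ∧ ∃ h : P ≠ ⊥,
      ClassGroup.mk0 ⟨P, mem_nonZeroDivisors_iff_ne_zero.mpr h⟩ ∈ H) :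
    Real.exp (H.index * ∑ P ∈ T, idealWeight s P) ≤
      ‖∏ ψ : ClassGroup (𝓞 K) ⧸ H →* ℂˣ, ∑' I, lTerm (quotChar H ψ) s I‖ := by
  let partialProd : Finset (Ideal (𝓞 K)) → ℂ := fun S =>
    ∏ ψ : ClassGroup (𝓞 K) ⧸ H →* ℂˣ, ∑' I : supportedIdeals S, lTerm (quotChar H ψ) s I
  have hprimes : ∀ F, ∀ P ∈ primesDividing T F, P.IsPrime ∧ P ≠ ⊥ := fun F =>
    isPrime_of_mem_primesDividing fun P hP => ⟨(hT P hP).1, (hT P hP).2.1⟩
  have hlower : ∀ F, Real.exp (H.index * ∑ P ∈ T, idealWeight s P) ≤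
      ‖partialProd (primesDividing T F)‖ := by
    intro F
    have hS := hprimes F
    simp only [partialProd]
    rw [Finset.prod_congr rfl fun ψ _ =>
        (hasSum_supported hs (by rw [lTerm, classCharFun_top, idealWeight_top, Complex.ofReal_one,
          one_mul]) (lTerm_mul _ s) (norm_lTerm_le (norm_quotChar H ψ) s) _ hS).tsum_eq,
      Finset.prod_comm, norm_prod, Finset.mul_sum, Real.exp_sum]
    have hterm : ∀ P ∈ primesDividing T F,
        1 ≤ ‖∏ ψ : ClassGroup (𝓞 K) ⧸ H →* ℂˣ, (1 - lTerm (quotChar H ψ) s P)⁻¹‖ ∧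
        ((∃ h : P ≠ ⊥, ClassGroup.mk0 ⟨P, mem_nonZeroDivisors_iff_ne_zero.mpr h⟩ ∈ H) →
          Real.exp (H.index * idealWeight s P) ≤
            ‖∏ ψ : ClassGroup (𝓞 K) ⧸ H →* ℂˣ, (1 - lTerm (quotChar H ψ) s P)⁻¹‖) := by
      intro P hP
      simp only [lTerm, classCharFun_of_ne_bot _ (hS P hP).2, quotChar_apply]
      obtain ⟨h1, h2⟩ := one_le_norm_prod_chars
        (QuotientGroup.mk (s := H)
          (ClassGroup.mk0 ⟨P, mem_nonZeroDivisors_iff_ne_zero.mpr (hS P hP).2⟩))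
        (idealWeight_nonneg s P) (idealWeight_prime_le_half hs (hS P hP).1 (hS P hP).2)
      exact ⟨h1, fun ⟨_, h⟩ => h2 ((QuotientGroup.eq_one_iff _).2 h)⟩
    calc ∏ P ∈ T, Real.exp (H.index * idealWeight s P)
        ≤ ∏ P ∈ T, ‖∏ ψ : ClassGroup (𝓞 K) ⧸ H →* ℂˣ, (1 - lTerm (quotChar H ψ) s P)⁻¹‖ :=
          Finset.prod_le_prod (fun _ _ => (Real.exp_pos _).le) fun P hP =>
            (hterm P (Finset.mem_union_left _ hP)).2 (hT P hP).2
      _ ≤ _ := Finset.prod_le_prod_of_subset_of_one_le Finset.subset_union_left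
            (fun P _ => norm_nonneg _) fun P hP _ => (hterm P hP).1
  exact ge_of_tendsto' ((tendsto_finsetProd Finset.univ fun ψ _ =>
    tendsto_tsum_supported hs (norm_lTerm_le (norm_quotChar H ψ) s) T).norm) fun F => hlower F

/-- Primes with class in `H` have density at most `1 / [Cl : H]`. -/
theorem exists_density_bound_subgroup (H : Subgroup (ClassGroup (𝓞 K))) :
    ∃ B : ℝ, ∀ᶠ s in 𝓝[>] (1 : ℝ), ∀ T : Finset (Ideal (𝓞 K)),
      (∀ P ∈ T, P.IsPrime ∧ ∃ h : P ≠ ⊥,
        ClassGroup.mk0 ⟨P, mem_nonZeroDivisors_iff_ne_zero.mpr h⟩ ∈ H) →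
      (H.index : ℝ) * ∑ P ∈ T, idealWeight s P ≤ -Real.log (s - 1) + B := by
  obtain ⟨M, hM⟩ := exists_abs_classZeta_sub_le K
  obtain ⟨C₁, hC₁⟩ := eventually_abs_primeTerm_add_log_le K
  have : Fintype (ClassGroup (𝓞 K) ⧸ H →* ℂˣ) := Fintype.ofFinite _
  set h : ℝ := (Fintype.card (ClassGroup (𝓞 K)) : ℝ)
  set B₁ : ℝ := max 1 (h * |M|)
  set k : ℕ := Fintype.card (ClassGroup (𝓞 K) ⧸ H →* ℂˣ)
  refine ⟨C₁ + 3 * (Module.finrank ℚ K * primeSqSum) + k * Real.log B₁, ?_⟩
  filter_upwards [hC₁, Ioo_mem_nhdsGT (one_lt_two (α := ℝ))] with s hs hs12 T hT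
  have hs1 : 1 < s := hs12.1
  have hL : ∀ ψ : ClassGroup (𝓞 K) ⧸ H →* ℂˣ, ‖∑' I, lTerm (quotChar H ψ) s I‖ ≤
      ∑' n, zetaTerm K s n := fun ψ =>
    (norm_tsum_le_tsum_norm
      (summable_norm_of_le_idealWeight hs1 (norm_lTerm_le (norm_quotChar H ψ) s))).trans
      (Real.tsum_le_of_sum_le (fun _ => norm_nonneg _) fun F =>
        (Finset.sum_le_sum fun I _ => norm_lTerm_le (norm_quotChar H ψ) s I).trans
          (sum_idealWeight_le_tsum_zetaTerm hs1 F))
  have hLi : ∀ ψ ∈ (Finset.univ : Finset (ClassGroup (𝓞 K) ⧸ H →* ℂˣ)).erase 1,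
      ‖∑' I, lTerm (quotChar H ψ) s I‖ ≤ B₁ := by
    intro ψ hψ
    obtain ⟨C₀, hC₀⟩ : ∃ C₀, quotChar H ψ C₀ ≠ 1 := by
      by_contra hc
      push Not at hc
      refine (Finset.mem_erase.1 hψ).1 (MonoidHom.ext fun q => ?_)
      obtain ⟨C, rfl⟩ := QuotientGroup.mk_surjective q
      exact Units.ext (hc C)
    have horth : ∑ C, quotChar H ψ C = 0 := by
      have : quotChar H ψ C₀ * ∑ C, quotChar H ψ C = ∑ C, quotChar H ψ C := by
        rw [Finset.mul_sum]
        exact Fintype.sum_equiv (Equiv.mulLeft C₀) _ _ fun C => (map_mul (quotChar H ψ) C₀ C).symm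
      by_contra h0
      exact hC₀ (mul_right_cancel₀ h0 (by rwa [one_mul]))
    rw [(hasSum_lTerm_class (quotChar H ψ) (norm_quotChar H ψ) hs1).tsum_eq]
    have hrw : ∑ C, quotChar H ψ C * (classZeta K C s : ℂ) =
        ∑ C, quotChar H ψ C * ((classZeta K C s - classZeta K 1 s : ℝ) : ℂ) := by
      simp_rw [Complex.ofReal_sub, mul_sub, Finset.sum_sub_distrib, ← Finset.sum_mul, horth,
        zero_mul, sub_zero]
    rw [hrw]
    refine ((norm_sum_le _ _).trans (Finset.sum_le_card_nsmul _ _ |M| fun C _ => ?_)).trans ?_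
    · rw [norm_mul, norm_quotChar, one_mul, Complex.norm_real, Real.norm_eq_abs]
      exact (hM C 1 s hs1 hs12.2.le).trans (le_abs_self M)
    · rw [nsmul_eq_mul, Finset.card_univ]
      exact le_max_right _ _
  have hkey := exp_mul_sum_le_norm_prod_chars H hs1 T hT
  rw [norm_prod, ← Finset.mul_prod_erase _ _ (Finset.mem_univ 1)] at hkey
  have hexp : Real.exp ((H.index : ℝ) * ∑ P ∈ T, idealWeight s P) ≤
      Real.exp (∑' q, primeTerm K s q + 3 * (Module.finrank ℚ K * primeSqSum)) *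
        Real.exp ((k : ℝ) * Real.log B₁) := by
    refine hkey.trans (mul_le_mul ((hL 1).trans (tsum_zetaTerm_le hs1)) ?_
      (Finset.prod_nonneg fun _ _ => norm_nonneg _) (Real.exp_pos _).le)
    have hB1 : 1 ≤ B₁ := le_max_left _ _
    rw [Real.exp_nat_mul, Real.exp_log (by linarith)]
    calc ∏ ψ ∈ Finset.univ.erase 1, ‖∑' I, lTerm (quotChar H ψ) s I‖
        ≤ ∏ _ψ ∈ (Finset.univ : Finset (ClassGroup (𝓞 K) ⧸ H →* ℂˣ)).erase 1, B₁ :=
          Finset.prod_le_prod (fun _ _ => norm_nonneg _) hLi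
      _ ≤ B₁ ^ k := by
          rw [Finset.prod_const]
          exact pow_le_pow_right₀ hB1 (Finset.card_erase_le.trans (Finset.card_univ).le)
  rw [← Real.exp_add, Real.exp_le_exp] at hexp
  linarith [(abs_le.mp hs).2]

/-- A nontrivial character of order `p` of the class group is trivial only on a set of primes of
density at most `1 / p`. -/
theorem exists_density_bound {p : ℕ} (hp : p.Prime) (χ : ClassGroup (𝓞 K) →* ℂ)
    (hχ : ∀ C, χ C ^ p = 1) (hne : χ ≠ 1) :
    ∃ B : ℝ, ∀ᶠ s in 𝓝[>] (1 : ℝ), ∀ T : Finset (Ideal (𝓞 K)),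
      (∀ P ∈ T, P.IsPrime ∧ P ≠ ⊥ ∧ classCharFun χ P = 1) →
      (p : ℝ) * ∑ P ∈ T, idealWeight s P ≤ -Real.log (s - 1) + B := by
  have : NeZero p := ⟨hp.ne_zero⟩
  have hidx : χ.toHomUnits.ker.index = p := by
    rw [Subgroup.index_ker]
    have hle : χ.toHomUnits.range ≤ rootsOfUnity p ℂ := by
      rintro _ ⟨C, rfl⟩
      rw [mem_rootsOfUnity, Units.ext_iff]
      simpa using hχ C
    have hdvd := Subgroup.card_dvd_of_le hle
    rw [HasEnoughRootsOfUnity.natCard_rootsOfUnity ℂ p] at hdvd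
    refine ((Nat.dvd_prime hp).mp hdvd).resolve_left fun h1 => hne (MonoidHom.ext fun C => ?_)
    have hC : χ.toHomUnits C ∈ χ.toHomUnits.range := ⟨C, rfl⟩
    rw [Subgroup.card_eq_one.mp h1, Subgroup.mem_bot] at hC
    simpa using congrArg Units.val hC
  obtain ⟨B, hB⟩ := exists_density_bound_subgroup χ.toHomUnits.ker
  refine ⟨B, hB.mono fun s hs T hT => hidx ▸ hs T fun P hP => ⟨(hT P hP).1, (hT P hP).2.1, ?_⟩⟩
  rw [MonoidHom.mem_ker, Units.ext_iff]
  simpa [classCharFun_of_ne_bot χ (hT P hP).2.1] using (hT P hP).2.2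

end Fermat.Agent.ExtVanish
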