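import Fermat.Agent.ExtVanish.ClassTrivial

/-!
# Vanishing of unramified Kummer classes

An element of the `ω²`-eigenspace of `ℚ(ζ_p)ˣ` modulo `p`-th powers with an everywhere
unramified `p`-th root is a `p`-th power (`kummer_trivial`); the case `p = 3` is elementary.
-/

set_option autoImplicit false

noncomputable section

namespace Fermat.Agent.ExtVanish

open NumberField UniqueFactorizationMonoid
open scoped Classical Pointwise nonZeroDivisors

variable {p : ℕ} [hp : Fact p.Prime] {K : Type} [Field K] [NumberField K]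
  {M : Type} [Field M] [NumberField M] [Algebra K M]

omit hp in
theorem le_idealCount_of_mem_pow {Q : Ideal (𝓞 K)} (hQ : Q.IsPrime) (hQ0 : Q ≠ ⊥) {x : 𝓞 K}
    (hx : x ≠ 0) {n : ℕ} (h : x ∈ Q ^ n) : n ≤ idealCount Q (Ideal.span {x}) := by
  obtain ⟨J, hJ⟩ := Ideal.dvd_iff_le.mpr ((Ideal.span_singleton_le_iff_mem _).mpr h)
  have hJ0 : J ≠ ⊥ := fun hJ0 => by
    rw [hJ0, Ideal.mul_bot] at hJ
    exact hx (Ideal.span_singleton_eq_bot.mp hJ)
  rw [hJ, idealCount_mul Q (pow_ne_zero _ hQ0) hJ0, idealCount_pow, idealCount_self hQ hQ0, mul_one]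
  exact Nat.le_add_right _ _

omit hp in
theorem exists_ideal_pow_eq {I : Ideal (𝓞 K)} (hI : I ≠ ⊥)
    (h : ∀ q : Ideal (𝓞 K), q.IsPrime → q ≠ ⊥ → p ∣ idealCount q I) :
    ∃ J : Ideal (𝓞 K), J ^ p = I := by
  obtain ⟨u, hu⟩ := Multiset.exists_smul_of_dvd_count (normalizedFactors I) (k := p)
    fun q hq => h q (Ideal.isPrime_of_prime (prime_of_normalized_factor q hq))
      (prime_of_normalized_factor q hq).ne_zero
  exact ⟨u.prod, by rw [← Multiset.prod_nsmul, ← hu, Ideal.prod_normalizedFactors_eq_self hI]⟩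

theorem ideal_pow_injective {A B : Ideal (𝓞 K)} (hA : A ≠ ⊥) (hB : B ≠ ⊥) (h : A ^ p = B ^ p) :
    A = B := by
  rw [← Ideal.prod_normalizedFactors_eq_self hA, ← Ideal.prod_normalizedFactors_eq_self hB]
  congr 1
  ext q
  have h1 := congrArg (idealCount q) h
  rw [idealCount_pow, idealCount_pow] at h1
  exact Nat.eq_of_mul_eq_mul_left hp.out.pos h1

omit hp [NumberField M] in
theorem exists_prime_over (q : Ideal (𝓞 K)) (hq : q.IsPrime) (hq0 : q ≠ ⊥) :
    ∃ Q : Ideal (𝓞 M), Q.IsPrime ∧ Q ≠ ⊥ ∧ Q.under (𝓞 K) = q := by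
  have : q.IsMaximal := hq.isMaximal hq0
  obtain ⟨Q, hQ, hQq⟩ := Ideal.exists_ideal_over_maximal_of_isIntegral (S := 𝓞 M) q (by
    rw [(RingHom.injective_iff_ker_eq_bot _).mp (FaithfulSMul.algebraMap_injective (𝓞 K) (𝓞 M))]
    exact bot_le)
  refine ⟨Q, hQ.isPrime, fun h => hq0 ?_, hQq⟩
  rw [← hQq, h, Ideal.comap_bot_of_injective _ (FaithfulSMul.algebraMap_injective (𝓞 K) (𝓞 M))]

omit hp in
theorem units_zmod_three (u : (ZMod 3)ˣ) : u = 1 ∨ u = -1 := by
  have h : ∀ a b : ZMod 3, a * b = 1 → a = 1 ∨ a = -1 := by decide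
  rcases h u (u⁻¹ : (ZMod 3)ˣ) (by rw [← Units.val_mul, mul_inv_cancel, Units.val_one]) with h | h
  · exact Or.inl (Units.ext h)
  · exact Or.inr (Units.ext (by simpa using h))

variable (hunr : ∀ Q : Ideal (𝓞 M), Q.IsPrime → Q ≠ ⊥ → Q.ramificationIdx (𝓞 K) = 1)

include hunr in
theorem dvd_idealCount_of_pow {x : 𝓞 K} (hx : x ≠ 0) {β : M}
    (hβ : β ^ p = algebraMap K M (x : K)) {q : Ideal (𝓞 K)} (hq : q.IsPrime) (hq0 : q ≠ ⊥) :
    p ∣ idealCount q (Ideal.span {x}) := by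
  obtain ⟨Q, hQ, hQ0, hQq⟩ := exists_prime_over (M := M) q hq hq0
  let β' : 𝓞 M := ⟨β, IsIntegral.of_pow hp.out.pos (hβ ▸ map_isIntegral_int (algebraMap K M) x.2)⟩
  have hβ' : algebraMap (𝓞 K) (𝓞 M) x = β' ^ p := RingOfIntegers.ext hβ.symm
  have h := idealCount_map hQ hQ0 (I := Ideal.span {x}) (by simpa using hx)
  rw [hunr Q hQ hQ0, one_mul, hQq, Ideal.map_span, Set.image_singleton, hβ',
    ← Ideal.span_singleton_pow, idealCount_pow] at h
  exact ⟨_, h.symm⟩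

variable [hK : IsCyclotomicExtension {p} ℚ K] {ζ : K} (hζ : IsPrimitiveRoot ζ p)

include hunr in
/-- Roots of powers prime to `p` of the eigen unit ramify above `p`. -/
theorem pow_ne_eigenUnit_pow (hp3 : 3 < p) (γ : M) {k : ℕ} (hk : ¬ p ∣ k) :
    γ ^ p ≠ algebraMap K M (((eigenUnit hζ : 𝓞 K) : K) ^ k) := by
  intro hγ
  let γ' : 𝓞 M := ⟨γ, IsIntegral.of_pow hp.out.pos
    (hγ ▸ map_isIntegral_int (algebraMap K M) (((eigenUnit hζ : 𝓞 K).2).pow k))⟩
  set f := algebraMap (𝓞 K) (𝓞 M)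
  have hγ' : f ((eigenUnit hζ : 𝓞 K) ^ k) = γ' ^ p := RingOfIntegers.ext hγ.symm
  obtain ⟨m, ⟨r, hr⟩, h3⟩ := exists_int_sub_eigenUnit_pow hζ hp3 hk
  have hπ := prime_piElt hζ
  set q : Ideal (𝓞 K) := Ideal.span {piElt hζ}
  have hq : q.IsPrime := (Ideal.span_singleton_prime hπ.ne_zero).mpr hπ
  have hq0 : q ≠ ⊥ := by simpa [q] using hπ.ne_zero
  obtain ⟨Q, hQ, hQ0, hQq⟩ := exists_prime_over (M := M) q hq hq0
  have hfmem : ∀ a, f a ∈ Q ↔ piElt hζ ∣ a := fun a => by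
    rw [← Ideal.mem_comap]
    show a ∈ Q.under (𝓞 K) ↔ _
    rw [hQq, Ideal.mem_span_singleton]
  have hf0 : ∀ a, a ≠ 0 → f a ≠ 0 := fun a ha =>
    (map_ne_zero_iff f (FaithfulSMul.algebraMap_injective (𝓞 K) (𝓞 M))).mpr ha
  have hπcount : idealCount Q (Ideal.span {f (piElt hζ ^ 2)}) = 2 := by
    rw [map_pow, ← Ideal.span_singleton_pow, idealCount_pow]
    have h := idealCount_map hQ hQ0 (I := q) hq0
    rw [hunr Q hQ hQ0, one_mul, hQq, idealCount_self hq hq0, Ideal.map_span,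
      Set.image_singleton] at h
    rw [h, mul_one]
  have hnot : f ((eigenUnit hζ : 𝓞 K) ^ k - m) ∉ Q ^ 3 := by
    rw [hr, map_mul]
    intro hmem
    have hπ2 : f (piElt hζ ^ 2) ∉ Q ^ 3 := fun h => by
      have := le_idealCount_of_mem_pow hQ hQ0 (hf0 _ (pow_ne_zero _ hπ.ne_zero)) h
      omega
    have hmem' := Ideal.mem_prime_of_mul_mem_pow hQ0 hπ2 hmem
    obtain ⟨r', hr'⟩ := (hfmem r).mp hmem'
    exact h3 ⟨r', by rw [hr, hr']; ring⟩
  have hpQ : ((p : ℕ) : 𝓞 M) ∈ Q ^ 3 := by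
    obtain ⟨c, hc⟩ := pi_pow_dvd_natCast_p hζ
    rw [← map_natCast f p, hc, map_mul, map_pow]
    exact Ideal.mul_mem_right _ _ (Ideal.pow_le_pow_right (show 3 ≤ p - 1 by omega)
      (Ideal.pow_mem_pow ((hfmem _).mpr dvd_rfl) _))
  obtain ⟨s, hs⟩ := exists_add_pow_prime_eq hp.out (γ' - (m : 𝓞 M)) (m : 𝓞 M)
  obtain ⟨t, ht⟩ : (p : ℤ) ∣ m ^ p - m := by
    rw [← ZMod.intCast_zmod_eq_zero_iff_dvd]
    push_cast
    rw [ZMod.pow_card, sub_self]
  have ht' : (m : 𝓞 M) ^ p - m = p * t := by exact_mod_cast congrArg (Int.cast : ℤ → 𝓞 M) ht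
  have hdiff : (γ' - (m : 𝓞 M)) ^ p - f ((eigenUnit hζ : 𝓞 K) ^ k - m) ∈ Q ^ 3 := by
    rw [sub_add_cancel] at hs
    rw [map_sub, map_intCast, hγ', show (γ' - (m : 𝓞 M)) ^ p - (γ' ^ p - m) =
      (p : 𝓞 M) * (-(t : 𝓞 M) - (γ' - m) * m * s) by linear_combination -hs - ht']
    exact Ideal.mul_mem_right _ _ hpQ
  have hQ3 : (γ' - (m : 𝓞 M)) ^ p ∈ Q := by
    have hD : f ((eigenUnit hζ : 𝓞 K) ^ k - m) ∈ Q :=
      (hfmem _).mpr (by rw [hr, pow_two, mul_assoc]; exact dvd_mul_right _ _)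
    exact (Submodule.sub_mem_iff_left Q hD).mp (Ideal.pow_le_self three_ne_zero hdiff)
  have hpow : (γ' - (m : 𝓞 M)) ^ p ∈ Q ^ 3 :=
    Ideal.pow_le_pow_right (by omega) (Ideal.pow_mem_pow (hQ.mem_of_pow_mem p hQ3) p)
  exact hnot ((Submodule.sub_mem_iff_right _ hpow).mp hdiff)

omit hK in
theorem exists_ringOfIntegers_div (x : K) : ∃ a b : 𝓞 K, b ≠ 0 ∧ x = (a : K) / (b : K) := by
  obtain ⟨a, b, hb, h⟩ := IsFractionRing.div_surjective (A := 𝓞 K) x
  exact ⟨a, b, nonZeroDivisors.ne_zero hb, h.symm⟩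

omit hK in
theorem gal_smul_span_singleton (σ : Gal(K/ℚ)) (a : 𝓞 K) :
    σ • Ideal.span {a} = Ideal.span {σ • a} := by
  rw [Ideal.pointwise_smul_def, Ideal.map_span, Set.image_singleton]
  rfl

include hζ hunr in
/-- The case `p > 3` of `kummer_trivial`, for integral `x`. -/
theorem kummerTrivial_of_three_lt (hp3 : 3 < p) {x : 𝓞 K} (hx : x ≠ 0) {β : M}
    (hβ : β ^ p = algebraMap K M (x : K))
    (heig : ∀ σ : Gal(K/ℚ), ∃ y : K,
      σ (x : K) = (x : K) ^ ((cexp p σ ^ 2 : (ZMod p)ˣ) : ZMod p).val * y ^ p) :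
    ∃ y : K, y ^ p = (x : K) := by
  have hxI : Ideal.span {x} ≠ ⊥ := by simpa using hx
  obtain ⟨A, hA⟩ := exists_ideal_pow_eq (p := p) hxI
    fun q hq hq0 => dvd_idealCount_of_pow hunr hx hβ hq hq0
  have hA0 : A ≠ ⊥ := fun h => hxI (by
    rw [← hA, h, ← Ideal.zero_eq_bot, zero_pow hp.out.ne_zero])
  set A' : (Ideal (𝓞 K))⁰ := ⟨A, mem_nonZeroDivisors_iff_ne_zero.mpr hA0⟩
  have hC : ClassGroup.mk0 A' ^ p = 1 := by
    rw [← map_pow, ClassGroup.mk0_eq_one_iff]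
    exact ⟨x, by simpa [A'] using hA⟩
  have hC1 : ClassGroup.mk0 A' = 1 := by
    refine eigenClass_eq_one hζ hp3 hC fun σ => ?_
    obtain ⟨y, hy⟩ := heig σ
    obtain ⟨num, den, hden, rfl⟩ := exists_ringOfIntegers_div y
    set a := ((cexp p σ ^ 2 : (ZMod p)ˣ) : ZMod p).val
    have hden' : (den : K) ≠ 0 := RingOfIntegers.coe_ne_zero_iff.mpr hden
    have hx' : σ (x : K) ≠ 0 := by simpa using hx
    have hnum : num ≠ 0 := fun h => hx' (by rw [hy, h]; simp [zero_pow hp.out.ne_zero])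
    have heq : (σ • x) * den ^ p = x ^ a * num ^ p := RingOfIntegers.ext (by
      show σ (x : K) * (den : K) ^ p = (x : K) ^ a * (num : K) ^ p
      rw [hy, div_pow]
      field_simp)
    have hI : σ • A * Ideal.span {den} = A ^ a * Ideal.span {num} := by
      refine ideal_pow_injective (p := p)
        (mul_ne_zero (gal_smul_ne_bot σ hA0) (by simpa using hden))
        (mul_ne_zero (pow_ne_zero _ hA0) (by simpa using hnum)) ?_
      rw [mul_pow, mul_pow, ← smul_pow', hA, gal_smul_span_singleton, ← pow_mul, mul_comm a p,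
        pow_mul, hA, Ideal.span_singleton_pow, Ideal.span_singleton_pow, Ideal.span_singleton_pow,
        Ideal.span_singleton_mul_span_singleton, Ideal.span_singleton_mul_span_singleton, heq]
    have hσA : σ • (A' : Ideal (𝓞 K)) ∈ (Ideal (𝓞 K))⁰ :=
      mem_nonZeroDivisors_iff_ne_zero.mpr (gal_smul_ne_bot σ hA0)
    rw [classAct_mk0 σ A' hσA, ← map_pow]
    exact ClassGroup.mk0_eq_mk0_iff.mpr ⟨den, num, hden, hnum, by
      rw [mul_comm, SubmonoidClass.coe_pow, mul_comm (Ideal.span {num})]; exact hI⟩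
  obtain ⟨y₀, hy₀⟩ : ∃ y₀, A = Ideal.span {y₀} :=
    ((ClassGroup.mk0_eq_one_iff A'.2).mp hC1).principal.imp fun _ h => h
  have hy0 : y₀ ≠ 0 := fun h => hA0 (by rw [hy₀, h]; simp)
  rw [hy₀, Ideal.span_singleton_pow, Ideal.span_singleton_eq_span_singleton] at hA
  obtain ⟨v, hv⟩ := hA
  have hvK : (x : K) = (y₀ : K) ^ p * ((v : 𝓞 K) : K) := by rw [← hv]; simp
  have hy0K : (y₀ : K) ≠ 0 := RingOfIntegers.coe_ne_zero_iff.mpr hy0
  have hveig : IsSqEigen p v := by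
    intro σ
    obtain ⟨y, hy⟩ := heig σ
    set a := ((cexp p σ ^ 2 : (ZMod p)ˣ) : ZMod p).val
    set z : K := y * (y₀ : K) ^ a / σ (y₀ : K) with hz
    have hσy : σ (y₀ : K) ≠ 0 := by simpa using hy0
    have hzp : z ^ p = ((unitAct σ v * (v ^ a)⁻¹ : (𝓞 K)ˣ) : 𝓞 K) := by
      have h1 : σ (y₀ : K) ^ p * σ ((v : 𝓞 K) : K) =
          ((y₀ : K) ^ p * ((v : 𝓞 K) : K)) ^ a * y ^ p := by
        rw [← hvK, ← map_pow, ← map_mul, ← hvK]; exact hy
      simp only [Units.val_mul, map_mul, map_units_inv, Units.val_pow_eq_pow_val, map_pow,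
        coe_unitAct]
      show _ = σ ((v : 𝓞 K) : K) * _
      rw [hz, div_pow, mul_pow, ← pow_mul, mul_comm a p, pow_mul, div_eq_iff (pow_ne_zero _ hσy),
        mul_comm (σ ((v : 𝓞 K) : K)), mul_assoc, mul_comm (σ _ : K) (σ _ ^ p), h1]
      field_simp
      ring
    let z' : 𝓞 K := ⟨z,
      IsIntegral.of_pow hp.out.pos (hzp ▸
        RingOfIntegers.isIntegral_coe ((unitAct σ v * (v ^ a)⁻¹ : (𝓞 K)ˣ) : 𝓞 K))⟩
    have hz' : z' ^ p = ((unitAct σ v * (v ^ a)⁻¹ : (𝓞 K)ˣ) : 𝓞 K) := RingOfIntegers.ext hzp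
    have hzu : IsUnit z' := (isUnit_pow_iff hp.out.ne_zero).mp (hz' ▸ Units.isUnit _)
    have h2 : modPow p (unitAct σ v * (v ^ a)⁻¹) = 1 := modPow_eq_one_iff.mpr
      ⟨hzu.unit, Units.ext (by rw [Units.val_pow_eq_pow_val, IsUnit.unit_spec, hz'])⟩
    rw [map_mul, map_inv, map_pow, mul_inv_eq_one] at h2
    exact h2
  obtain ⟨k, hk⟩ := exists_modPow_eq_eigenUnit_pow hp3 hζ hveig
  rw [← map_pow, modPow_eq_iff] at hk
  obtain ⟨w, hw⟩ := hk
  have hwK : ((v : 𝓞 K) : K) = ((w : 𝓞 K) : K) ^ p * ((eigenUnit hζ : 𝓞 K) : K) ^ k := by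
    rw [hw]; push_cast; ring
  by_cases hkp : p ∣ k
  · obtain ⟨j, rfl⟩ := hkp
    exact ⟨(y₀ : K) * ((w : 𝓞 K) : K) * ((eigenUnit hζ : 𝓞 K) : K) ^ j, by
      rw [hvK, hwK]; ring⟩
  · refine absurd ?_ (pow_ne_eigenUnit_pow hunr hζ hp3
      (β / algebraMap K M ((y₀ : K) * ((w : 𝓞 K) : K))) hkp)
    rw [div_pow, hβ, hvK, hwK, ← map_pow (algebraMap K M) _ p, ← map_div₀]
    congr 1
    field_simp
    ring

include hunr in
omit hK in
/-- A rational integer with an everywhere unramified cube root is a cube, if `[K:ℚ] = 2`. -/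
theorem exists_natAbs_eq_cube (h2 : Module.finrank ℚ K = 2) {n : ℤ} (hn : n ≠ 0) {γ : M}
    (hγ : γ ^ 3 = (n : M)) : ∃ m : ℤ, n = m ^ 3 := by
  have hN : n.natAbs ≠ 0 := by simpa using hn
  have key : ∀ l : ℕ, 3 ∣ n.natAbs.factorization l := by
    intro l
    by_cases hl : l.Prime
    swap
    · rw [Nat.factorization_eq_zero_of_not_prime _ hl]; exact dvd_zero 3
    have hnorm : Ideal.absNorm (Ideal.span {(l : 𝓞 K)}) = l ^ 2 := by
      rw [Ideal.absNorm_span_singleton, ← map_natCast (algebraMap ℤ (𝓞 K)),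
        Algebra.norm_algebraMap, RingOfIntegers.rank, h2]
      simp [Int.natAbs_pow]
    have hne : Ideal.span {(l : 𝓞 K)} ≠ ⊤ := fun h => by
      rw [h, Ideal.absNorm_top] at hnorm
      exact absurd hnorm.symm (Nat.one_lt_pow two_ne_zero hl.one_lt).ne'
    obtain ⟨q, hq, hlq⟩ := Ideal.exists_le_maximal _ hne
    have hlq' : (l : 𝓞 K) ∈ q := hlq (Ideal.mem_span_singleton_self _)
    have hl0 : (l : 𝓞 K) ≠ 0 := by exact_mod_cast hl.ne_zero
    have hq0 : q ≠ ⊥ := fun h => hl0 (by rw [h] at hlq'; exact (Ideal.mem_bot).mp hlq')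
    set e := idealCount q (Ideal.span {(l : 𝓞 K)}) with he
    have he1 : 0 < e := (idealCount_pos_iff hq.isPrime hq0 (by simpa using hl0)).mpr hlq
    have he2 : e ≤ 2 := by
      obtain ⟨J, -, hJ, -⟩ := exists_eq_pow_idealCount_mul hq.isPrime hq0
        (I := Ideal.span {(l : 𝓞 K)}) (by simpa using hl0)
      have hdvd : Ideal.absNorm q ^ e ∣ l ^ 2 :=
        ⟨Ideal.absNorm J, by rw [← hnorm, ← map_pow, ← map_mul, ← hJ]⟩
      have hlN : l ∣ Ideal.absNorm q := by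
        obtain ⟨i, -, hi⟩ := (Nat.dvd_prime_pow hl).mp ((dvd_pow_self _ he1.ne').trans hdvd)
        rcases i with _ | i
        · exact absurd (Ideal.absNorm_eq_one_iff.mp (by simpa using hi)) hq.ne_top
        · rw [hi]; exact dvd_pow_self _ (Nat.succ_ne_zero i)
      exact (Nat.pow_dvd_pow_iff_le_right hl.one_lt).mp ((pow_dvd_pow_of_dvd hlN e).trans hdvd)
    have h3 := dvd_idealCount_of_pow (p := 3) hunr (x := (n : 𝓞 K)) (by exact_mod_cast hn)
      (β := γ) (by rw [hγ]; simp) hq.isPrime hq0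
    have hspan : Ideal.span {(n : 𝓞 K)} = Ideal.span {(n.natAbs : 𝓞 K)} := by
      rcases Int.natAbs_eq n with h | h
      · conv_lhs => rw [h]
        simp
      · conv_lhs => rw [h]
        simp [Ideal.span_singleton_neg]
    set v := n.natAbs.factorization l
    set N' := n.natAbs / l ^ v
    have hsplit : n.natAbs = l ^ v * N' := (Nat.ordProj_mul_ordCompl_eq_self n.natAbs l).symm
    have hN' : (N' : 𝓞 K) ∉ q := fun h => by
      obtain ⟨a, b, hab⟩ :=
        Nat.isCoprime_iff_coprime.mpr (Nat.coprime_ordCompl hl hN : Nat.Coprime l N')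
      refine hq.ne_top ((Ideal.eq_top_iff_one _).mpr ?_)
      have h1 : ((a : 𝓞 K) * l + b * N') = 1 := by exact_mod_cast congrArg (Int.cast : ℤ → 𝓞 K) hab
      rw [← h1]
      exact q.add_mem (q.mul_mem_left _ hlq') (q.mul_mem_left _ h)
    have hN'0 : Ideal.span {(N' : 𝓞 K)} ≠ ⊥ := fun h => hN' (by
      rw [Ideal.span_singleton_eq_bot.mp h]; exact q.zero_mem)
    rw [hspan, hsplit, Nat.cast_mul, Nat.cast_pow, ← Ideal.span_singleton_mul_span_singleton,
      ← Ideal.span_singleton_pow,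
      idealCount_mul q (pow_ne_zero _ (by simpa using hl0)) hN'0, idealCount_pow,
      (idealCount_eq_zero_iff hq.isPrime hq0 hN'0).mpr
        (fun h => hN' (h (Ideal.mem_span_singleton_self _))), add_zero, ← he] at h3
    refine (Nat.Coprime.dvd_mul_right ?_).mp h3
    interval_cases e <;> decide
  set m₀ := n.natAbs.factorization.prod fun l e => l ^ (e / 3)
  have hm₀ : m₀ ^ 3 = n.natAbs := by
    conv_rhs => rw [← Nat.prod_factorization_pow_eq_self hN]
    simp only [m₀, Finsupp.prod, ← Finset.prod_pow]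
    refine Finset.prod_congr rfl fun l _ => ?_
    rw [← pow_mul, Nat.div_mul_cancel (key l)]
  rcases Int.natAbs_eq n with h | h
  · exact ⟨m₀, by rw [h, ← hm₀]; push_cast; ring⟩
  · exact ⟨-(m₀ : ℤ), by rw [h, ← hm₀]; push_cast; ring⟩

include hunr in
/-- The case `p = 3` of `kummer_trivial`. -/
theorem kummerTrivial_of_eq_three (hp3 : p = 3) {x : K} (hx : x ≠ 0) {β : M}
    (hβ : β ^ p = algebraMap K M x)
    (heig : ∀ σ : Gal(K/ℚ), ∃ y : K,
      σ x = x ^ ((cexp p σ ^ 2 : (ZMod p)ˣ) : ZMod p).val * y ^ p) :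
    ∃ y : K, y ^ p = x := by
  subst hp3
  have : IsGalois ℚ K := IsCyclotomicExtension.isGalois {3} ℚ K
  obtain ⟨σ, hσ⟩ := (cexp_bijective (K := K) 3).surjective (-1)
  obtain ⟨y, hy⟩ := heig σ
  rw [hσ] at hy
  have hy' : σ x = x * y ^ 3 := by
    simpa [ZMod.val_one] using hy
  have hall : ∀ τ : Gal(K/ℚ), τ = 1 ∨ τ = σ := fun τ => by
    have hu : ∀ u : (ZMod 3)ˣ, u = 1 ∨ u = -1 := units_zmod_three
    rcases hu (cexp 3 τ) with h | h
    · refine Or.inl ((cexp_bijective 3).injective (h.trans ?_))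
      exact (map_one (IsCyclotomicExtension.Rat.galEquivZMod 3 K)).symm
    · exact Or.inr ((cexp_bijective 3).injective (h.trans hσ.symm))
  have hσσ : σ * σ = 1 := (cexp_bijective 3).injective (by
    rw [cexp_mul, hσ, neg_mul_neg, one_mul]
    exact (map_one (IsCyclotomicExtension.Rat.galEquivZMod 3 K)).symm)
  obtain ⟨r, hr⟩ : x * σ x ∈ Set.range (algebraMap ℚ K) := by
    rw [IsGalois.mem_range_algebraMap_iff_fixed]
    intro τ
    rcases hall τ with rfl | rfl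
    · rfl
    · rw [map_mul, ← AlgEquiv.mul_apply, hσσ, AlgEquiv.one_apply, mul_comm]
  rw [hy'] at hr
  have hy0 : y ≠ 0 := fun h => hx (by
    have : σ x = 0 := by rw [hy', h]; simp
    simpa using this)
  have hr0 : r ≠ 0 := fun h => by
    rw [h, map_zero] at hr
    simp [hx, hy0] at hr
  set n : ℤ := r.num ^ 2 * (r.den : ℤ) ^ 4
  have hn : n ≠ 0 := by positivity
  set c : K := 1 / (y ^ 2 * x * (r.den : K) ^ 2) with hc
  have hden : (r.den : K) ≠ 0 := by exact_mod_cast r.den_nz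
  have hxc : x = (n : K) * c ^ 3 := by
    have hr' : (r.num : K) = x * (x * y ^ 3) * r.den := by
      rw [← hr, eq_ratCast, Rat.cast_def, div_mul_cancel₀ _ hden]
    simp only [n, hc, Int.cast_mul, Int.cast_pow, Int.cast_natCast, hr']
    field_simp
  have hc0 : c ≠ 0 := by
    rw [hc]; exact div_ne_zero one_ne_zero
      (mul_ne_zero (mul_ne_zero (pow_ne_zero _ hy0) hx) (pow_ne_zero _ hden))
  have h2 : Module.finrank ℚ K = 2 := by
    rw [IsCyclotomicExtension.finrank K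
        (Polynomial.cyclotomic.irreducible_rat (by norm_num : 0 < 3)),
      Nat.totient_prime Nat.prime_three]
  obtain ⟨m, hm⟩ := exists_natAbs_eq_cube hunr h2 hn (γ := β / algebraMap K M c) (by
    rw [div_pow, hβ, ← map_pow, ← map_div₀, hxc, mul_div_cancel_right₀ _ (pow_ne_zero _ hc0),
      map_intCast])
  exact ⟨(m : K) * c, by rw [mul_pow, hxc, hm]; push_cast; rfl⟩

include hζ hunr in
/-- **Vanishing of the Kummer class**. -/
theorem kummer_trivial (hp3 : 3 ≤ p) {x : K} (hx : x ≠ 0) {β : M}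
    (hβ : β ^ p = algebraMap K M x)
    (heig : ∀ σ : Gal(K/ℚ), ∃ y : K,
      σ x = x ^ ((cexp p σ ^ 2 : (ZMod p)ˣ) : ZMod p).val * y ^ p) :
    ∃ y : K, y ^ p = x := by
  rcases hp3.eq_or_lt with h | h
  · exact kummerTrivial_of_eq_three hunr h.symm hx hβ heig
  obtain ⟨num, den, hden, rfl⟩ := exists_ringOfIntegers_div x
  have hd : (den : K) ≠ 0 := RingOfIntegers.coe_ne_zero_iff.mpr hden
  set x' : 𝓞 K := num * den ^ (p - 1)
  have hx' : (x' : K) = (num : K) / den * (den : K) ^ p := by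
    simp only [x', map_mul, map_pow]
    rw [div_mul_eq_mul_div, eq_div_iff hd, mul_assoc, ← pow_succ,
      Nat.sub_add_cancel hp.out.one_le]
  have hx'0 : x' ≠ 0 := fun h0 => by
    rw [h0] at hx'
    exact mul_ne_zero hx (pow_ne_zero _ hd) (hx'.symm.trans (map_zero (algebraMap (𝓞 K) K)))
  obtain ⟨y, hy⟩ := kummerTrivial_of_three_lt hunr hζ h hx'0
    (β := β * algebraMap K M den) (by rw [mul_pow, hβ, hx', map_mul, map_pow]) fun σ => by
      obtain ⟨y, hy⟩ := heig σ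
      refine ⟨y * σ (den : K) / (den : K) ^ ((cexp p σ ^ 2 : (ZMod p)ˣ) : ZMod p).val, ?_⟩
      rw [hx', map_mul, map_pow, hy]
      simp only [div_pow, mul_pow, ← pow_mul]
      field_simp
      ring
  exact ⟨y / den, by rw [div_pow, hy, hx', mul_div_cancel_right₀ _ (pow_ne_zero _ hd)]⟩

end Fermat.Agent.ExtVanish
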