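import Fermat.Prelude.Def_ExtCitation_AdmissibleExtension
import Fermat.Agent.ExtVanish.KummerTrivial
import Fermat.Agent.Gal.Unramified

/-!
# Twisted cocycles trivial on inertia

A map `b` to `ℤ/p` of finite level with `b (σ * τ) = chi τ * b σ + b τ` (`chi` the mod `p`
cyclotomic character) which is trivial on all inertia over `ℚ(ζ_p)` vanishes over `ℚ(ζ_p)`
(`cocycle_eq_zero`).
-/

set_option autoImplicit false

noncomputable section

namespace Fermat.Agent.ExtVanish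

open NumberField IntermediateField
open scoped Classical Pointwise

local notation "Qbar" => AlgebraicClosure ℚ
local notation "AbsGal" => AlgebraicClosure ℚ ≃ₐ[ℚ] AlgebraicClosure ℚ

/-- Trivial inertia means trivial ramification. -/
theorem ramificationIdx_eq_one_of_inertia {K M : Type} [Field K] [NumberField K] [Field M]
    [NumberField M] [Algebra K M] [IsGalois K M]
    (h : ∀ Q : Ideal (𝓞 M), Q.IsMaximal → ∀ τ : M ≃ₐ[K] M,
      (∀ a : 𝓞 M, τ • a - a ∈ Q) → τ = 1)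
    (Q : Ideal (𝓞 M)) (hQ : Q.IsPrime) (hQ0 : Q ≠ ⊥) : Q.ramificationIdx (𝓞 K) = 1 := by
  rw [← Ideal.ramificationIdxIn_eq_ramificationIdx (Q.under (𝓞 K)) Q (M ≃ₐ[K] M),
    ← Ideal.card_inertia_eq_ramificationIdxIn (G := M ≃ₐ[K] M) (Q.under (𝓞 K)) Q]
  have htriv : Q.inertia (M ≃ₐ[K] M) = ⊥ := by
    rw [Subgroup.eq_bot_iff_forall]
    exact fun σ hσ => h Q (hQ.isMaximal hQ0) σ hσ
  rw [htriv, Subgroup.card_bot]

variable {p : ℕ} [hp : Fact p.Prime]

/-- The cyclotomic character modulo `p`. -/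
def chi (p : ℕ) [Fact p.Prime] (σ : AbsGal) : ZMod p := (ExtCitation.cycloExp p σ : ZMod p)

theorem apply_root {z : Qbar} (hz : z ^ p = 1) (σ : AbsGal) : σ z = z ^ (chi p σ).val := by
  have hz0 : z ≠ 0 := fun h => by simp [h, zero_pow hp.out.ne_zero] at hz
  have ht : Units.mk0 z hz0 ∈ rootsOfUnity p Qbar := by
    rw [mem_rootsOfUnity, Units.ext_iff]
    simpa using hz
  have h := modularCyclotomicCharacter.spec Qbar (ExtCitation.card_rootsOfUnity_eq_self p)
    (σ : Qbar ≃+* Qbar) ht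
  simp only [Units.val_mk0] at h
  rw [chi, ExtCitation.cycloExp, ZMod.natCast_zmod_val]
  exact h

omit hp in
theorem pow_mod_of_root {L : Type*} [CommMonoid L] {z : L} (hz : z ^ p = 1) (a : ℕ) :
    z ^ (a % p) = z ^ a := by
  conv_rhs => rw [← Nat.mod_add_div a p, pow_add, pow_mul, hz, one_pow, mul_one]

theorem chi_eq_of_apply {z : Qbar} (hz : IsPrimitiveRoot z p) {σ : AbsGal} {a : ℕ}
    (h : σ z = z ^ a) : chi p σ = a := by
  have h1 := (apply_root hz.pow_eq_one σ).symm.trans h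
  rw [← pow_mod_of_root hz.pow_eq_one a] at h1
  have h2 := hz.pow_inj (ZMod.val_lt _) (Nat.mod_lt _ hp.out.pos) h1
  rw [← ZMod.natCast_zmod_val (chi p σ), h2, ZMod.natCast_mod]

theorem chi_mul (σ τ : AbsGal) : chi p (σ * τ) = chi p σ * chi p τ := by
  obtain ⟨z, hz⟩ := HasEnoughRootsOfUnity.exists_primitiveRoot Qbar p
  rw [chi_eq_of_apply hz (a := (chi p σ).val * (chi p τ).val) ?_, Nat.cast_mul,
    ZMod.natCast_zmod_val, ZMod.natCast_zmod_val]
  rw [AlgEquiv.mul_apply, apply_root hz.pow_eq_one τ, map_pow, apply_root hz.pow_eq_one σ,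
    ← pow_mul]

theorem chi_one : chi p (1 : AbsGal) = 1 := by
  obtain ⟨z, hz⟩ := HasEnoughRootsOfUnity.exists_primitiveRoot Qbar p
  rw [chi_eq_of_apply hz (a := 1) (by simp), Nat.cast_one]

theorem chi_inv (σ : AbsGal) : chi p σ⁻¹ * chi p σ = 1 := by
  rw [← chi_mul, inv_mul_cancel, chi_one]

theorem chi_eq_one_iff {z : Qbar} (hz : IsPrimitiveRoot z p) {σ : AbsGal} :
    chi p σ = 1 ↔ σ z = z := by
  constructor
  · intro h
    rw [apply_root hz.pow_eq_one σ, h, ZMod.val_one, pow_one]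
  · intro h
    rw [chi_eq_of_apply hz (a := 1) (by rw [h, pow_one]), Nat.cast_one]

/-- Lagrange resolvent of a twisted cocycle. -/
theorem exists_resolvent {z : Qbar} (hz : IsPrimitiveRoot z p)
    (b : AbsGal → ZMod p) (hb : ∀ σ τ, b (σ * τ) = chi p τ * b σ + b τ)
    (hlevel : ∃ E : IntermediateField ℚ Qbar, FiniteDimensional ℚ E ∧
      ∀ σ ∈ E.fixingSubgroup, b σ = 0) :
    ∃ β : Qbar, β ≠ 0 ∧ ∀ h : AbsGal, chi p h = 1 → h β = z ^ (b h).val * β := by
  obtain ⟨E, hE, hbE⟩ := hlevel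
  have : FiniteDimensional ℚ ℚ⟮z⟯ :=
    adjoin.finiteDimensional (Algebra.IsIntegral.isIntegral (R := ℚ) z)
  set F := IntermediateField.normalClosure ℚ ↥(E ⊔ ℚ⟮z⟯) Qbar
  have : Normal ℚ F := normalClosure.normal ℚ _ _
  have hEF : E ⊔ ℚ⟮z⟯ ≤ F := le_normalClosure _
  have hzF : z ∈ F := hEF ((le_sup_right : ℚ⟮z⟯ ≤ _) (mem_adjoin_simple_self ℚ z))
  set zF : F := ⟨z, hzF⟩
  have hzF' : zF ^ p = 1 := Subtype.ext hz.pow_eq_one
  let r : AbsGal →* (F ≃ₐ[ℚ] F) := AlgEquiv.restrictNormalHom F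
  have hr : Function.Surjective r := AlgEquiv.restrictNormalHom_surjective Qbar
  have hrc : ∀ (σ : AbsGal) (x : F), ((r σ x : F) : Qbar) = σ x :=
    fun σ x => AlgEquiv.restrictNormal_commutes σ F x
  have hker : ∀ σ, r σ = 1 → b σ = 0 ∧ chi p σ = 1 := by
    intro σ h
    have hfix : ∀ x ∈ F, σ x = x := fun x hx => by
      have := hrc σ ⟨x, hx⟩
      rw [h] at this
      exact this.symm
    exact ⟨hbE σ ((mem_fixingSubgroup_iff _ _).mpr fun x hx =>
      hfix x (hEF ((le_sup_left : E ≤ E ⊔ ℚ⟮z⟯) hx))), (chi_eq_one_iff hz).mpr (hfix z hzF)⟩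
  have hbr : ∀ σ τ, r σ = r τ → b σ = b τ := by
    intro σ τ h
    have h1 : r (τ⁻¹ * σ) = 1 := by rw [map_mul, map_inv, h, inv_mul_cancel]
    have h2 := hb τ (τ⁻¹ * σ)
    rw [mul_inv_cancel_left, (hker _ h1).1, (hker _ h1).2, one_mul, add_zero] at h2
    exact h2
  let s := Function.surjInv hr
  have hs : ∀ g, r (s g) = g := Function.surjInv_eq hr
  let ε : AddChar (ZMod p) F := AddChar.zmodChar p hzF'
  let G₀ := {g : F ≃ₐ[ℚ] F // g zF = zF}
  let χ : G₀ → F →* F := fun g => ((g.1 : F →ₐ[ℚ] F) : F →* F)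
  have hχ : Function.Injective χ := fun g g' h =>
    Subtype.ext (AlgEquiv.ext fun x => DFunLike.congr_fun h x)
  obtain ⟨θ, hθ⟩ : ∃ θ : F, ∑ g : G₀, ε (-b (s g.1)) * χ g θ ≠ 0 := by
    by_contra h
    simp only [not_exists, not_not] at h
    have hli := (linearIndependent_monoidHom F F).comp χ hχ
    rw [Fintype.linearIndependent_iff] at hli
    have h1 := hli (fun g => ε (-b (s g.1)))
      (funext fun θ => by simpa [Finset.sum_apply] using h θ) ⟨1, rfl⟩
    exact (AddChar.val_isUnit ε _).ne_zero h1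
  refine ⟨((∑ g : G₀, ε (-b (s g.1)) * χ g θ : F) : Qbar), fun h => hθ (Subtype.ext h),
    fun σ hσ => ?_⟩
  have hσz : r σ zF = zF := Subtype.ext ((hrc σ zF).trans ((chi_eq_one_iff hz).mp hσ))
  have hε : ∀ i, r σ (ε i) = ε i := fun i => by
    rw [AddChar.zmodChar_apply, map_pow, hσz]
  have hmem : ∀ g : G₀, (r σ * g.1) zF = zF := fun g => by
    rw [AlgEquiv.mul_apply, g.2, hσz]
  have key : r σ (∑ g : G₀, ε (-b (s g.1)) * χ g θ) =
      ε (b σ) * ∑ g : G₀, ε (-b (s g.1)) * χ g θ := by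
    rw [map_sum, Finset.mul_sum]
    refine Fintype.sum_bijective (fun g : G₀ => (⟨r σ * g.1, hmem g⟩ : G₀)) ?_ _ _ fun g => ?_
    · exact Finite.injective_iff_bijective.mp fun g g' h =>
        Subtype.ext (mul_left_cancel (Subtype.ext_iff.mp h))
    · rw [map_mul, hε, ← mul_assoc, ← AddChar.map_add_eq_mul]
      have h1 : chi p (s g.1) = 1 := (chi_eq_one_iff hz).mpr (by
        have h2 := hrc (s g.1) zF
        rw [hs, g.2] at h2
        exact h2.symm)
      have h3 : b (s (r σ * g.1)) = b σ + b (s g.1) := by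
        rw [hbr (s (r σ * g.1)) (σ * s g.1) (by rw [hs, map_mul, hs]), hb, h1, one_mul]
      show ε (-b (s g.1)) * r σ (χ g θ) = ε (b σ + -b (s (r σ * g.1))) * (r σ * g.1) θ
      rw [h3, show b σ + -(b σ + b (s g.1)) = -b (s g.1) by ring]
      rfl
  refine ((hrc σ _).symm.trans (congrArg Subtype.val key)).trans ?_
  rw [MulMemClass.coe_mul, AddChar.zmodChar_apply, SubmonoidClass.coe_pow]

/-- The cocycle vanishes over `ℚ(ζ_p)`. -/
theorem cocycle_eq_zero (hp3 : 3 ≤ p) (b : AbsGal → ZMod p)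
    (hb : ∀ σ τ, b (σ * τ) = chi p τ * b σ + b τ)
    (hlevel : ∃ E : IntermediateField ℚ Qbar, FiniteDimensional ℚ E ∧
      ∀ σ ∈ E.fixingSubgroup, b σ = 0)
    (hin : ∀ q : ℕ, q.Prime → ∀ A : ValuationSubring Qbar, A.LiesOverPrime q →
      ∀ σ ∈ A.inertiaSubgroupIn ℚ, chi p σ = 1 → b σ = 0)
    (h₀ : AbsGal) (hh₀ : chi p h₀ = 1) : b h₀ = 0 := by
  obtain ⟨z, hz⟩ := HasEnoughRootsOfUnity.exists_primitiveRoot Qbar p
  obtain ⟨β, hβ0, hβ⟩ := exists_resolvent hz b hb hlevel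
  set K₀ : IntermediateField ℚ Qbar := ℚ⟮z⟯ with hK₀
  have hzK : z ∈ K₀ := mem_adjoin_simple_self ℚ z
  have hfix : ∀ σ : AbsGal, σ ∈ K₀.fixingSubgroup → chi p σ = 1 := fun σ hσ =>
    (chi_eq_one_iff hz).mpr ((mem_fixingSubgroup_iff _ _).mp hσ z hzK)
  have hmemK : ∀ y : Qbar, (∀ h : AbsGal, chi p h = 1 → h y = y) → y ∈ K₀ := by
    intro y hy
    rw [← InfiniteGalois.fixedField_fixingSubgroup K₀, IntermediateField.mem_fixedField_iff]
    exact fun h hh => hy h (hfix h hh)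
  have hzpow : ∀ i : ℕ, (z ^ i) ^ p = 1 := fun i => by
    rw [← pow_mul, mul_comm, pow_mul, hz.pow_eq_one, one_pow]
  suffices hβK : β ∈ K₀ by
    have h1 := hβ h₀ hh₀
    have h2 : h₀ β = β := by
      have hle : ∀ y ∈ K₀, h₀ y = y := by
        intro y hy
        induction hy using IntermediateField.adjoin_induction with
        | mem y hy =>
          obtain rfl := Set.mem_singleton_iff.mp hy
          exact (chi_eq_one_iff hz).mp hh₀
        | algebraMap c => exact h₀.commutes c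
        | add a c _ _ ha hc => rw [map_add, ha, hc]
        | inv a _ ha => rw [map_inv₀, ha]
        | mul a c _ _ ha hc => rw [map_mul, ha, hc]
      exact hle β hβK
    rw [h2, eq_comm, mul_eq_right₀ hβ0, hz.pow_eq_one_iff_dvd] at h1
    exact (ZMod.val_eq_zero _).mp (Nat.eq_zero_of_dvd_of_lt h1 (ZMod.val_lt _))
  have hxK : β ^ p ∈ K₀ := hmemK _ fun h hh => by
    rw [map_pow, hβ h hh, mul_pow, hzpow, one_mul]
  have heigβ : ∀ σ : AbsGal, σ β / β ^ (chi p σ ^ 2).val ∈ K₀ := by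
    intro σ
    refine hmemK _ fun h hh => ?_
    have hconj : chi p (σ⁻¹ * (h * σ)) = 1 := by
      rw [chi_mul, chi_mul, hh, one_mul, chi_inv]
    have hbconj : b (σ⁻¹ * (h * σ)) = chi p σ * b h := by
      have h0 : b 1 = 0 := by
        have := hb 1 1
        rw [one_mul, chi_one, one_mul] at this
        exact left_eq_add.mp this
      have h1 := hb σ⁻¹ σ
      rw [inv_mul_cancel, h0] at h1
      rw [hb, hb, chi_mul, hh, one_mul]
      linear_combination -h1
    have h1 : h (σ β) = z ^ ((chi p σ).val * (chi p σ * b h).val) * σ β := by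
      have h2 := congrArg σ (hβ _ hconj)
      rw [hbconj, map_mul, map_pow, apply_root hz.pow_eq_one σ, ← pow_mul, AlgEquiv.mul_apply,
        AlgEquiv.mul_apply, AlgEquiv.aut_inv, AlgEquiv.apply_symm_apply] at h2
      exact h2
    rw [map_div₀, map_pow, h1, hβ h hh, mul_pow, ← pow_mul,
      ← pow_mod_of_root hz.pow_eq_one ((chi p σ).val * _),
      ← pow_mod_of_root hz.pow_eq_one ((b h).val * _),
      show (chi p σ).val * (chi p σ * b h).val % p = (b h).val * (chi p σ ^ 2).val % p from ?_]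
    · rw [mul_div_mul_left _ _ (pow_ne_zero _ (hz.ne_zero hp.out.ne_zero))]
    · rw [← ZMod.natCast_eq_natCast_iff']
      push_cast
      simp only [ZMod.natCast_zmod_val]
      ring
  -- the field generated by the root
  set M₀ : IntermediateField ℚ Qbar := IntermediateField.adjoin ℚ {z, β} with hM₀
  have hzM : z ∈ M₀ := subset_adjoin ℚ _ (Set.mem_insert _ _)
  have hβM : β ∈ M₀ := subset_adjoin ℚ _ (Set.mem_insert_of_mem _ (Set.mem_singleton _))
  have hle : K₀ ≤ M₀ := adjoin_simple_le_iff.mpr hzM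
  have hfinK : FiniteDimensional ℚ K₀ :=
    adjoin.finiteDimensional (Algebra.IsIntegral.isIntegral (R := ℚ) z)
  have hfinM : FiniteDimensional ℚ M₀ :=
    finiteDimensional_adjoin fun y _ => Algebra.IsIntegral.isIntegral (R := ℚ) y
  have hnorM : Normal ℚ M₀ := normal_iff_forall_map_le'.mpr fun σ => by
    rw [hM₀, adjoin_map, adjoin_le_iff]
    rintro _ ⟨y, hy, rfl⟩
    rcases hy with rfl | rfl
    · show σ y ∈ M₀
      rw [apply_root hz.pow_eq_one σ]
      exact pow_mem hzM _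
    · show σ y ∈ M₀
      rw [← div_mul_cancel₀ (σ y) (pow_ne_zero (chi p σ ^ 2).val hβ0)]
      exact mul_mem (hle (heigβ σ)) (pow_mem hβM _)
  have : NumberField K₀ := @NumberField.mk _ _ _ (by convert hfinK)
  have : NumberField M₀ := @NumberField.mk _ _ _ (by convert hfinM)
  have hcyc := hz.intermediateField_adjoin_isCyclotomicExtension ℚ
  have : @IsCyclotomicExtension {p} ℚ K₀ _ _ DivisionRing.toRatAlgebra := by
    convert hcyc using 1 <;> rfl
  have hgalM : IsGalois ℚ M₀ := ⟨⟩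
  let : Algebra K₀ M₀ := (IntermediateField.inclusion hle).toRingHom.toAlgebra
  have : IsGalois K₀ M₀ := IsGalois.tower_top_of_isGalois ℚ K₀ M₀
  have hunr : ∀ Q : Ideal (𝓞 M₀), Q.IsPrime → Q ≠ ⊥ → Q.ramificationIdx (𝓞 K₀) = 1 := by
    refine ramificationIdx_eq_one_of_inertia fun Q hQ τ hτ => ?_
    obtain ⟨q, A, hq, hA, hAQ⟩ := Gal.exists_primeBelow_eq M₀ Q
    let τ' : M₀ ≃ₐ[ℚ] M₀ := AlgEquiv.ofRingEquiv (f := (τ : M₀ ≃+* M₀)) fun c => by simp
    obtain ⟨σ, hσA, hστ⟩ := Gal.exists_inertia_restrictNormal_eq M₀ A τ' (fun a => by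
      rw [Submodule.mem_toAddSubgroup, hAQ]
      exact hτ a)
    have hcomm : ∀ y : M₀, ((τ y : M₀) : Qbar) = σ y := fun y => by
      have := AlgEquiv.restrictNormal_commutes σ M₀ y
      rw [show σ.restrictNormal M₀ = τ' from hστ] at this
      exact this
    have hσz : σ z = z := by
      rw [← hcomm ⟨z, hzM⟩]
      exact congrArg Subtype.val (τ.commutes ⟨z, hzK⟩)
    have hσ1 : chi p σ = 1 := (chi_eq_one_iff hz).mpr hσz
    have hσβ : σ β = β := by
      rw [hβ σ hσ1, hin q hq A hA σ hσA hσ1, ZMod.val_zero, pow_zero, one_mul]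
    refine AlgEquiv.ext fun y => Subtype.ext ?_
    rw [hcomm y, AlgEquiv.one_apply]
    obtain ⟨y, hy⟩ := y
    induction hy using IntermediateField.adjoin_induction with
    | mem y hy =>
      rcases hy with rfl | rfl
      · exact hσz
      · exact hσβ
    | algebraMap c => exact σ.commutes c
    | add a c _ _ ha hc => exact (map_add σ a c).trans (congrArg₂ _ ha hc)
    | inv a _ ha => exact (map_inv₀ σ a).trans (congrArg _ ha)
    | mul a c _ _ ha hc => exact (map_mul σ a c).trans (congrArg₂ _ ha hc)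
  have hnorK : Normal ℚ K₀ := normal_iff_forall_map_le'.mpr fun σ => by
    rw [hK₀, adjoin_map, adjoin_le_iff]
    rintro _ ⟨y, hy, rfl⟩
    obtain rfl := Set.mem_singleton_iff.mp hy
    show σ y ∈ K₀
    rw [apply_root hz.pow_eq_one σ]
    exact pow_mem hzK _
  have hζ : IsPrimitiveRoot (⟨z, hzK⟩ : K₀) p :=
    IsPrimitiveRoot.coe_submonoidClass_iff.mp hz
  obtain ⟨y, hy⟩ := kummer_trivial (M := M₀) hunr hζ hp3 (x := ⟨β ^ p, hxK⟩)
    (fun h => pow_ne_zero p hβ0 (congrArg Subtype.val h)) (β := ⟨β, hβM⟩) (Subtype.ext rfl)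
    fun σ => by
      let σ' : K₀ ≃ₐ[ℚ] K₀ := AlgEquiv.ofRingEquiv (f := (σ : K₀ ≃+* K₀)) fun c => by simp
      obtain ⟨ρ, hρ⟩ := (AlgEquiv.restrictNormalHom_surjective Qbar :
        Function.Surjective (AlgEquiv.restrictNormalHom K₀ : AbsGal →* (K₀ ≃ₐ[ℚ] K₀))) σ'
      have hcomm : ∀ y : K₀, ((σ y : K₀) : Qbar) = ρ y := fun y => by
        have := AlgEquiv.restrictNormal_commutes ρ K₀ y
        rw [show ρ.restrictNormal K₀ = σ' from hρ] at this
        exact this
      have hχ : chi p ρ = (cexp p σ : ZMod p) := by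
        rw [chi_eq_of_apply hz (a := (cexp p σ : ZMod p).val) ?_, ZMod.natCast_zmod_val]
        rw [← hcomm ⟨z, hzK⟩]
        exact congrArg (fun w : 𝓞 K₀ => ((w : K₀) : Qbar)) (smul_toInteger hζ σ)
      refine ⟨⟨_, heigβ ρ⟩, Subtype.ext ?_⟩
      rw [hcomm]
      show ρ (β ^ p) = (β ^ p) ^ ((cexp p σ ^ 2 : (ZMod p)ˣ) : ZMod p).val *
        (ρ β / β ^ (chi p ρ ^ 2).val) ^ p
      rw [Units.val_pow_eq_pow_val, ← hχ, map_pow, div_pow, ← pow_mul, mul_comm p, pow_mul,
        mul_div_cancel₀ _ (pow_ne_zero _ (pow_ne_zero _ hβ0))]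
  have hy' : (y : Qbar) ^ p = β ^ p := congrArg Subtype.val hy
  have hy0 : (y : Qbar) ≠ 0 := fun h => pow_ne_zero p hβ0 (by
    rw [← hy', h, zero_pow hp.out.ne_zero])
  obtain ⟨i, -, hi⟩ := hz.eq_pow_of_pow_eq_one (show (β / (y : Qbar)) ^ p = 1 by
    rw [div_pow, hy', div_self (pow_ne_zero _ hβ0)])
  rw [← div_mul_cancel₀ β hy0, ← hi]
  exact mul_mem (pow_mem hzK _) y.2

end Fermat.Agent.ExtVanish
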