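import Fermat.Prelude.Def_ExtCitation_AdmissibleExtension_v2
import Fermat.Agent.ExtVanish.CocycleVanish

/-!
# Vanishing of extensions of `χ` by the trivial character

For every prime `p ≥ 3` the statement `ExtVanishingCts p` holds (`extVanishingCts_of_le`): the
extensions in question, unramified outside `p` and split at `p`, are split.
-/

set_option autoImplicit false

noncomputable section

namespace Fermat.Agent.ExtVanish

open ExtCitation
open scoped Classical

local notation "Qbar" => AlgebraicClosure ℚ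
local notation "AbsGal" => AlgebraicClosure ℚ ≃ₐ[ℚ] AlgebraicClosure ℚ

variable {p : ℕ} [hp : Fact p.Prime]

/-- **Main theorem**: `ExtVanishingCts p` for every prime `p ≥ 3`. -/
theorem extVanishingCts_of_le (h3 : 3 ≤ p) : ExtVanishingCts p := by
  intro V _ _ _ _ C hadm
  have hVfin : Finite V := Nat.finite_of_card_ne_zero (by
    rw [hadm.card_total]; exact pow_ne_zero 2 hp.out.ne_zero)
  obtain ⟨⟨c, hcC⟩, hc0⟩ : ∃ c : C, c ≠ 0 := by
    have : Nontrivial C := Finite.one_lt_card_iff_nontrivial.mp (by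
      rw [hadm.card_sub]; exact hp.out.one_lt)
    exact exists_ne 0
  have hcne : c ≠ 0 := fun h => hc0 (Subtype.ext h)
  -- `C` is the line through `c`
  have hCline : ∀ x ∈ C, ∃ a : ZMod p, a • c = x := by
    have hinj : Function.Injective fun a : ZMod p => a • (⟨c, hcC⟩ : C) := fun a a' h =>
      smul_left_injective (ZMod p) hcne (congrArg Subtype.val h)
    intro x hx
    obtain ⟨a, ha⟩ := ((Nat.bijective_iff_injective_and_card _).mpr
      ⟨hinj, by rw [hadm.card_sub, Nat.card_zmod]⟩).2 ⟨x, hx⟩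
    exact ⟨a, congrArg Subtype.val ha⟩
  obtain ⟨v, hv⟩ : ∃ v : V, v ∉ C := by
    by_contra h
    push Not at h
    have h1 : Nat.card C = Nat.card V :=
      Nat.card_congr ⟨Subtype.val, fun x => ⟨x, h x⟩, fun _ => rfl, fun _ => rfl⟩
    rw [hadm.card_sub, hadm.card_total] at h1
    nlinarith [hp.out.two_le]
  have hindep : ∀ a e : ZMod p, a • v + e • c = 0 → a = 0 ∧ e = 0 := by
    intro a e h
    have ha : a = 0 := by
      by_contra ha
      refine hv ?_
      rw [← inv_smul_smul₀ ha v, eq_neg_of_add_eq_zero_left h]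
      exact C.smul_mem _ (C.neg_mem (C.smul_mem e hcC))
    subst ha
    rw [zero_smul, zero_add, smul_eq_zero] at h
    exact ⟨rfl, h.resolve_right hcne⟩
  have hspan : ∀ x : V, ∃ a e : ZMod p, a • v + e • c = x := by
    have hinj : Function.Injective fun w : ZMod p × ZMod p => w.1 • v + w.2 • c := by
      intro w w' h
      simp only at h
      obtain ⟨h1, h2⟩ := hindep (w.1 - w'.1) (w.2 - w'.2) (by
        rw [sub_smul, sub_smul, show w.1 • v - w'.1 • v + (w.2 • c - w'.2 • c) =
          (w.1 • v + w.2 • c) - (w'.1 • v + w'.2 • c) by abel, h, sub_self])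
      exact Prod.ext (sub_eq_zero.mp h1) (sub_eq_zero.mp h2)
    intro x
    obtain ⟨w, hw⟩ := ((Nat.bijective_iff_injective_and_card _).mpr
      ⟨hinj, by rw [hadm.card_total, Nat.card_prod, Nat.card_zmod, sq]⟩).2 x
    exact ⟨w.1, w.2, hw⟩
  choose b hb using fun σ : AbsGal => hCline _ (hadm.cyclo_quot σ v)
  have hσv : ∀ σ : AbsGal, σ • v = chi p σ • v + b σ • c := fun σ => by
    rw [hb σ, chi]; abel
  have hact : ∀ (σ : AbsGal) (a e : ZMod p),
      σ • (a • v + e • c) = (a * chi p σ) • v + (a * b σ + e) • c := fun σ a e => by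
    rw [smul_add, smul_comm σ a v, smul_comm σ e c, hadm.fixed_sub σ c hcC, hσv, smul_add,
      smul_smul, smul_smul, add_assoc, ← add_smul]
  have hcoord : ∀ a a' e e' : ZMod p, a • v + e • c = a' • v + e' • c → a = a' ∧ e = e' := by
    intro a a' e e' h
    obtain ⟨h1, h2⟩ := hindep (a - a') (e - e') (by
      rw [sub_smul, sub_smul, show a • v - a' • v + (e • c - e' • c) =
        (a • v + e • c) - (a' • v + e' • c) by abel, h, sub_self])
    exact ⟨sub_eq_zero.mp h1, sub_eq_zero.mp h2⟩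
  have hbmul : ∀ σ τ, b (σ * τ) = chi p τ * b σ + b τ := by
    intro σ τ
    have h := hσv (σ * τ)
    rw [mul_smul, hσv τ, hact] at h
    exact (hcoord _ _ _ _ h).2.symm
  have hker : ∀ σ : AbsGal, (∀ x : V, σ • x = x) → b σ = 0 := by
    intro σ hσ
    have h := hσv σ
    rw [hσ] at h
    exact (hcoord 1 (chi p σ) 0 (b σ) (by rw [one_smul, zero_smul, add_zero]; exact h)).2.symm
  have hH : ∀ h : AbsGal, chi p h = 1 → b h = 0 := by
    refine cocycle_eq_zero h3 b hbmul ?_ ?_
    · obtain ⟨E, hE, hsub⟩ := (krullTopology_mem_nhds_one_iff ℚ Qbar _).mp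
        (hadm.open_kernel.mem_nhds (fun x => one_smul _ x))
      exact ⟨E, hE, fun σ hσ => hker σ (hsub hσ)⟩
    · intro q hq A hA σ hσ hσ1
      refine hker σ ?_
      by_cases hqp : q = p
      swap
      · exact hadm.unramified_outside q hq hqp A hA σ hσ
      subst hqp
      obtain ⟨C', hstab, hcompl⟩ := hadm.locally_split A hA
      obtain ⟨⟨σ', hσ'⟩, -, rfl⟩ := Subgroup.mem_map.mp hσ
      intro x
      obtain ⟨y, hy, w, hw, rfl⟩ := Submodule.mem_sup.mp
        (hcompl.sup_eq_top ▸ Submodule.mem_top : x ∈ C ⊔ C')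
      have h1 : σ' • w - (chi q σ') • w = 0 :=
        (Submodule.disjoint_def.mp hcompl.disjoint) _ (hadm.cyclo_quot σ' w)
          (C'.sub_mem (hstab σ' hσ' w hw) (C'.smul_mem _ hw))
      rw [show chi q σ' = 1 from hσ1, one_smul, sub_eq_zero] at h1
      show σ' • (y + w) = y + w
      rw [smul_add, hadm.fixed_sub σ' y hy, h1]
  have hsymm : ∀ σ τ, b (σ * τ) = b (τ * σ) := by
    intro σ τ
    have hk : chi p (σ * τ * (τ * σ)⁻¹) = 1 := by
      rw [chi_mul, chi_mul σ τ, mul_comm (chi p σ), ← chi_mul, ← chi_mul, mul_inv_cancel, chi_one]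
    have h := hbmul (σ * τ * (τ * σ)⁻¹) (τ * σ)
    rw [inv_mul_cancel_right, hH _ hk, mul_zero, zero_add] at h
    exact h
  obtain ⟨t, ht⟩ : ∃ t : ZMod p, ∀ σ, b σ = t * (chi p σ - 1) := by
    by_cases hall : ∀ σ : AbsGal, chi p σ = 1
    · exact ⟨0, fun σ => by rw [zero_mul, hH σ (hall σ)]⟩
    push Not at hall
    obtain ⟨σ₀, hσ₀⟩ := hall
    have hne : chi p σ₀ - 1 ≠ 0 := sub_ne_zero.mpr hσ₀
    refine ⟨b σ₀ / (chi p σ₀ - 1), fun σ => ?_⟩
    have h := hsymm σ σ₀
    rw [hbmul, hbmul] at h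
    rw [div_mul_eq_mul_div, eq_div_iff hne]
    linear_combination h
  have hv' : ∀ σ : AbsGal, σ • (v + t • c) = chi p σ • (v + t • c) := fun σ => by
    have h := hact σ 1 t
    rw [one_smul, one_mul, one_mul, ht σ] at h
    rw [h, smul_add, smul_smul]
    congr 2
    ring
  refine ⟨Submodule.span (ZMod p) {v + t • c}, fun σ x hx => ?_, ?_, ?_⟩
  · obtain ⟨a, rfl⟩ := Submodule.mem_span_singleton.mp hx
    rw [smul_comm, hv', smul_smul]
    exact Submodule.smul_mem _ _ (Submodule.mem_span_singleton_self _)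
  · rw [Submodule.disjoint_def]
    intro x hxC hx
    obtain ⟨a, rfl⟩ := Submodule.mem_span_singleton.mp hx
    by_cases ha : a = 0
    · rw [ha, zero_smul]
    · refine absurd ?_ hv
      rw [← add_sub_cancel_right v (t • c), ← inv_smul_smul₀ ha (v + t • c)]
      exact C.sub_mem (C.smul_mem _ hxC) (C.smul_mem t hcC)
  · rw [codisjoint_iff, eq_top_iff]
    intro x _
    obtain ⟨a, e, rfl⟩ := hspan x
    rw [show a • v + e • c = (e - a * t) • c + a • (v + t • c) by
      rw [smul_add, smul_smul, sub_smul]; abel]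
    exact Submodule.add_mem_sup (C.smul_mem _ hcC)
      (Submodule.smul_mem _ _ (Submodule.mem_span_singleton_self _))

end Fermat.Agent.ExtVanish
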