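import Fermat.Agent.Density.Analytic

/-!
# Density of the primes at which an element is a power residue

The degree one primes at which a non-`p`-th power is a `p`-th power residue have density at most
`1/p` (`exists_residue_density_bound`).
-/

set_option autoImplicit false

noncomputable section

namespace Fermat.Agent.ExtVanish

open NumberField Polynomial Filter Topology
open Fermat.Agent.Density
open scoped Classical Pointwise

variable {p : ℕ} [hp : Fact p.Prime] {K : Type} [Field K] [NumberField K] {ζ : K}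

/-- The primes above a prime at which `a = α ^ p` is a `p`-th power residue. -/
theorem exists_finset_primes_above (hζ : IsPrimitiveRoot ζ p) {U : Type} [Field U] [NumberField U]
    [Algebra K U] [IsGalois K U] (hdeg : Module.finrank K U = p) {α : U}
    (hgen : ∀ σ τ : U ≃ₐ[K] U, σ α = τ α → σ = τ) {u : 𝓞 K}
    (hα : α ^ p = algebraMap K U (u : K)) {P : Ideal (𝓞 K)} (hP : P.IsPrime) (hP0 : P ≠ ⊥)
    (hpP : (p : 𝓞 K) ∉ P) (huP : u ∉ P) (hres : ∃ y : 𝓞 K, u - y ^ p ∈ P) :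
    ∃ S : Finset (Ideal (𝓞 U)), S.card = p ∧ ∀ Q ∈ S, Q.IsPrime ∧ Q ≠ ⊥ ∧
      Q.under (𝓞 K) = P ∧ Ideal.absNorm Q = Ideal.absNorm P := by
  have := hP.isMaximal hP0
  obtain ⟨y, hy⟩ := hres
  have hαint : IsIntegral ℤ α := by
    refine IsIntegral.of_pow hp.out.pos ?_
    rw [hα]
    exact map_isIntegral_int (algebraMap K U) u.2
  set a : 𝓞 U := ⟨α, hαint⟩ with ha
  have hap : a ^ p = algebraMap (𝓞 K) (𝓞 U) u := RingOfIntegers.ext hα
  obtain ⟨Q, hQ, hQP⟩ := Ideal.exists_maximal_ideal_liesOver_of_isIntegral (S := 𝓞 U) P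
  have hQP' : Q.under (𝓞 K) = P := hQP.over.symm
  have hmem : ∀ x : 𝓞 K, algebraMap (𝓞 K) (𝓞 U) x ∈ Q ↔ x ∈ P := fun x => by
    rw [← hQP', Ideal.mem_comap]
  -- `α` is congruent to an element of `K`
  obtain ⟨i, hi⟩ : ∃ i : ℕ, a - algebraMap (𝓞 K) (𝓞 U) (hζ.toInteger ^ i * y) ∈ Q := by
    have hprim : IsPrimitiveRoot (algebraMap (𝓞 K) (𝓞 U) hζ.toInteger) p :=
      hζ.toInteger_isPrimitiveRoot.map_of_injective
        (FaithfulSMul.algebraMap_injective (𝓞 K) (𝓞 U))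
    have hf := hprim.pow_sub_pow_eq_prod_sub_mul a (algebraMap (𝓞 K) (𝓞 U) y) hp.out.pos
    have h : a ^ p - algebraMap (𝓞 K) (𝓞 U) y ^ p ∈ Q := by
      rw [hap, ← map_pow, ← map_sub, hmem]; exact hy
    rw [hf, Ideal.IsPrime.prod_mem_iff] at h
    obtain ⟨μ, hμ, hμQ⟩ := h
    obtain ⟨i, -, rfl⟩ := hprim.eq_pow_of_pow_eq_one ((mem_nthRootsFinset hp.out.pos _).mp hμ)
    exact ⟨i, by rwa [map_mul, map_pow]⟩
  have haQ : a ∉ Q := fun h => huP (by
    rw [← hmem, ← hap]; exact Ideal.pow_mem_of_mem Q h p hp.out.pos)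
  have hstab : ∀ σ : U ≃ₐ[K] U, σ • Q = Q → σ = 1 := by
    intro σ hσ
    refine hgen σ 1 ?_
    rw [AlgEquiv.one_apply]
    have h1 : σ • (a - algebraMap (𝓞 K) (𝓞 U) (hζ.toInteger ^ i * y)) ∈ Q := by
      have h := Ideal.smul_mem_pointwise_smul σ _ _ hi
      rwa [hσ] at h
    rw [smul_sub, smul_algebraMap] at h1
    have h2 : σ • a - a ∈ Q := by
      have := sub_mem h1 hi
      convert this using 1
      ring
    have hpow : (σ • a) ^ p = a ^ p := by
      rw [← smul_pow', hap, smul_algebraMap]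
    by_contra hne
    have hprim : IsPrimitiveRoot (algebraMap (𝓞 K) (𝓞 U) hζ.toInteger) p :=
      hζ.toInteger_isPrimitiveRoot.map_of_injective
        (FaithfulSMul.algebraMap_injective (𝓞 K) (𝓞 U))
    have hprod := hprim.pow_sub_pow_eq_prod_sub_mul (σ • a) a hp.out.pos
    rw [hpow, sub_self, eq_comm, Finset.prod_eq_zero_iff] at hprod
    obtain ⟨μ, hμ, hμ0⟩ := hprod
    rw [sub_eq_zero] at hμ0
    have h3 : (μ - 1) * a ∈ Q := by
      rw [sub_mul, one_mul, ← hμ0]; exact h2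
    rcases hQ.isPrime.mem_or_mem h3 with h | h
    · have hμ1 : μ ≠ 1 := by
        rintro rfl
        rw [one_mul] at hμ0
        exact hne (congrArg (fun x : 𝓞 U => (x : U)) hμ0)
      have hμp : IsPrimitiveRoot μ p := by
        refine IsPrimitiveRoot.iff_orderOf.mpr (orderOf_eq_prime ?_ hμ1)
        exact (mem_nthRootsFinset hp.out.pos _).mp hμ
      refine hpP ((hmem _).mp ?_)
      rw [map_natCast]
      have hassoc := IsCyclotomicExtension.Rat.associated_zeta_sub_one_pow_prime p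
        (hμp.map_of_injective (f := algebraMap (𝓞 U) U) RingOfIntegers.coe_injective)
      refine Ideal.mem_of_dvd _ hassoc.dvd
        (Ideal.pow_mem_of_mem Q ?_ _ (Nat.sub_pos_of_lt hp.out.one_lt))
      convert h using 1
      exact congrArg (· - 1) (RingOfIntegers.ext rfl)
    · exact haQ h
  -- the orbit
  have hinj : Function.Injective fun σ : U ≃ₐ[K] U => σ • Q := by
    intro σ τ h
    have h1 : (τ⁻¹ * σ) • Q = Q := by
      rw [mul_smul]
      exact (congrArg (τ⁻¹ • ·) h).trans (inv_smul_smul τ Q)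
    exact (inv_mul_eq_one.mp (hstab _ h1)).symm
  have hcard : Fintype.card (U ≃ₐ[K] U) = p := by
    rw [← Nat.card_eq_fintype_card, IsGalois.card_aut_eq_finrank, hdeg]
  have hQ0 : Q ≠ ⊥ := fun h => hP0 (by rw [← hQP', h, Ideal.under_bot])
  refine ⟨Finset.univ.image fun σ : U ≃ₐ[K] U => σ • Q, ?_, ?_⟩
  · rw [Finset.card_image_of_injective _ hinj, Finset.card_univ, hcard]
  have hnorm : ∀ σ : U ≃ₐ[K] U, Ideal.absNorm (σ • Q) = Ideal.absNorm Q := by
    intro σ
    rw [Ideal.absNorm_apply, Ideal.absNorm_apply, Submodule.cardQuot_apply,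
      Submodule.cardQuot_apply]
    exact (Nat.card_congr (Ideal.quotientEquiv Q (σ • Q)
      (MulSemiringAction.toRingEquiv (U ≃ₐ[K] U) (𝓞 U) σ) rfl).toEquiv).symm
  have hprimeσ : ∀ σ : U ≃ₐ[K] U, (σ • Q).IsPrime ∧ σ • Q ≠ ⊥ := by
    intro σ
    refine ⟨Ideal.IsPrime.smul (H := hQ.isPrime) σ, fun h => hQ0 ?_⟩
    have h' : Ideal.absNorm (σ • Q) = 0 := by rw [Ideal.absNorm_eq_zero_iff]; exact h
    rw [hnorm, Ideal.absNorm_eq_zero_iff] at h'
    exact h'
  have hunder : ∀ σ : U ≃ₐ[K] U, (σ • Q).under (𝓞 K) = P := by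
    intro σ
    rw [← hQP']
    ext x
    rw [Ideal.mem_comap, Ideal.mem_comap, Ideal.mem_pointwise_smul_iff_inv_smul_mem,
      smul_algebraMap]
  have hle : ∏ Q' ∈ Finset.univ.image (fun σ : U ≃ₐ[K] U => σ • Q), Q' ∣
      P.map (algebraMap (𝓞 K) (𝓞 U)) := by
    refine Finset.prod_primes_dvd _ (fun Q' hQ' => ?_) (fun Q' hQ' => ?_)
    · obtain ⟨σ, -, rfl⟩ := Finset.mem_image.mp hQ'
      exact Ideal.prime_of_isPrime (hprimeσ σ).2 (hprimeσ σ).1
    · obtain ⟨σ, -, rfl⟩ := Finset.mem_image.mp hQ'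
      rw [Ideal.dvd_iff_le, Ideal.map_le_iff_le_comap]
      exact (hunder σ).ge
  have hrank : Module.finrank (𝓞 K) (𝓞 U) = p := by
    rw [← hdeg]
    exact (IsFractionRing.finrank_eq (𝓞 K) K (𝓞 U) U).symm
  have hnormle : Ideal.absNorm Q ^ p ∣ Ideal.absNorm P ^ p := by
    have h := map_dvd Ideal.absNorm hle
    rw [map_prod, Finset.prod_image (fun σ _ τ _ h => hinj h), Ideal.absNorm_algebraMap,
      hrank] at h
    simpa [hnorm, hcard] using h
  have heq : Ideal.absNorm Q = Ideal.absNorm P := by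
    have hN0 : Ideal.absNorm P ≠ 0 := by rwa [Ne, Ideal.absNorm_eq_zero_iff]
    refine le_antisymm ((Nat.pow_le_pow_iff_left hp.out.ne_zero).mp
      (Nat.le_of_dvd (pow_pos (Nat.pos_of_ne_zero hN0) _) hnormle)) ?_
    rw [← Ideal.absNorm_pow_inertiaDeg P Q]
    exact Nat.le_self_pow (Ideal.inertiaDeg_pos Q (𝓞 K)).ne' _
  intro Q' hQ'
  obtain ⟨σ, -, rfl⟩ := Finset.mem_image.mp hQ'
  exact ⟨(hprimeσ σ).1, (hprimeσ σ).2, hunder σ, (hnorm σ).trans heq⟩

/-- Primes at which a non-`p`-th power is a `p`-th power residue have density at most `1/p`. -/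
theorem exists_residue_density_bound (hζ : IsPrimitiveRoot ζ p) (u : 𝓞 K)
    (hu : ∀ b : K, b ^ p ≠ (u : K)) :
    ∃ B : ℝ, ∀ᶠ s in 𝓝[>] (1 : ℝ), ∀ T : Finset (Ideal (𝓞 K)),
      (∀ P ∈ T, P.IsPrime ∧ P ≠ ⊥ ∧ (p : 𝓞 K) ∉ P ∧ u ∉ P ∧ ∃ y : 𝓞 K, u - y ^ p ∈ P) →
      (p : ℝ) * ∑ P ∈ T, idealWeight s P ≤ -Real.log (s - 1) + B := by
  have hirr : Irreducible (X ^ p - C (u : K)) := X_pow_sub_C_irreducible_of_prime hp.out hu
  have := Fact.mk hirr
  have hprim : (primitiveRoots p K).Nonempty := ⟨ζ, (mem_primitiveRoots hp.out.pos).mpr hζ⟩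
  let U := AdjoinRoot (X ^ p - C (u : K))
  have : IsSplittingField K U (X ^ p - C (u : K)) :=
    isSplittingField_AdjoinRoot_X_pow_sub_C hprim hirr
  have : IsGalois K U := isGalois_of_isSplittingField_X_pow_sub_C hprim hirr U
  have hdeg : Module.finrank K U = p := finrank_of_isSplittingField_X_pow_sub_C hprim hirr U
  have : FiniteDimensional K U := Module.finite_of_finrank_pos (by rw [hdeg]; exact hp.out.pos)
  have : NumberField U := NumberField.of_module_finite K U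
  have hroot : (AdjoinRoot.root (X ^ p - C (u : K)) : U) ^ p = algebraMap K U (u : K) :=
    root_X_pow_sub_C_pow p (u : K)
  have hgen : ∀ σ τ : U ≃ₐ[K] U, σ (AdjoinRoot.root _) = τ (AdjoinRoot.root _) → σ = τ :=
    fun σ τ h => AlgEquiv.ext fun x =>
      AlgHom.congr_fun (AdjoinRoot.algHom_ext (g₁ := σ.toAlgHom) (g₂ := τ.toAlgHom) h) x
  obtain ⟨C₁, hC₁⟩ := eventually_abs_primeTerm_add_log_le U
  refine ⟨C₁ + Module.finrank ℚ U * primeSqSum, ?_⟩
  filter_upwards [hC₁, self_mem_nhdsWithin] with s hs hs1 T hT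
  have hs' : (1 : ℝ) < s := hs1
  have hex : ∀ P : Ideal (𝓞 K), ∃ S : Finset (Ideal (𝓞 U)), P ∈ T → S.card = p ∧
      ∀ Q ∈ S, Q.IsPrime ∧ Q ≠ ⊥ ∧ Q.under (𝓞 K) = P ∧ Ideal.absNorm Q = Ideal.absNorm P := by
    intro P
    by_cases hP : P ∈ T
    · obtain ⟨h1, h2, h3, h4, h5⟩ := hT P hP
      obtain ⟨S, hS⟩ := exists_finset_primes_above hζ hdeg hgen hroot h1 h2 h3 h4 h5
      exact ⟨S, fun _ => hS⟩
    · exact ⟨∅, fun h => absurd h hP⟩
  choose S hS using hex
  have hdisj : (T : Set (Ideal (𝓞 K))).PairwiseDisjoint S := by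
    intro P hP P' hP' hne
    rw [Function.onFun, Finset.disjoint_left]
    intro Q hQ hQ'
    exact hne (((hS P hP).2 Q hQ).2.2.1.symm.trans ((hS P' hP').2 Q hQ').2.2.1)
  have hsum : ∑ Q ∈ T.biUnion S, idealWeight s Q = (p : ℝ) * ∑ P ∈ T, idealWeight s P := by
    rw [Finset.sum_biUnion hdisj, Finset.mul_sum]
    refine Finset.sum_congr rfl fun P hP => ?_
    rw [Finset.sum_congr rfl (g := fun _ => idealWeight s P)
      (fun Q hQ => by rw [idealWeight, idealWeight, ((hS P hP).2 Q hQ).2.2.2]),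
      Finset.sum_const, (hS P hP).1, nsmul_eq_mul]
  have hle := sum_idealWeight_le hs' (T.biUnion S) fun Q hQ => by
    obtain ⟨P, hP, hQP⟩ := Finset.mem_biUnion.mp hQ
    exact ⟨((hS P hP).2 Q hQP).1, ((hS P hP).2 Q hQP).2.1⟩
  rw [hsum] at hle
  linarith [(abs_le.mp hs).2]

end Fermat.Agent.ExtVanish
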