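import Mathlib

/-!
# The extension `K(ζ_l)/K`

For a prime `l` unramified in `K`: irreducibility of `cyclotomic l` over `K`, norms,
ramification (`ramification_over_unramified`), and the divisor of the Hilbert 90 element of a
norm one integer (`exists_hilbert_element`).
-/

set_option autoImplicit false

noncomputable section

namespace Fermat.Agent.ExtVanish

open NumberField Polynomial UniqueFactorizationMonoid
open scoped Classical Pointwise

variable {K : Type} [Field K] [NumberField K]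

/-- The exponent of a prime in an ideal. -/
def idealCount (P I : Ideal (𝓞 K)) : ℕ := (normalizedFactors I).count P

theorem idealCount_mul (P : Ideal (𝓞 K)) {I J : Ideal (𝓞 K)} (hI : I ≠ ⊥) (hJ : J ≠ ⊥) :
    idealCount P (I * J) = idealCount P I + idealCount P J := by
  rw [idealCount, normalizedFactors_mul hI hJ, Multiset.count_add]
  rfl

theorem idealCount_pow (P : Ideal (𝓞 K)) (I : Ideal (𝓞 K)) (k : ℕ) :
    idealCount P (I ^ k) = k * idealCount P I := by
  rw [idealCount, normalizedFactors_pow, Multiset.count_nsmul]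
  rfl

theorem idealCount_pos_iff {P I : Ideal (𝓞 K)} (hP : P.IsPrime) (hP0 : P ≠ ⊥) (hI : I ≠ ⊥) :
    0 < idealCount P I ↔ I ≤ P := by
  rw [idealCount, Multiset.count_pos, mem_normalizedFactors_iff hI, ← Ideal.dvd_iff_le]
  exact and_iff_right (Ideal.prime_of_isPrime hP0 hP)

theorem idealCount_eq_zero_iff {P I : Ideal (𝓞 K)} (hP : P.IsPrime) (hP0 : P ≠ ⊥) (hI : I ≠ ⊥) :
    idealCount P I = 0 ↔ ¬ I ≤ P := by
  rw [← idealCount_pos_iff hP hP0 hI, Nat.pos_iff_ne_zero, not_not]

theorem idealCount_self {P : Ideal (𝓞 K)} (hP : P.IsPrime) (hP0 : P ≠ ⊥) :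
    idealCount P P = 1 := by
  rw [idealCount, normalizedFactors_irreducible (Ideal.prime_of_isPrime hP0 hP).irreducible,
    normalize_eq, Multiset.count_singleton_self]

theorem exists_eq_pow_idealCount_mul {P I : Ideal (𝓞 K)} (hP : P.IsPrime) (hP0 : P ≠ ⊥)
    (hI : I ≠ ⊥) :
    ∃ J : Ideal (𝓞 K), J ≠ ⊥ ∧ I = P ^ idealCount P I * J ∧ ¬ J ≤ P := by
  obtain ⟨J, hJ, hnd⟩ := (FiniteMultiplicity.of_prime_left (Ideal.prime_of_isPrime hP0 hP) hI)
    |>.exists_eq_pow_mul_and_not_dvd
  have hJ0 : J ≠ ⊥ := fun h => hnd (h ▸ dvd_zero P)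
  rw [Ideal.dvd_iff_le] at hnd
  have h := congrArg (idealCount P) hJ
  rw [idealCount_mul P (pow_ne_zero _ hP0) hJ0, idealCount_pow, idealCount_self hP hP0, mul_one,
    (idealCount_eq_zero_iff hP hP0 hJ0).mpr hnd, add_zero] at h
  exact ⟨J, hJ0, by rw [h]; exact hJ, hnd⟩

theorem le_pow_idealCount {P I : Ideal (𝓞 K)} (hP : P.IsPrime) (hP0 : P ≠ ⊥) (hI : I ≠ ⊥) :
    I ≤ P ^ idealCount P I := by
  obtain ⟨J, -, hJ, -⟩ := exists_eq_pow_idealCount_mul hP hP0 hI
  exact hJ.le.trans Ideal.mul_le_left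

variable {M : Type} [Field M] [NumberField M] [Algebra K M]

omit [NumberField K] [NumberField M] in
theorem map_ne_bot_of_ne_bot' {I : Ideal (𝓞 K)} (hI : I ≠ ⊥) :
    I.map (algebraMap (𝓞 K) (𝓞 M)) ≠ ⊥ := fun h =>
  hI ((Ideal.map_eq_bot_iff_of_injective (FaithfulSMul.algebraMap_injective (𝓞 K) (𝓞 M))).mp h)

theorem idealCount_map {Q : Ideal (𝓞 M)} (hQ : Q.IsPrime) (hQ0 : Q ≠ ⊥) {I : Ideal (𝓞 K)}
    (hI : I ≠ ⊥) :
    idealCount Q (I.map (algebraMap (𝓞 K) (𝓞 M))) =
      Q.ramificationIdx (𝓞 K) * idealCount (Q.under (𝓞 K)) I := by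
  have hq : (Q.under (𝓞 K)).IsPrime := Ideal.IsPrime.under _ Q
  have hq0 : Q.under (𝓞 K) ≠ ⊥ := fun h => hQ0 (Ideal.eq_bot_of_comap_eq_bot h)
  obtain ⟨J, hJ0, hJ, hJq⟩ := exists_eq_pow_idealCount_mul hq hq0 hI
  conv_lhs => rw [hJ]
  rw [Ideal.map_mul, Ideal.map_pow, idealCount_mul _ (pow_ne_zero _ (map_ne_bot_of_ne_bot' hq0))
    (map_ne_bot_of_ne_bot' hJ0), idealCount_pow,
    (idealCount_eq_zero_iff hQ hQ0 (map_ne_bot_of_ne_bot' hJ0)).mpr
      (fun h => hJq (Ideal.map_le_iff_le_comap.mp h)), add_zero, mul_comm]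
  congr 1
  exact (Ideal.IsDedekindDomain.ramificationIdx_eq_normalizedFactors_count (Q.under (𝓞 K)) Q
    (map_ne_bot_of_ne_bot' hq0)).symm

/-- `cyclotomic l` is irreducible over `K` if `l` is unramified at some prime of `K`. -/
theorem irreducible_cyclotomic_of_notMem_sq {l : ℕ} [hl : Fact l.Prime] {P : Ideal (𝓞 K)}
    (hP : P.IsPrime) (hmem : (l : 𝓞 K) ∈ P) (hsq : (l : 𝓞 K) ∉ P ^ 2) :
    Irreducible (cyclotomic l K) := by
  have hmon : ((cyclotomic l (𝓞 K)).comp (X + 1)).Monic := by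
    rw [show (X + 1 : (𝓞 K)[X]) = X + C 1 by simp]
    exact (cyclotomic.monic l _).comp_X_add_C _
  have hmap : ((cyclotomic l ℤ).comp (X + 1)).map (Int.castRingHom (𝓞 K)) =
      (cyclotomic l (𝓞 K)).comp (X + 1) := by
    rw [Polynomial.map_comp, map_cyclotomic]
    simp
  have hdeg : ((cyclotomic l (𝓞 K)).comp (X + 1)).natDegree = l - 1 := by
    rw [natDegree_comp, show (X + 1 : (𝓞 K)[X]) = X + C 1 by simp, natDegree_X_add_C, mul_one,
      natDegree_cyclotomic, Nat.totient_prime hl.out]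
  have hE : ((cyclotomic l (𝓞 K)).comp (X + 1)).IsEisensteinAt P := by
    refine hmon.isEisensteinAt_of_mem_of_notMem hP.ne_top (fun {n} hn => ?_) ?_
    · rw [← hmap, coeff_map]
      have h : ((cyclotomic l ℤ).comp (X + 1)).natDegree = l - 1 := by
        rw [natDegree_comp, show (X + 1 : ℤ[X]) = X + C 1 by simp, natDegree_X_add_C, mul_one,
          natDegree_cyclotomic, Nat.totient_prime hl.out]
      have h2 := (cyclotomic_comp_X_add_one_isEisensteinAt l).mem (h.symm ▸ hdeg ▸ hn)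
      rw [Ideal.submodule_span_eq, Ideal.mem_span_singleton] at h2
      obtain ⟨d, hd⟩ := h2
      rw [hd, map_mul]
      exact Ideal.mul_mem_right _ _ (by simpa using hmem)
    · rw [coeff_zero_eq_eval_zero, eval_comp, cyclotomic_prime, eval_add, eval_X, eval_one,
        zero_add, eval_geom_sum, one_geom_sum]
      exact hsq
  have hirr : Irreducible ((cyclotomic l (𝓞 K)).comp (X + 1)) :=
    hE.irreducible hP hmon.isPrimitive (by
      rw [hdeg]; have := hl.out.two_le; omega)
  rw [← map_cyclotomic l (algebraMap (𝓞 K) K),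
    ← (cyclotomic.monic l (𝓞 K)).irreducible_iff_irreducible_map_fraction_map]
  refine (MulEquiv.irreducible_iff (algEquivAevalXAddC (1 : 𝓞 K)).toMulEquiv).mp ?_
  simpa [comp_eq_aeval] using hirr

variable {l : ℕ} [hl : Fact l.Prime] [IsCyclotomicExtension {l} K M] {z : M}
  (hz : IsPrimitiveRoot z l)

theorem card_gal_cyclotomic (hirr : Irreducible (cyclotomic l K)) :
    Fintype.card (M ≃ₐ[K] M) = l - 1 := by
  rw [Fintype.card_congr (IsCyclotomicExtension.autEquivPow M hirr).toEquiv, ZMod.card_units]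

omit [NumberField K] [NumberField M] in
include hz in
theorem algEquiv_ext_root {σ τ : M ≃ₐ[K] M} (h : σ z = τ z) : σ = τ := by
  have h1 : σ.toAlgHom = τ.toAlgHom := by
    refine (hz.powerBasis K).algHom_ext ?_
    rw [IsPrimitiveRoot.powerBasis_gen]
    exact h
  exact AlgEquiv.ext fun x => AlgHom.congr_fun h1 x

include hz in
/-- The norm of `z - c` is `1` for a `p`-th root of unity `c ≠ 1`, `p ∣ l - 1`. -/
theorem norm_root_sub (hirr : Irreducible (cyclotomic l K)) (hl2 : l ≠ 2) {c : K}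
    (hc : c ^ l = c) (hc1 : c ≠ 1) :
    Algebra.norm K (z - algebraMap K M c) = 1 := by
  have : IsGalois K M := IsCyclotomicExtension.isGalois {l} K M
  apply (algebraMap K M).injective
  rw [Algebra.norm_eq_prod_automorphisms, map_one]
  simp only [map_sub, AlgEquiv.commutes]
  have himage : Finset.univ.image (fun σ : M ≃ₐ[K] M => σ z) = primitiveRoots l M := by
    refine Finset.eq_of_subset_of_card_le (fun μ hμ => ?_) ?_
    · obtain ⟨σ, -, rfl⟩ := Finset.mem_image.mp hμ
      exact (mem_primitiveRoots hl.out.pos).mpr (hz.map_of_injective σ.injective)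
    · rw [Finset.card_image_of_injective _ fun σ τ h => algEquiv_ext_root hz h,
        Finset.card_univ, card_gal_cyclotomic (M := M) hirr, hz.card_primitiveRoots,
        Nat.totient_prime hl.out]
  rw [← Finset.prod_image (g := fun σ : M ≃ₐ[K] M => σ z)
    (f := fun μ => μ - algebraMap K M c) (fun σ _ τ _ h => algEquiv_ext_root hz h), himage]
  have h1 := congrArg (Polynomial.eval (algebraMap K M c)) (cyclotomic_prime_mul_X_sub_one M l)
  rw [cyclotomic_eq_prod_X_sub_primitiveRoots hz] at h1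
  simp only [eval_mul, eval_prod, eval_sub, eval_X, eval_C, eval_one, eval_pow] at h1
  rw [← map_pow, hc] at h1
  have hne : algebraMap K M c - 1 ≠ 0 := by
    rw [sub_ne_zero, ← map_one (algebraMap K M)]
    exact (algebraMap K M).injective.ne hc1
  have h2 : ∏ μ ∈ primitiveRoots l M, (algebraMap K M c - μ) = 1 :=
    mul_right_cancel₀ hne (h1.trans (one_mul _).symm)
  have h3 : ∀ μ ∈ primitiveRoots l M, μ - algebraMap K M c =
      (-1) * (algebraMap K M c - μ) := fun μ _ => by ring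
  rw [Finset.prod_congr rfl h3, Finset.prod_mul_distrib, h2, mul_one, Finset.prod_const,
    hz.card_primitiveRoots, Nat.totient_prime hl.out]
  exact (hl.out.even_sub_one hl2).neg_one_pow

/-- Inertia of a prime not containing `l` is trivial. -/
theorem ramificationIdx_eq_one_of_notMem {Q : Ideal (𝓞 M)} (hQ : Q.IsPrime) (hQ0 : Q ≠ ⊥)
    (hl' : (l : 𝓞 M) ∉ Q) : Q.ramificationIdx (𝓞 K) = 1 := by
  set z := IsCyclotomicExtension.zeta l K M
  have hz : IsPrimitiveRoot z l := IsCyclotomicExtension.zeta_spec l K M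
  have : IsGalois K M := IsCyclotomicExtension.isGalois {l} K M
  have hq0 : Q.under (𝓞 K) ≠ ⊥ := fun h => hQ0 (Ideal.eq_bot_of_comap_eq_bot h)
  rw [← Ideal.ramificationIdxIn_eq_ramificationIdx (Q.under (𝓞 K)) Q (M ≃ₐ[K] M),
    ← Ideal.card_inertia_eq_ramificationIdxIn (G := M ≃ₐ[K] M) (Q.under (𝓞 K)) Q]
  have htriv : Q.inertia (M ≃ₐ[K] M) = ⊥ := by
    rw [Subgroup.eq_bot_iff_forall]
    intro σ hσ
    refine algEquiv_ext_root hz ?_
    rw [AlgEquiv.one_apply]
    obtain ⟨i, hil, hi⟩ := hz.eq_pow_of_pow_eq_one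
      (show σ z ^ l = 1 by rw [← map_pow, hz.pow_eq_one, map_one])
    have hmem : hz.toInteger ^ i - hz.toInteger ∈ Q := by
      have := hσ hz.toInteger
      rw [Submodule.mem_toAddSubgroup] at this
      convert this using 2
      exact RingOfIntegers.ext hi
    by_contra hne
    have hmem' : hz.toInteger ^ i ∈ nthRootsFinset l (1 : 𝓞 M) :=
      (mem_nthRootsFinset hl.out.pos _).mpr (by
        rw [← pow_mul, mul_comm, pow_mul, hz.toInteger_isPrimitiveRoot.pow_eq_one, one_pow])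
    have hmem1 : hz.toInteger ∈ nthRootsFinset l (1 : 𝓞 M) :=
      (mem_nthRootsFinset hl.out.pos _).mpr hz.toInteger_isPrimitiveRoot.pow_eq_one
    have hassoc :=
      hz.toInteger_isPrimitiveRoot.nthRootsFinset_pairwise_associated_sub_one_sub_of_prime
      hl.out hmem' hmem1 (fun h => hne (by
        rw [← hi]; exact congrArg (fun x : 𝓞 M => (x : M)) h))
    refine hl' ?_
    have h1 : hz.toInteger - 1 ∈ Q := Ideal.mem_of_dvd _ hassoc.symm.dvd hmem
    exact Ideal.mem_of_dvd _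
      (IsCyclotomicExtension.Rat.associated_zeta_sub_one_pow_prime l hz).dvd
      (Ideal.pow_mem_of_mem Q h1 _ (by have := hl.out.two_le; omega))
  rw [htriv, Subgroup.card_bot]

/-- The ramification at the primes over an unramified `l`. -/
theorem ramification_over_unramified (hirr : Irreducible (cyclotomic l K)) {Q : Ideal (𝓞 M)}
    (hQ : Q.IsPrime) (hl' : (l : 𝓞 M) ∈ Q)
    (hunr : idealCount (Q.under (𝓞 K)) (Ideal.span {(l : 𝓞 K)}) = 1) :
    Q.ramificationIdx (𝓞 K) = l - 1 ∧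
      idealCount Q (Ideal.span {hz.toInteger - 1}) = 1 ∧
      ∀ (σ : M ≃ₐ[K] M) (x : 𝓞 M), σ • x - x ∈ Q := by
  have : IsGalois K M := IsCyclotomicExtension.isGalois {l} K M
  have hl0M : (l : 𝓞 M) ≠ 0 := Nat.cast_ne_zero.mpr hl.out.ne_zero
  have hQ0 : Q ≠ ⊥ := fun h => hl0M (by simpa [h] using hl')
  have hω0 : hz.toInteger - 1 ≠ 0 :=
    sub_ne_zero.mpr (hz.toInteger_isPrimitiveRoot.ne_one hl.out.one_lt)
  have hmap : (Ideal.span {(l : 𝓞 K)}).map (algebraMap (𝓞 K) (𝓞 M)) =
      Ideal.span {hz.toInteger - 1} ^ (l - 1) := by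
    rw [Ideal.map_span, Set.image_singleton, map_natCast, Ideal.span_singleton_pow]
    exact Ideal.span_singleton_eq_span_singleton.mpr
      (IsCyclotomicExtension.Rat.associated_zeta_sub_one_pow_prime l hz).symm
  have hspan0 : Ideal.span {(l : 𝓞 K)} ≠ ⊥ := by simpa using hl.out.ne_zero
  have hcount : Q.ramificationIdx (𝓞 K) =
      (l - 1) * idealCount Q (Ideal.span {hz.toInteger - 1}) := by
    have h := idealCount_map hQ hQ0 hspan0
    rw [hunr, mul_one, hmap, idealCount_pow] at h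
    exact h.symm
  have hωpos : 0 < idealCount Q (Ideal.span {hz.toInteger - 1}) := by
    rw [idealCount_pos_iff hQ hQ0 (by simpa [Ideal.span_singleton_eq_bot] using hω0),
      Ideal.span_singleton_le_iff_mem]
    exact hQ.mem_of_pow_mem (l - 1) (Ideal.mem_of_dvd _
      (IsCyclotomicExtension.Rat.associated_zeta_sub_one_pow_prime l hz).symm.dvd hl')
  have hcard : Nat.card (Q.inertia (M ≃ₐ[K] M)) = Q.ramificationIdx (𝓞 K) := by
    rw [Ideal.card_inertia_eq_ramificationIdxIn (G := M ≃ₐ[K] M) (Q.under (𝓞 K)) Q,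
      Ideal.ramificationIdxIn_eq_ramificationIdx (Q.under (𝓞 K)) Q (M ≃ₐ[K] M)]
  have hle : Nat.card (Q.inertia (M ≃ₐ[K] M)) ≤ l - 1 := by
    rw [← card_gal_cyclotomic (M := M) hirr, ← Nat.card_eq_fintype_card]
    exact Subgroup.card_le_card_group _
  have hv : idealCount Q (Ideal.span {hz.toInteger - 1}) = 1 := by
    rw [hcard, hcount] at hle
    have h2 : 0 < l - 1 := by have := hl.out.two_le; omega
    have := Nat.le_of_mul_le_mul_left (hle.trans (mul_one _).ge) h2
    omega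
  refine ⟨by rw [hcount, hv, mul_one], hv, fun σ x => ?_⟩
  have htop : Q.inertia (M ≃ₐ[K] M) = ⊤ := by
    refine Subgroup.eq_top_of_card_eq _ ?_
    rw [hcard, hcount, hv, mul_one, Nat.card_eq_fintype_card, card_gal_cyclotomic (M := M) hirr]
  have : σ ∈ Q.inertia (M ≃ₐ[K] M) := htop ▸ Subgroup.mem_top σ
  exact this x

include hz in
/-- The Hilbert 90 element attached to a norm one integer, and its divisor. -/
theorem exists_hilbert_element (hirr : Irreducible (cyclotomic l K)) {g : ℕ}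
    (hg0 : (g : ZMod l) ≠ 0)
    (hg : ∀ x : (ZMod l)ˣ, ∃ j : ℕ, ((g : ZMod l)) ^ j = (x : ZMod l))
    (ε : 𝓞 M) (w : 𝓞 K) (hN : Algebra.norm K (ε : M) = 1)
    (hcong : hz.toInteger - 1 ∣ ε - algebraMap (𝓞 K) (𝓞 M) w) :
    ∃ α : 𝓞 K, α ≠ 0 ∧
      (∀ q : Ideal (𝓞 K), q.IsPrime → q ≠ ⊥ → (l : 𝓞 K) ∉ q →
        l - 1 ∣ idealCount q (Ideal.span {α})) ∧
      (∀ q : Ideal (𝓞 K), q.IsPrime → (l : 𝓞 K) ∈ q →
        idealCount q (Ideal.span {(l : 𝓞 K)}) = 1 →
        w - (g : 𝓞 K) ^ idealCount q (Ideal.span {α}) ∈ q) := by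
  have : IsGalois K M := IsCyclotomicExtension.isGalois {l} K M
  set e := IsCyclotomicExtension.autEquivPow M hirr
  set τ : M ≃ₐ[K] M := e.symm (Units.mk0 (g : ZMod l) hg0) with hτ
  have hτgen : ∀ σ : M ≃ₐ[K] M, σ ∈ Subgroup.zpowers τ := fun σ => by
    obtain ⟨j, hj⟩ := hg (e σ)
    refine ⟨(j : ℤ), e.injective ?_⟩
    simp only [zpow_natCast, map_pow, hτ, MulEquiv.apply_symm_apply]
    exact Units.ext (by simpa using hj)
  have : IsCyclic (M ≃ₐ[K] M) := ⟨τ, hτgen⟩
  have hτz : τ z = z ^ (g % l) := by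
    have h1 := hz.autToPow_spec K τ
    rw [← h1]
    congr 1
    have h2 : hz.autToPow K τ = e τ := by
      apply Units.ext
      apply ZMod.val_injective l
      have h3 := (IsCyclotomicExtension.zeta_spec l K M).autToPow_spec K τ
      obtain ⟨i, hil, hi⟩ := (IsCyclotomicExtension.zeta_spec l K M).eq_pow_of_pow_eq_one
        hz.pow_eq_one
      have h4 : z ^ ((hz.autToPow K τ : (ZMod l)ˣ) : ZMod l).val =
          z ^ ((e τ : (ZMod l)ˣ) : ZMod l).val := by
        rw [h1, ← hi, map_pow, ← h3, ← pow_mul, ← pow_mul, mul_comm i]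
        congr 2
      exact hz.pow_inj (ZMod.val_lt _) (ZMod.val_lt _) h4
    rw [h2, hτ, MulEquiv.apply_symm_apply, Units.val_mk0, ZMod.val_natCast]
  obtain ⟨y, hy⟩ := groupCohomology.exists_div_of_norm_eq_one hτgen hN
  obtain ⟨d, hd⟩ := IsIntegral.exists_multiple_integral_of_isLocalization (nonZeroDivisors (𝓞 K))
    ((y : M)⁻¹) (Algebra.IsIntegral.isIntegral (R := K) ((y : M)⁻¹))
  have hd0 : ((d : 𝓞 K) : K) ≠ 0 := fun h => nonZeroDivisors.coe_ne_zero d (RingOfIntegers.ext h)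
  have hdint : IsIntegral ℤ (algebraMap K M ((d : 𝓞 K) : K) * (y : M)⁻¹) := by
    have := isIntegral_trans (R := ℤ) (A := 𝓞 K) _ hd
    rwa [Submonoid.smul_def, Algebra.smul_def, IsScalarTower.algebraMap_apply (𝓞 K) K M] at this
  set b : 𝓞 M := ⟨_, hdint⟩ with hb
  have hbM : (b : M) = algebraMap K M ((d : 𝓞 K) : K) * (y : M)⁻¹ := rfl
  have hb0 : b ≠ 0 := by
    intro h
    have h' : (b : M) = 0 := by rw [h]; rfl
    rw [hbM] at h'
    exact mul_ne_zero ((_root_.map_ne_zero _).mpr hd0) (inv_ne_zero y.ne_zero) h'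
  have hτb : τ • b = ε * b := by
    refine RingOfIntegers.ext ?_
    show τ (b : M) = (ε : M) * (b : M)
    rw [hbM, map_mul, AlgEquiv.commutes, map_inv₀, ← hy]
    field_simp
  have hpow : ∀ j : ℕ, ∃ u : 𝓞 M, IsUnit u ∧ (τ ^ j) • b = u * b := by
    have hεu : IsUnit ε := by
      refine isUnit_iff_dvd_one.mpr ⟨?_, ?_⟩
      · exact ∏ σ ∈ Finset.univ.erase (1 : M ≃ₐ[K] M), σ • ε
      · refine RingOfIntegers.ext ?_
        have h := Algebra.norm_eq_prod_automorphisms K (ε : M)
        rw [hN, map_one, ← Finset.mul_prod_erase _ _ (Finset.mem_univ (1 : M ≃ₐ[K] M))] at h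
        show (1 : M) = algebraMap (𝓞 M) M (ε * ∏ σ ∈ Finset.univ.erase (1 : M ≃ₐ[K] M), σ • ε)
        rw [map_mul, map_prod]
        exact h
    intro j
    induction j with
    | zero => exact ⟨1, isUnit_one, by rw [pow_zero, one_smul, one_mul]⟩
    | succ j ih =>
      obtain ⟨u, hu, h⟩ := ih
      refine ⟨τ • u * ε, (hu.map (MulSemiringAction.toRingHom (M ≃ₐ[K] M) (𝓞 M) τ)).mul hεu, ?_⟩
      rw [pow_succ', mul_smul, h, smul_mul', hτb, mul_assoc]
  have hall : ∀ σ : M ≃ₐ[K] M, Ideal.span {σ • b} = Ideal.span {b} := fun σ => by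
    obtain ⟨j, hj⟩ := (IsOfFinOrder.mem_powers_iff_mem_zpowers (isOfFinOrder_of_finite τ)).mpr
      (hτgen σ)
    obtain ⟨u, hu, h⟩ := hpow j
    rw [← hj]
    simp only
    rw [h, Ideal.span_singleton_mul_left_unit hu]
  refine ⟨RingOfIntegers.norm K b, ?_, ?_, ?_⟩
  · intro h
    have h' := congrArg (fun a : 𝓞 K => (a : K)) h
    simp only [RingOfIntegers.coe_norm, map_zero, Algebra.norm_eq_zero_iff] at h'
    exact hb0 (RingOfIntegers.ext h')
  all_goals
    have hαmap : (Ideal.span {RingOfIntegers.norm K b}).map (algebraMap (𝓞 K) (𝓞 M)) =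
        Ideal.span {b} ^ (l - 1) := by
      have hprod : algebraMap (𝓞 K) (𝓞 M) (RingOfIntegers.norm K b) =
          ∏ σ : M ≃ₐ[K] M, σ • b := by
        refine RingOfIntegers.ext ?_
        show algebraMap (𝓞 M) M _ = algebraMap (𝓞 M) M _
        rw [← IsScalarTower.algebraMap_apply (𝓞 K) (𝓞 M) M, map_prod,
          IsScalarTower.algebraMap_apply (𝓞 K) K M]
        exact (congrArg (algebraMap K M) (RingOfIntegers.coe_norm K b)).trans
          (Algebra.norm_eq_prod_automorphisms K (b : M))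
      rw [Ideal.map_span, Set.image_singleton, hprod, ← Ideal.prod_span_singleton,
        Finset.prod_congr rfl fun σ _ => hall σ, Finset.prod_const, Finset.card_univ,
        card_gal_cyclotomic (M := M) hirr]
    have hα0 : Ideal.span {RingOfIntegers.norm K b} ≠ ⊥ := fun h => by
      rw [h, Ideal.map_bot] at hαmap
      exact pow_ne_zero _ (by simpa using hb0 : Ideal.span {b} ≠ 0) hαmap.symm
  · intro q hq hq0 hlq
    have := hq.isMaximal hq0
    obtain ⟨Q, hQ, hQq⟩ := Ideal.exists_maximal_ideal_liesOver_of_isIntegral (S := 𝓞 M) q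
    have hQq' : Q.under (𝓞 K) = q := hQq.over.symm
    have hQ0 : Q ≠ ⊥ := fun h => hq0 (by rw [← hQq', h, Ideal.under_bot])
    have hlQ : (l : 𝓞 M) ∉ Q := fun h => hlq (by rw [← hQq', Ideal.mem_comap, map_natCast]; exact h)
    refine ⟨idealCount Q (Ideal.span {b}), ?_⟩
    rw [← hQq', ← idealCount_pow, ← hαmap, idealCount_map hQ.isPrime hQ0 hα0,
      ramificationIdx_eq_one_of_notMem (l := l) hQ.isPrime hQ0 hlQ, one_mul]
  · intro q hq hlq hunr
    have hq0 : q ≠ ⊥ := fun h => by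
      rw [h, Ideal.mem_bot, Nat.cast_eq_zero] at hlq
      exact hl.out.ne_zero hlq
    have := hq.isMaximal hq0
    obtain ⟨Q, hQ, hQq⟩ := Ideal.exists_maximal_ideal_liesOver_of_isIntegral (S := 𝓞 M) q
    have hQq' : Q.under (𝓞 K) = q := hQq.over.symm
    have hQ0 : Q ≠ ⊥ := fun h => hq0 (by rw [← hQq', h, Ideal.under_bot])
    have hlQ : (l : 𝓞 M) ∈ Q := by
      rw [← hQq', Ideal.mem_comap, map_natCast] at hlq
      exact hlq
    obtain ⟨he, hω, hfix⟩ := ramification_over_unramified hz hirr hQ.isPrime hlQ (hQq'.symm ▸ hunr)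
    set r := idealCount Q (Ideal.span {b}) with hr
    have hrq : idealCount q (Ideal.span {RingOfIntegers.norm K b}) = r := by
      have h := idealCount_map hQ.isPrime hQ0 hα0
      rw [hαmap, idealCount_pow, he, hQq', ← hr] at h
      exact (Nat.eq_of_mul_eq_mul_left (by have := hl.out.two_le; omega) h).symm
    rw [hrq]
    set ω := hz.toInteger - 1 with hωdef
    have hω0 : Ideal.span {ω} ≠ ⊥ := by
      rw [Ne, Ideal.span_singleton_eq_bot, hωdef, sub_eq_zero]
      exact hz.toInteger_isPrimitiveRoot.ne_one hl.out.one_lt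
    obtain ⟨J, hJ0, hJ, hJQ⟩ := exists_eq_pow_idealCount_mul hQ.isPrime hQ0 (pow_ne_zero r hω0)
    rw [idealCount_pow, hω, mul_one] at hJ
    obtain ⟨s, hsJ, hsQ⟩ := SetLike.not_le_iff_exists.mp hJQ
    have hbs : b * s ∈ Ideal.span {ω} ^ r := by
      rw [hJ]
      refine Ideal.mul_mem_mul ?_ hsJ
      exact le_pow_idealCount hQ.isPrime hQ0 (by simpa using hb0) (Ideal.mem_span_singleton_self b)
    rw [Ideal.span_singleton_pow, Ideal.mem_span_singleton] at hbs
    obtain ⟨zz, hzz⟩ := hbs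
    have hs0 : s ≠ 0 := fun h => hsQ (h ▸ zero_mem Q)
    have hzQ : zz ∉ Q := by
      intro hzQ
      have h1 := congrArg (fun a => idealCount Q (Ideal.span {a})) hzz
      have hzz0 : zz ≠ 0 := fun h => by
        rw [h, mul_zero] at hzz; exact mul_ne_zero hb0 hs0 hzz
      simp only [← Ideal.span_singleton_mul_span_singleton, ← Ideal.span_singleton_pow] at h1
      rw [idealCount_mul _ (by simpa using hb0) (by simpa using hs0),
        idealCount_mul _ (pow_ne_zero r hω0) (by simpa using hzz0), idealCount_pow, hω, mul_one,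
        ← hr, (idealCount_eq_zero_iff hQ.isPrime hQ0 (by simpa using hs0)).mpr
          (by rwa [Ideal.span_singleton_le_iff_mem]), add_zero] at h1
      have h2 := (idealCount_pos_iff hQ.isPrime hQ0 (by simpa using hzz0)).mpr
        ((Ideal.span_singleton_le_iff_mem Q).mpr hzQ)
      omega
    set t : 𝓞 M := ∑ i ∈ Finset.range (g % l), hz.toInteger ^ i with ht
    have hτω : τ • ω = ω * t := by
      rw [ht, hωdef, mul_geom_sum, smul_sub, smul_one]
      congr 1
      exact RingOfIntegers.ext hτz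
    have hmain : ω ^ r * (ε * zz * (τ • s) - t ^ r * (τ • zz) * s) = 0 := by
      have h := congrArg (fun a => (τ • a) * s) hzz
      simp only [smul_mul', smul_pow', hτb, hτω, mul_pow] at h
      linear_combination h - (ε * (τ • s)) * hzz
    have hωne : ω ≠ 0 := by simpa using hω0
    have hzero := (mul_eq_zero.mp hmain).resolve_left (pow_ne_zero r hωne)
    have hmemQ : (ε - t ^ r) * (zz * s) ∈ Q := by
      have h1 := Q.mul_mem_left (t ^ r * s) (hfix τ zz)
      have h2 := Q.mul_mem_left (ε * zz) (hfix τ s)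
      have h3 := sub_mem h1 h2
      convert h3 using 1
      linear_combination hzero
    have hεt : ε - t ^ r ∈ Q := (hQ.isPrime.mem_or_mem hmemQ).resolve_right fun h =>
      (hQ.isPrime.mem_or_mem h).elim hzQ hsQ
    have hωQ : ω ∈ Q := by
      rw [← Ideal.span_singleton_le_iff_mem, ← idealCount_pos_iff hQ.isPrime hQ0 hω0, hω]
      exact one_pos
    rw [← hQq', Ideal.mem_comap, map_sub, map_pow, map_natCast]
    rw [← Ideal.Quotient.eq_zero_iff_mem] at hεt hωQ ⊢
    have hwε : Ideal.Quotient.mk Q ε = Ideal.Quotient.mk Q (algebraMap (𝓞 K) (𝓞 M) w) := by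
      rw [Ideal.Quotient.mk_eq_mk_iff_sub_mem]
      exact Ideal.mem_of_dvd _ hcong (Ideal.Quotient.eq_zero_iff_mem.mp hωQ)
    have hz1 : Ideal.Quotient.mk Q hz.toInteger = 1 := by
      rwa [hωdef, map_sub, map_one, sub_eq_zero] at hωQ
    have hgmod : ((g % l : ℕ) : 𝓞 M ⧸ Q) = (g : 𝓞 M ⧸ Q) := by
      conv_rhs => rw [← Nat.mod_add_div g l]
      rw [Nat.cast_add, Nat.cast_mul, ← map_natCast (Ideal.Quotient.mk Q) l,
        Ideal.Quotient.eq_zero_iff_mem.mpr hlQ, zero_mul, add_zero]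
    rw [map_sub, map_pow, hwε, ht, map_sum] at hεt
    simp only [map_pow, hz1, one_pow, Finset.sum_const, Finset.card_range, nsmul_eq_mul,
      mul_one, hgmod] at hεt
    rw [map_sub, map_pow, map_natCast]
    exact hεt

end Fermat.Agent.ExtVanish
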