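import Fermat.Agent.ExtVanish.CycloUnit
import Fermat.Agent.ExtVanish.CycloExt

/-!
# Thaine's relation

At a degree one prime on which an `ω²`-equivariant function on the class group does not vanish
the eigen cyclotomic unit is a `p`-th power residue (`exists_eigenUnit_sub_pow_mem`).
-/

set_option autoImplicit false

noncomputable section

namespace Fermat.Agent.ExtVanish

open NumberField Polynomial UniqueFactorizationMonoid
open scoped Classical Pointwise

variable {p : ℕ} [hp : Fact p.Prime] {K : Type} [Field K] [NumberField K]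
  [hK : IsCyclotomicExtension {p} ℚ K] {ζ : K} (hζ : IsPrimitiveRoot ζ p)

/-- `∏ (1 - ζ^a)^(a⁻²)`. -/
def eigenProd : 𝓞 K :=
  ∏ a : (ZMod p)ˣ, (1 - hζ.toInteger ^ (a : ZMod p).val) ^ eigenExp a

omit [NumberField K] hK in
theorem eigenProd_eq :
    eigenProd hζ =
      (1 - hζ.toInteger) ^ (∑ a : (ZMod p)ˣ, eigenExp a) * (eigenUnit hζ : 𝓞 K) := by
  rw [eigenProd, eigenUnit, Units.coe_prod, ← Finset.prod_pow_eq_pow_sum,
    ← Finset.prod_mul_distrib]
  refine Finset.prod_congr rfl fun a _ => ?_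
  rw [Units.val_pow_eq_pow_val, ← mul_pow]
  congr 1
  linear_combination sub_one_mul_cycloEta hζ a

/-- The value at an ideal of an additive function, in terms of the factorisation. -/
theorem map_eq_sum_count {A : Type*} [AddCommGroup A] (ψ : Ideal (𝓞 K) → A)
    (hmul : ∀ I J : Ideal (𝓞 K), I ≠ ⊥ → J ≠ ⊥ → ψ (I * J) = ψ I + ψ J)
    {I : Ideal (𝓞 K)} (hI : I ≠ ⊥) :
    ψ I = ∑ q ∈ (normalizedFactors I).toFinset, idealCount q I • ψ q := by
  have key : ∀ m : Multiset (Ideal (𝓞 K)), (∀ q ∈ m, q ≠ ⊥) → ψ m.prod = (m.map ψ).sum := by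
    intro m
    induction m using Multiset.induction with
    | empty =>
      intro _
      have h := hmul ⊤ ⊤ top_ne_bot top_ne_bot
      rw [Ideal.top_mul] at h
      simpa using (add_right_cancel ((zero_add (ψ ⊤)).trans h)).symm
    | cons q m ih =>
      intro hne
      rw [Multiset.prod_cons, Multiset.map_cons, Multiset.sum_cons,
        hmul q _ (hne q (Multiset.mem_cons_self _ _))
          (Multiset.prod_ne_zero fun h => hne _ (Multiset.mem_cons_of_mem h) rfl),
        ih fun r hr => hne r (Multiset.mem_cons_of_mem hr)]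
  conv_lhs => rw [← associated_iff_eq.1 (prod_normalizedFactors hI)]
  rw [key _ fun q hq => (prime_of_normalized_factor q hq).ne_zero,
    Finset.sum_multiset_map_count]
  rfl

variable {P : Ideal (𝓞 K)} {l : ℕ} [hl : Fact l.Prime]

/-- The reduction map at a prime of degree one. -/
def degOneRed (hP : Ideal.absNorm P = l) : 𝓞 K →+* ZMod l :=
  haveI : Finite (𝓞 K ⧸ P) := Nat.finite_of_card_ne_zero (by
    rw [← Submodule.cardQuot_apply, ← Ideal.absNorm_apply, hP]; exact hl.out.ne_zero)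
  letI := Fintype.ofFinite (𝓞 K ⧸ P)
  ((ZMod.ringEquivOfPrime (𝓞 K ⧸ P) hl.out (by
      rw [← Nat.card_eq_fintype_card, ← Submodule.cardQuot_apply, ← Ideal.absNorm_apply, hP])).symm
    : (𝓞 K ⧸ P) →+* ZMod l).comp (Ideal.Quotient.mk P)

theorem degOneRed_eq_zero_iff (hP : Ideal.absNorm P = l) (x : 𝓞 K) :
    degOneRed hP x = 0 ↔ x ∈ P := by
  unfold degOneRed
  rw [RingHom.comp_apply, RingHom.coe_coe, map_eq_zero_iff _ (RingEquiv.injective _),
    Ideal.Quotient.eq_zero_iff_mem]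

variable (hP : Ideal.absNorm P = l) (hlp : l ≠ p)

include hP in
theorem natCast_mem_degOne : (l : 𝓞 K) ∈ P := by
  rw [← degOneRed_eq_zero_iff hP, map_natCast, ZMod.natCast_self]

include hP in
theorem isPrime_degOne : P.IsPrime :=
  Ideal.isPrime_of_irreducible_absNorm (hP ▸ hl.out)

omit hK in
include hP hlp in
theorem one_sub_pow_notMem (a : (ZMod p)ˣ) :
    1 - hζ.toInteger ^ (a : ZMod p).val ∉ P := by
  intro h
  have h1 := hζ.toInteger_isPrimitiveRoot.associated_sub_one_pow_sub_one_of_coprime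
    (ZMod.val_coe_unit_coprime a)
  have h2 : hζ.toInteger - 1 ∈ P := by
    refine Ideal.mem_of_dvd _ h1.symm.dvd ?_
    rw [← neg_mem_iff, neg_sub]
    exact h
  have h3 : (p : 𝓞 K) ∈ P := Ideal.mem_of_dvd _
    (IsCyclotomicExtension.Rat.associated_zeta_sub_one_pow_prime p hζ).dvd
    (Ideal.pow_mem_of_mem P h2 _ (by have := hp.out.two_le; omega))
  rw [← degOneRed_eq_zero_iff hP, map_natCast, ZMod.natCast_eq_zero_iff] at h3
  exact hlp ((Nat.prime_dvd_prime_iff_eq hl.out hp.out).mp h3)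

omit hK in
include hP hlp hζ in
/-- The root of unity has order `p` in the residue field, so `p ∣ l - 1`. -/
theorem dvd_sub_one_degOne : p ∣ l - 1 := by
  have h1 : degOneRed hP hζ.toInteger ^ p = 1 := by
    rw [← map_pow, hζ.toInteger_isPrimitiveRoot.pow_eq_one, map_one]
  have h2 : degOneRed hP hζ.toInteger ≠ 1 := by
    intro h
    refine one_sub_pow_notMem hζ hP hlp 1 ((degOneRed_eq_zero_iff hP _).mp ?_)
    rw [map_sub, map_one, Units.val_one, ZMod.val_one, pow_one, h, sub_self]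
  rw [← orderOf_eq_prime h1 h2]
  refine ZMod.orderOf_dvd_card_sub_one fun h0 => ?_
  rw [h0, zero_pow hp.out.ne_zero] at h1
  exact zero_ne_one h1

omit hK in
theorem gal_smul_natCast (σ : Gal(K/ℚ)) (n : ℕ) : σ • (n : 𝓞 K) = n :=
  map_natCast (MulSemiringAction.toRingHom Gal(K/ℚ) (𝓞 K) σ) n

include hP hlp hζ in
theorem cexp_eq_one_of_smul_eq {σ : Gal(K/ℚ)} (hσ : σ • P = P) : cexp p σ = 1 := by
  by_contra hne
  set k : ℕ := (degOneRed hP hζ.toInteger).val with hk
  have hmem : hζ.toInteger - (k : 𝓞 K) ∈ P := by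
    rw [← degOneRed_eq_zero_iff hP, map_sub, map_natCast, hk, ZMod.natCast_zmod_val, sub_self]
  have h2 : σ • (hζ.toInteger - (k : 𝓞 K)) ∈ P := by
    have h := Ideal.smul_mem_pointwise_smul σ _ _ hmem
    rwa [hσ] at h
  rw [smul_sub, smul_toInteger hζ, gal_smul_natCast] at h2
  have h3 : hζ.toInteger ^ ((cexp p σ : (ZMod p)ˣ) : ZMod p).val - hζ.toInteger ∈ P := by
    have := sub_mem h2 hmem
    convert this using 1
    ring
  set c := ((cexp p σ : (ZMod p)ˣ) : ZMod p).val with hc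
  have hc0 : c ≠ 0 := fun h => (cexp p σ).ne_zero ((ZMod.val_eq_zero _).mp h)
  have hcp : c < p := ZMod.val_lt _
  have h4 : hζ.toInteger ^ c - hζ.toInteger =
      hζ.toInteger * (hζ.toInteger ^ (c - 1) - 1) := by
    rw [mul_sub, mul_one, ← pow_succ', Nat.sub_add_cancel (Nat.one_le_iff_ne_zero.mpr hc0)]
  rw [h4] at h3
  rcases (isPrime_degOne hP).mem_or_mem h3 with h | h
  · exact (isPrime_degOne hP).ne_top (Ideal.eq_top_of_isUnit_mem _ h
      (hζ.toInteger_isPrimitiveRoot.isUnit hp.out.ne_zero))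
  · have hc1 : c ≠ 1 := fun h1 => hne (Units.ext (ZMod.val_injective p (by
      rw [← hc, h1, Units.val_one, ZMod.val_one])))
    have hcop : ((c - 1 : ℕ) : ZMod p) ≠ 0 := by
      rw [Ne, ZMod.natCast_eq_zero_iff]
      exact fun hd => by have := Nat.le_of_dvd (by omega) hd; omega
    refine one_sub_pow_notMem hζ hP hlp (Units.mk0 _ hcop) ?_
    rw [Units.val_mk0, ZMod.val_natCast_of_lt (by omega), ← neg_mem_iff, neg_sub]
    exact h

include hP hlp hζ in
theorem smul_injective_degOne : Function.Injective (fun σ : Gal(K/ℚ) => σ • P) := by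
  intro σ τ h
  have h1 : (τ⁻¹ * σ) • P = P := by
    rw [mul_smul]
    exact (congrArg (τ⁻¹ • ·) h).trans (inv_smul_smul τ P)
  have h2 := cexp_eq_one_of_smul_eq hζ hP hlp h1
  have h3 : τ⁻¹ * σ = 1 := (cexp_bijective p).1 (h2.trans (map_one
    (IsCyclotomicExtension.Rat.galEquivZMod p K)).symm)
  exact (inv_mul_eq_one.mp h3).symm

omit hl in
include hP in
theorem absNorm_smul_degOne (σ : Gal(K/ℚ)) : Ideal.absNorm (σ • P) = l := by
  have : Ideal.absNorm (σ • P) = Ideal.absNorm P := by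
    rw [Ideal.absNorm_apply, Ideal.absNorm_apply, Submodule.cardQuot_apply,
      Submodule.cardQuot_apply]
    exact (Nat.card_congr (Ideal.quotientEquiv P (σ • P)
      (MulSemiringAction.toRingEquiv Gal(K/ℚ) (𝓞 K) σ) rfl).toEquiv).symm
  rw [this, hP]

include hP hlp hζ in
/-- `l` is the product of the conjugates of a degree one prime. -/
theorem span_eq_prod_smul :
    Ideal.span {(l : 𝓞 K)} = ∏ σ : Gal(K/ℚ), σ • P := by
  have hdvd : ∏ σ : Gal(K/ℚ), σ • P ∣ Ideal.span {(l : 𝓞 K)} := by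
    rw [← Finset.prod_image (f := fun q => q) (g := fun σ : Gal(K/ℚ) => σ • P)
      (fun σ _ τ _ h => smul_injective_degOne hζ hP hlp h)]
    refine Finset.prod_primes_dvd _ (fun q hq => ?_) (fun q hq => ?_)
    · obtain ⟨σ, -, rfl⟩ := Finset.mem_image.mp hq
      have hN := absNorm_smul_degOne hP σ
      refine Ideal.prime_of_isPrime (fun h => ?_) (isPrime_degOne hN)
      have h' : Ideal.absNorm (σ • P) = 0 := by
        rw [Ideal.absNorm_eq_zero_iff]; exact h
      exact hl.out.ne_zero (hN ▸ h')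
    · obtain ⟨σ, -, rfl⟩ := Finset.mem_image.mp hq
      rw [Ideal.dvd_iff_le, Ideal.span_singleton_le_iff_mem]
      exact natCast_mem_degOne (absNorm_smul_degOne hP σ)
  obtain ⟨J, hJ⟩ := hdvd
  have h := congrArg Ideal.absNorm hJ
  rw [Ideal.absNorm_span_natCast, RingOfIntegers.rank, map_mul, map_prod,
    IsCyclotomicExtension.finrank (n := p) K (Polynomial.cyclotomic.irreducible_rat hp.out.pos),
    Nat.totient_prime hp.out] at h
  simp only [absNorm_smul_degOne hP, Finset.prod_const, Finset.card_univ] at h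
  rw [Fintype.card_of_bijective (cexp_bijective p (K := K)), ZMod.card_units] at h
  have hJ1 : Ideal.absNorm J = 1 :=
    (Nat.eq_of_mul_eq_mul_left (pow_pos hl.out.pos _) (by rw [mul_one]; exact h)).symm
  rw [hJ, Ideal.absNorm_eq_one_iff.mp hJ1, Ideal.mul_top]

include hP hlp hζ in
theorem eq_smul_of_natCast_mem {q : Ideal (𝓞 K)} (hq : q.IsPrime) (hlq : (l : 𝓞 K) ∈ q) :
    ∃ σ : Gal(K/ℚ), q = σ • P := by
  have h : ∏ σ : Gal(K/ℚ), σ • P ≤ q := by
    rw [← span_eq_prod_smul hζ hP hlp, Ideal.span_singleton_le_iff_mem]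
    exact hlq
  obtain ⟨σ, -, hσ⟩ := (Ideal.IsPrime.prod_le hq).mp h
  refine ⟨σ, (Ideal.IsMaximal.eq_of_le ?_ hq.ne_top hσ).symm⟩
  exact (isPrime_degOne (absNorm_smul_degOne hP σ)).isMaximal fun h0 => hl.out.ne_zero (by
    rw [← absNorm_smul_degOne hP σ, h0, Ideal.absNorm_bot])

include hP hlp hζ in
theorem idealCount_span_eq_one {q : Ideal (𝓞 K)} (hq : q.IsPrime) (hlq : (l : 𝓞 K) ∈ q) :
    idealCount q (Ideal.span {(l : 𝓞 K)}) = 1 := by
  obtain ⟨σ, rfl⟩ := eq_smul_of_natCast_mem hζ hP hlp hq hlq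
  have hne : ∀ τ : Gal(K/ℚ), τ • P ≠ ⊥ := fun τ h0 => hl.out.ne_zero (by
    rw [← absNorm_smul_degOne hP τ, h0, Ideal.absNorm_bot])
  have hrest : ∏ τ ∈ Finset.univ.erase σ, τ • P ≠ ⊥ :=
    Finset.prod_ne_zero_iff.mpr fun τ _ => hne τ
  rw [span_eq_prod_smul hζ hP hlp, ← Finset.mul_prod_erase _ _ (Finset.mem_univ σ),
    idealCount_mul _ (hne σ) hrest, idealCount_self hq (hne σ),
    (idealCount_eq_zero_iff hq (hne σ) hrest).mpr]
  intro hle
  obtain ⟨τ, hτ, hτσ⟩ := (Ideal.IsPrime.prod_le hq).mp hle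
  refine (Finset.mem_erase.mp hτ).1 (smul_injective_degOne hζ hP hlp ?_)
  exact ((isPrime_degOne (absNorm_smul_degOne hP τ)).isMaximal (hne τ)).eq_of_le hq.ne_top hτσ

/-- **Thaine's relation.** -/
theorem exists_eigenUnit_sub_pow_mem (hp3 : 3 < p) (ψ : Ideal (𝓞 K) → ZMod p)
    (hmul : ∀ I J : Ideal (𝓞 K), I ≠ ⊥ → J ≠ ⊥ → ψ (I * J) = ψ I + ψ J)
    (hprinc : ∀ a : 𝓞 K, a ≠ 0 → ψ (Ideal.span {a}) = 0)
    (hequiv : ∀ (σ : Gal(K/ℚ)) (I : Ideal (𝓞 K)), I ≠ ⊥ →
      ψ (σ • I) = ((cexp p σ ^ 2 : (ZMod p)ˣ) : ZMod p) * ψ I)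
    (hP : Ideal.absNorm P = l) (hlp : l ≠ p) (hψ : ψ P ≠ 0) :
    ∃ y : 𝓞 K, (eigenUnit hζ : 𝓞 K) - y ^ p ∈ P := by
  have hl1 : p ∣ l - 1 := dvd_sub_one_degOne hζ hP hlp
  have hl2 : l ≠ 2 := by
    rintro rfl
    have := Nat.le_of_dvd one_pos hl1
    omega
  have hPp := isPrime_degOne hP
  have hlP := natCast_mem_degOne hP
  have hP0 : P ≠ ⊥ := fun h => hl.out.ne_zero (by rw [← hP, h, Ideal.absNorm_bot])
  have hsq : (l : 𝓞 K) ∉ P ^ 2 := by
    intro h
    have h1 : Ideal.span {(l : 𝓞 K)} ≠ ⊥ := by simpa using hl.out.ne_zero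
    obtain ⟨J, hJ⟩ := Ideal.dvd_iff_le.mpr ((Ideal.span_singleton_le_iff_mem _).mpr h)
    have hJ0 : J ≠ ⊥ := fun h0 => h1 (by rw [hJ, h0, Ideal.mul_bot])
    have h2 := idealCount_span_eq_one hζ hP hlp hPp hlP
    rw [hJ, idealCount_mul _ (pow_ne_zero 2 hP0) hJ0, idealCount_pow,
      idealCount_self hPp hP0] at h2
    omega
  have hirr := irreducible_cyclotomic_of_notMem_sq hPp hlP hsq
  -- the auxiliary field and the norm one element
  set M := CyclotomicField l K
  have hz : IsPrimitiveRoot (IsCyclotomicExtension.zeta l K M) l :=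
    IsCyclotomicExtension.zeta_spec l K M
  set ε : 𝓞 M := ∏ a : (ZMod p)ˣ,
    (hz.toInteger - algebraMap (𝓞 K) (𝓞 M) (hζ.toInteger ^ (a : ZMod p).val)) ^ eigenExp a
  have hN : Algebra.norm K (ε : M) = 1 := by
    show Algebra.norm K (algebraMap (𝓞 M) M ε) = 1
    rw [map_prod, map_prod]
    refine Finset.prod_eq_one fun a _ => ?_
    rw [map_pow, map_pow, map_sub, ← IsScalarTower.algebraMap_apply (𝓞 K) (𝓞 M) M,
      IsScalarTower.algebraMap_apply (𝓞 K) K M]
    show (Algebra.norm K (IsCyclotomicExtension.zeta l K M -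
      algebraMap K M (algebraMap (𝓞 K) K (hζ.toInteger ^ (a : ZMod p).val)))) ^ _ = 1
    rw [norm_root_sub hz hirr hl2, one_pow]
    · obtain ⟨m, hm⟩ := hl1
      have : l = p * m + 1 := by have := hl.out.pos; omega
      rw [← map_pow, this, pow_succ, pow_mul]
      congr 1
      rw [← pow_mul hζ.toInteger _ p, mul_comm _ p, pow_mul hζ.toInteger p,
        hζ.toInteger_isPrimitiveRoot.pow_eq_one]
      simp
    · rw [map_pow]
      refine fun h => a.ne_zero ((ZMod.val_eq_zero _).mp ?_)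
      exact Nat.eq_zero_of_dvd_of_lt (hζ.dvd_of_pow_eq_one _ h) (ZMod.val_lt _)
  have hcong : hz.toInteger - 1 ∣ ε - algebraMap (𝓞 K) (𝓞 M) (eigenProd hζ) := by
    rw [← Ideal.mem_span_singleton, ← Ideal.Quotient.eq_zero_iff_mem, map_sub, eigenProd, map_prod,
      map_prod, map_prod, sub_eq_zero]
    refine Finset.prod_congr rfl fun a _ => ?_
    rw [map_pow (algebraMap (𝓞 K) (𝓞 M)) _ (eigenExp a),
      map_pow (Ideal.Quotient.mk _) _ (eigenExp a), map_pow (Ideal.Quotient.mk _) _ (eigenExp a)]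
    congr 1
    rw [Ideal.Quotient.mk_eq_mk_iff_sub_mem, Ideal.mem_span_singleton, map_sub, map_one,
      show hz.toInteger - algebraMap (𝓞 K) (𝓞 M) (hζ.toInteger ^ (a : ZMod p).val) -
        (1 - algebraMap (𝓞 K) (𝓞 M) (hζ.toInteger ^ (a : ZMod p).val)) = hz.toInteger - 1 by ring]
  obtain ⟨g₀, hg₀⟩ := IsCyclic.exists_generator (α := (ZMod l)ˣ)
  have hgen : ∀ u : (ZMod l)ˣ, ∃ j : ℕ, g₀ ^ j = u := fun u =>
    (IsOfFinOrder.mem_powers_iff_mem_zpowers (isOfFinOrder_of_finite g₀)).mpr (hg₀ u)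
  set g : ℕ := (g₀ : ZMod l).val with hg
  have hgcast : (g : ZMod l) = (g₀ : ZMod l) := ZMod.natCast_zmod_val _
  obtain ⟨α, hα0, hout, hover⟩ := exists_hilbert_element (M := M) hz hirr
    (g := g) (by rw [hgcast]; exact g₀.ne_zero)
    (fun x => by
      obtain ⟨j, hj⟩ := hgen x; exact ⟨j, by rw [hgcast, ← hj, Units.val_pow_eq_pow_val]⟩)
    ε (eigenProd hζ) hN hcong
  -- residues
  let red := degOneRed hP
  let F : (ZMod p)ˣ → (ZMod l)ˣ := fun a =>
    Units.mk0 (red (1 - hζ.toInteger ^ (a : ZMod p).val))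
      fun h => one_sub_pow_notMem hζ hP hlp a ((degOneRed_eq_zero_iff hP _).mp h)
  let W : (ZMod l)ˣ := ∏ a : (ZMod p)ˣ, F a ^ eigenExp a
  let r : Gal(K/ℚ) → ℕ := fun σ => idealCount (σ • P) (Ideal.span {α})
  have hrel : ∀ σ : Gal(K/ℚ), modPow p g₀ ^ r σ =
      modPow p W ^ ((cexp p σ⁻¹ ^ 2 : (ZMod p)ˣ) : ZMod p).val := by
    intro σ
    have hq := isPrime_degOne (absNorm_smul_degOne hP σ)
    have hlq := natCast_mem_degOne (absNorm_smul_degOne hP σ)
    have h := hover (σ • P) hq hlq (idealCount_span_eq_one hζ hP hlp hq hlq)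
    rw [Ideal.mem_pointwise_smul_iff_inv_smul_mem, ← degOneRed_eq_zero_iff hP, smul_sub,
      map_sub, sub_eq_zero, smul_pow',
      gal_smul_natCast,
      map_pow, map_natCast, eigenProd] at h
    set c := cexp p σ⁻¹ with hc
    have hsmul : ∀ a : (ZMod p)ˣ, red (σ⁻¹ • (1 - hζ.toInteger ^ (a : ZMod p).val)) =
        (F (c * a) : ZMod l) := by
      intro a
      show red _ = red _
      rw [smul_sub, smul_one, smul_pow', smul_toInteger hζ, ← pow_mul, ← pow_mod_orderOf,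
        ← hζ.toInteger_isPrimitiveRoot.eq_orderOf, ← hc, Units.val_mul, ZMod.val_mul]
    have h' : ((∏ a : (ZMod p)ˣ, F (c * a) ^ eigenExp a : (ZMod l)ˣ) : ZMod l) =
        ((g₀ ^ r σ : (ZMod l)ˣ) : ZMod l) := by
      rw [Units.coe_prod, Units.val_pow_eq_pow_val, ← hgcast]
      refine Eq.trans ?_ h
      rw [← MulSemiringAction.toRingHom_apply, map_prod, map_prod]
      refine Finset.prod_congr rfl fun a _ => ?_
      rw [map_pow, map_pow, MulSemiringAction.toRingHom_apply, Units.val_pow_eq_pow_val]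
      congr 1
      exact (hsmul a).symm
    rw [← map_pow, ← Units.ext h']
    simp only [W, map_prod, map_pow, ← Finset.prod_pow, ← pow_mul]
    refine Fintype.prod_equiv (Equiv.mulLeft c) _ _ fun a => quotient_pow_congr _ ?_
    simp only [Equiv.coe_mulLeft, Nat.cast_mul, cast_eigenExp, ZMod.natCast_zmod_val,
      ← Units.val_mul]
    congr 1
    rw [mul_inv_rev, mul_pow, mul_assoc, inv_pow c, inv_mul_cancel, mul_one]
  set r₁ := r 1 with hr₁
  have hinj : ∀ a b : ℕ, modPow p g₀ ^ a = modPow p g₀ ^ b → (a : ZMod p) = (b : ZMod p) := by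
    intro a b hab
    rw [← map_pow, ← map_pow, modPow_eq_iff] at hab
    obtain ⟨z, hz'⟩ := hab
    obtain ⟨j, rfl⟩ := hgen z
    rw [← pow_mul, ← pow_add, pow_eq_pow_iff_modEq,
      orderOf_eq_card_of_forall_mem_zpowers hg₀, Nat.card_eq_fintype_card, ZMod.card_units] at hz'
    have := (ZMod.natCast_eq_natCast_iff _ _ p).mpr (hz'.of_dvd hl1)
    push_cast at this
    rw [ZMod.natCast_self, mul_zero, add_zero] at this
    exact this
  have hone : modPow p g₀ ^ r₁ = modPow p W := by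
    rw [hrel 1, inv_one, show cexp p (1 : Gal(K/ℚ)) = 1 from
      map_one (IsCyclotomicExtension.Rat.galEquivZMod p K), one_pow, Units.val_one, ZMod.val_one,
      pow_one]
  have hr : ∀ σ, (r σ : ZMod p) =
      ((cexp p σ⁻¹ ^ 2 : (ZMod p)ˣ) : ZMod p) * (r₁ : ZMod p) := by
    intro σ
    have h := hrel σ
    rw [← hone, ← pow_mul] at h
    rw [hinj _ _ h, Nat.cast_mul, ZMod.natCast_zmod_val, mul_comm]
  have hspan : Ideal.span {α} ≠ ⊥ := by simpa using hα0
  have hzero : (r₁ : ZMod p) * ψ P = 0 := by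
    have h := map_eq_sum_count ψ hmul hspan
    rw [hprinc α hα0] at h
    have hsplit : ∑ q ∈ (normalizedFactors (Ideal.span {α})).toFinset,
        idealCount q (Ideal.span {α}) • ψ q = ∑ σ : Gal(K/ℚ), r σ • ψ (σ • P) := by
      rw [← Finset.sum_image (f := fun q => idealCount q (Ideal.span {α}) • ψ q)
        (fun σ _ τ _ h => smul_injective_degOne hζ hP hlp h)]
      refine Finset.sum_congr_of_eq_on_inter (fun q hq hq' => ?_) (fun q hq hq' => ?_)
        (fun _ _ _ => rfl)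
      · have hpr := prime_of_normalized_factor q (Multiset.mem_toFinset.mp hq)
        have hlq : (l : 𝓞 K) ∉ q := fun hm => hq' (Finset.mem_image.mpr (by
          obtain ⟨σ, hσ⟩ := eq_smul_of_natCast_mem hζ hP hlp (Ideal.isPrime_of_prime hpr) hm
          exact ⟨σ, Finset.mem_univ _, hσ.symm⟩))
        obtain ⟨m, hm⟩ := dvd_trans hl1
          (hout q (Ideal.isPrime_of_prime hpr) hpr.ne_zero hlq)
        rw [hm, mul_smul, ← Nat.cast_smul_eq_nsmul (ZMod p) p, ZMod.natCast_self, zero_smul]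
      · rw [Multiset.mem_toFinset] at hq'
        show (normalizedFactors (Ideal.span {α})).count q • ψ q = 0
        rw [Multiset.count_eq_zero.mpr hq', zero_smul]
    rw [hsplit] at h
    have hterm : ∀ σ : Gal(K/ℚ), r σ • ψ (σ • P) = (r₁ : ZMod p) * ψ P := fun σ => by
      rw [nsmul_eq_mul, hr, hequiv σ P hP0]
      have hc : cexp p σ⁻¹ ^ 2 * cexp p σ ^ 2 = 1 := by
        rw [← mul_pow, ← cexp_mul, inv_mul_cancel, show cexp p (1 : Gal(K/ℚ)) = 1 from
          map_one (IsCyclotomicExtension.Rat.galEquivZMod p K), one_pow]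
      have hc' : ((cexp p σ⁻¹ ^ 2 : (ZMod p)ˣ) : ZMod p) * ((cexp p σ ^ 2 : (ZMod p)ˣ) : ZMod p) =
          1 := by rw [← Units.val_mul, hc, Units.val_one]
      linear_combination ((r₁ : ZMod p) * ψ P) * hc'
    rw [Finset.sum_congr rfl fun σ _ => hterm σ, Finset.sum_const, Finset.card_univ,
      Fintype.card_of_bijective (cexp_bijective p (K := K)), ZMod.card_units, nsmul_eq_mul,
      Nat.cast_sub hp.out.one_le, ZMod.natCast_self] at h
    linear_combination h
  have hr0 : (r₁ : ZMod p) = ((0 : ℕ) : ZMod p) := by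
    rw [Nat.cast_zero]
    exact (mul_eq_zero.mp hzero).resolve_right hψ
  have hW : modPow p W = 1 := by rw [← hone, quotient_pow_congr _ hr0, pow_zero]
  obtain ⟨Y, hY⟩ := modPow_eq_one_iff.mp hW
  -- remove the power of `1 - ζ`
  obtain ⟨m, hm⟩ : p ∣ ∑ a : (ZMod p)ˣ, eigenExp a := by
    rw [← ZMod.natCast_eq_zero_iff, Nat.cast_sum]
    simp only [cast_eigenExp]
    exact (sum_units_zpow_neg hp3).2
  set π := red (1 - hζ.toInteger) with hπ
  have hπ0 : π ≠ 0 := fun h => one_sub_pow_notMem hζ hP hlp 1 ((degOneRed_eq_zero_iff hP _).mp (by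
    rw [Units.val_one, ZMod.val_one, pow_one]; exact h))
  refine ⟨((((Y : ZMod l)) * (π ^ m)⁻¹).val : 𝓞 K), ?_⟩
  rw [← degOneRed_eq_zero_iff hP, map_sub, map_pow, map_natCast, ZMod.natCast_zmod_val, mul_pow,
    ← Units.val_pow_eq_pow_val, hY, sub_eq_zero, inv_pow, ← pow_mul, mul_comm m p, ← hm]
  have hW' : (W : ZMod l) = π ^ (∑ a : (ZMod p)ˣ, eigenExp a) * red (eigenUnit hζ : 𝓞 K) := by
    rw [hπ, ← map_pow, ← map_mul, ← eigenProd_eq, eigenProd, map_prod, Units.coe_prod]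
    simp only [F, map_pow, Units.val_pow_eq_pow_val, Units.val_mk0]
  rw [hW']
  field_simp
  rfl

end Fermat.Agent.ExtVanish
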