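import Fermat.Agent.ExtVanish.CycloLocal

/-!
# The `ω²`-eigenspace of the units modulo `p`-th powers

For `p > 3` it is spanned by the cyclotomic unit `eigenUnit`
(`exists_modPow_eq_eigenUnit_pow`), which is not a `p`-th power.
-/

set_option autoImplicit false

noncomputable section

namespace Fermat.Agent.ExtVanish

open NumberField NumberField.Units NumberField.Units.dirichletUnitTheorem
open NumberField.InfinitePlace Module Matrix
open scoped Classical

variable {p : ℕ} [hp : Fact p.Prime] {K : Type*} [Field K] [NumberField K]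
  [hK : IsCyclotomicExtension {p} ℚ K] {ζ : K}

/-- The logarithmic embedding, with values in the unit lattice. -/
def logLattice (v : (𝓞 K)ˣ) : unitLattice K :=
  ⟨logEmbedding K (Additive.ofMul v), Submodule.mem_map_of_mem trivial⟩

theorem logLattice_mul (v w : (𝓞 K)ˣ) : logLattice (v * w) = logLattice v + logLattice w :=
  Subtype.ext (by simp [logLattice, ofMul_mul])

/-- Coordinates of a unit modulo torsion. -/
def unitCrd (v : (𝓞 K)ˣ) : Fin (rank K) → ℤ :=
  (basisUnitLattice K).repr (logLattice v)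

theorem unitCrd_mul (v w : (𝓞 K)ˣ) : unitCrd (v * w) = unitCrd v + unitCrd w := by
  ext i
  simp [unitCrd, logLattice_mul]

theorem unitCrd_torsion {v : (𝓞 K)ˣ} (hv : v ∈ torsion K) : unitCrd v = 0 := by
  have h : logLattice v = 0 := Subtype.ext (logEmbedding_eq_zero_iff.mpr hv)
  ext i
  simp [unitCrd, h]

theorem unitCrd_one : unitCrd (1 : (𝓞 K)ˣ) = 0 := unitCrd_torsion (one_mem _)

theorem unitCrd_inv (v : (𝓞 K)ˣ) : unitCrd v⁻¹ = -unitCrd v :=
  eq_neg_of_add_eq_zero_left (by rw [← unitCrd_mul, inv_mul_cancel, unitCrd_one])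

theorem unitCrd_pow (v : (𝓞 K)ˣ) (n : ℕ) : unitCrd (v ^ n) = (n : ℤ) • unitCrd v := by
  induction n with
  | zero => simp [unitCrd_one]
  | succ n ih => rw [pow_succ, unitCrd_mul, ih]; push_cast; rw [add_smul, one_smul]

theorem unitCrd_zpow (v : (𝓞 K)ˣ) (n : ℤ) : unitCrd (v ^ n) = n • unitCrd v := by
  obtain ⟨m, rfl | rfl⟩ := n.eq_nat_or_neg
  · rw [_root_.zpow_natCast, unitCrd_pow]
  · rw [_root_.zpow_neg, _root_.zpow_natCast, unitCrd_inv, unitCrd_pow, neg_smul]

theorem unitCrd_fundSystem (i : Fin (rank K)) : unitCrd (fundSystem K i) = Pi.single i 1 := by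
  have h : logLattice (fundSystem K i) = basisUnitLattice K i :=
    Subtype.ext (logEmbedding_fundSystem K i)
  ext j
  rw [unitCrd, h, Basis.repr_self, Finsupp.single_eq_pi_single]

theorem unitCrd_prod {ι : Type*} (s : Finset ι) (f : ι → (𝓞 K)ˣ) :
    unitCrd (∏ i ∈ s, f i) = ∑ i ∈ s, unitCrd (f i) := by
  induction s using Finset.induction_on with
  | empty => simpa using unitCrd_one
  | insert i s hi ih => rw [Finset.prod_insert hi, Finset.sum_insert hi, unitCrd_mul, ih]

theorem unitCrd_eq {v : (𝓞 K)ˣ} {t : torsion K} {e : Fin (rank K) → ℤ}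
    (h : v = t * ∏ i, fundSystem K i ^ e i) : unitCrd v = e := by
  rw [h, unitCrd_mul, unitCrd_torsion t.2, zero_add, unitCrd_prod]
  ext i
  simp [unitCrd_zpow, unitCrd_fundSystem, Finset.sum_apply, Pi.single_apply]

/-- The integral matrix of a Galois automorphism on units modulo torsion. -/
def unitMatrix (σ : Gal(K/ℚ)) : Matrix (Fin (rank K)) (Fin (rank K)) ℤ :=
  Matrix.of fun i j => unitCrd (unitAct σ (fundSystem K j)) i

omit hK in
theorem unitAct_mem_torsion (σ : Gal(K/ℚ)) {v : (𝓞 K)ˣ} (hv : v ∈ torsion K) :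
    unitAct σ v ∈ torsion K :=
  (CommGroup.mem_torsion _).mpr
    ((MonoidHom.isOfFinOrder _ ((CommGroup.mem_torsion _).mp hv)))

theorem unitCrd_unitAct (σ : Gal(K/ℚ)) (v : (𝓞 K)ˣ) :
    unitCrd (unitAct σ v) = unitMatrix σ *ᵥ unitCrd v := by
  obtain ⟨⟨t, e⟩, he, -⟩ := exist_unique_eq_mul_prod K v
  have hv : unitCrd v = e := unitCrd_eq he
  rw [hv, he, map_mul, unitCrd_mul, unitCrd_torsion (unitAct_mem_torsion σ t.2), zero_add,
    map_prod, unitCrd_prod]
  ext i
  simp [Matrix.mulVec, dotProduct, unitMatrix, map_zpow, unitCrd_zpow, Finset.sum_apply, mul_comm]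

theorem unitAct_mul (σ τ : Gal(K/ℚ)) (v : (𝓞 K)ˣ) :
    unitAct (σ * τ) v = unitAct σ (unitAct τ v) :=
  Units.ext (mul_smul σ τ (v : 𝓞 K))

theorem unitMatrix_mul (σ τ : Gal(K/ℚ)) :
    unitMatrix (σ * τ) = unitMatrix σ * unitMatrix τ := by
  refine Matrix.ext fun i j => ?_
  show unitCrd (unitAct (σ * τ) (fundSystem K j)) i = _
  rw [unitAct_mul, unitCrd_unitAct]
  rfl

omit hK in
/-- Extension of a vector of the logarithmic space to all places, with sum zero. -/
def extendLog (f : logSpace K) (w : InfinitePlace K) : ℝ :=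
  if h : w = w₀ then -∑ u, f u else f ⟨w, h⟩

/-- The action of an automorphism on the logarithmic space. -/
def logAct (σ : Gal(K/ℚ)) : logSpace K →ₗ[ℝ] logSpace K where
  toFun f u := extendLog f (σ⁻¹ • u.1)
  map_add' f g := by
    ext u
    simp only [extendLog, Pi.add_apply]
    split_ifs with h
    · rw [Finset.sum_add_distrib, neg_add]
    · rfl
  map_smul' c f := by
    ext u
    simp only [extendLog, Pi.smul_apply, smul_eq_mul, RingHom.id_apply]
    split_ifs with h
    · rw [← Finset.mul_sum, mul_neg]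
    · rfl

omit hK in
theorem extendLog_logEmbedding (v : (𝓞 K)ˣ) (w : InfinitePlace K) :
    extendLog (logEmbedding K (Additive.ofMul v)) w = mult w * Real.log (w (v : K)) := by
  unfold extendLog
  split_ifs with h
  · subst h
    rw [sum_logEmbedding_component, neg_mul, neg_neg]
  · rw [logEmbedding_component]

theorem mult_eq_two (hp2 : 2 < p) (w : InfinitePlace K) : mult w = 2 := by
  have := IsCyclotomicExtension.Rat.isTotallyComplex (n := p) K hp2
  rw [mult, if_neg (not_isReal_iff_isComplex.mpr (IsTotallyComplex.isComplex w))]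

theorem logAct_logEmbedding (hp2 : 2 < p) (σ : Gal(K/ℚ)) (v : (𝓞 K)ˣ) :
    logAct σ (logEmbedding K (Additive.ofMul v)) =
      logEmbedding K (Additive.ofMul (unitAct σ v)) := by
  ext u
  show extendLog _ _ = _
  rw [extendLog_logEmbedding, logEmbedding_component, mult_eq_two hp2, mult_eq_two hp2,
    InfinitePlace.smul_apply]
  rfl

/-- The number of places fixed by an automorphism. -/
def fixedCount (σ : Gal(K/ℚ)) : ℕ :=
  (Finset.univ.filter fun w : InfinitePlace K => σ • w = w).card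

theorem trace_logAct (σ : Gal(K/ℚ)) :
    LinearMap.trace ℝ _ (logAct σ) = (fixedCount σ : ℝ) - 1 := by
  rw [LinearMap.trace_eq_matrix_trace ℝ (Pi.basisFun ℝ _), Matrix.trace]
  simp only [Matrix.diag_apply, LinearMap.toMatrix_apply, Pi.basisFun_apply, Pi.basisFun_repr]
  have h1 : ∀ u : {w : InfinitePlace K // w ≠ w₀},
      logAct σ (Pi.single u 1) u =
        (if σ • u.1 = u.1 then (1 : ℝ) else 0) - (if σ • w₀ = u.1 then (1 : ℝ) else 0) := by
    intro u
    show extendLog _ _ = _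
    have ha : σ⁻¹ • u.1 = u.1 ↔ σ • u.1 = u.1 := inv_smul_eq_iff.trans eq_comm
    have hb : σ⁻¹ • u.1 = w₀ ↔ σ • w₀ = u.1 := inv_smul_eq_iff.trans eq_comm
    unfold extendLog
    rcases em (σ⁻¹ • u.1 = w₀) with h | h
    · rw [dif_pos h, if_neg (fun h' => u.2 ((ha.mpr h').symm.trans h)), if_pos (hb.mp h)]
      simp
    · rw [dif_neg h, if_neg (fun h' => h (hb.mpr h')), sub_zero, Pi.single_apply]
      exact if_congr (Subtype.ext_iff.trans ha) rfl rfl
  rw [Finset.sum_congr rfl fun u _ => h1 u, Finset.sum_sub_distrib, fixedCount,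
    ← Finset.sum_boole]
  rw [Fintype.sum_eq_add_sum_subtype_ne (fun w : InfinitePlace K =>
    if σ • w = w then (1 : ℝ) else 0) w₀]
  have h2 : (if σ • w₀ = (w₀ : InfinitePlace K) then (1 : ℝ) else 0) +
      ∑ u : {w : InfinitePlace K // w ≠ w₀}, (if σ • w₀ = u.1 then (1 : ℝ) else 0) = 1 := by
    rw [← Fintype.sum_eq_add_sum_subtype_ne (fun w : InfinitePlace K =>
      if σ • w₀ = w then (1 : ℝ) else 0) w₀]
    simp
  linarith

theorem trace_unitMatrix (hp2 : 2 < p) (σ : Gal(K/ℚ)) :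
    (unitMatrix σ).trace = (fixedCount σ : ℤ) - 1 := by
  have h : ((unitMatrix σ).trace : ℝ) = ((fixedCount σ : ℤ) - 1 : ℝ) := by
    rw [Int.cast_natCast, ← trace_logAct σ, LinearMap.trace_eq_matrix_trace ℝ
      ((basisUnitLattice K).ofZLatticeBasis ℝ (unitLattice K)), Matrix.trace, Matrix.trace,
      Int.cast_sum]
    refine Finset.sum_congr rfl fun i _ => ?_
    rw [Matrix.diag_apply, Matrix.diag_apply, LinearMap.toMatrix_apply,
      Basis.ofZLatticeBasis_apply, ← logEmbedding_fundSystem, logAct_logEmbedding hp2]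
    exact (congrArg (Int.cast : ℤ → ℝ) rfl).trans
      ((basisUnitLattice K).ofZLatticeBasis_repr_apply ℝ (unitLattice K)
        (logLattice (unitAct σ (fundSystem K i))) i).symm
  exact_mod_cast h

theorem fixedCount_eq (hp2 : 2 < p) (hζ : IsPrimitiveRoot ζ p) (σ : Gal(K/ℚ)) :
    fixedCount σ = if cexp p σ = 1 ∨ cexp p σ = -1 then Fintype.card (InfinitePlace K) else 0 := by
  have key : ∀ w : InfinitePlace K, σ • w = w ↔ (cexp p σ = 1 ∨ cexp p σ = -1) := by
    intro w
    have hσζ : σ ζ = ζ ^ ((cexp p σ : (ZMod p)ˣ) : ZMod p).val :=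
      IsCyclotomicExtension.Rat.galEquivZMod_apply_of_pow_eq p K σ hζ.pow_eq_one
    conv_lhs => rw [← mk_embedding w, ← MulAction.mem_stabilizer_iff, mem_stabilizer_mk_iff]
    refine or_congr ?_ ?_
    · constructor
      · rintro rfl
        exact map_one (IsCyclotomicExtension.Rat.galEquivZMod p K)
      · intro h
        exact (IsCyclotomicExtension.Rat.galEquivZMod p K).injective
          (h.trans (map_one (IsCyclotomicExtension.Rat.galEquivZMod p K)).symm)
    · set φ := w.embedding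
      have hconj : star (φ ζ) = φ ζ ^ (p - 1) := by
        have h1 : φ ζ ^ p = 1 := by rw [← map_pow, hζ.pow_eq_one, map_one]
        have h2 : ‖φ ζ‖ = 1 := Complex.norm_eq_one_of_pow_eq_one h1 hp.out.ne_zero
        rw [← starRingEnd_apply, ← Complex.inv_eq_conj h2, inv_eq_of_mul_eq_one_right]
        rw [← pow_succ', Nat.sub_add_cancel hp.out.one_le, h1]
      have hval : (-1 : ZMod p).val = p - 1 := by
        obtain ⟨n, rfl⟩ : ∃ n, p = n + 1 := ⟨p - 1, (Nat.sub_add_cancel hp.out.one_le).symm⟩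
        simp [ZMod.val_neg_one]
      constructor
      · intro h
        have h1 := h.eq ζ
        rw [hσζ, map_pow, hconj] at h1
        have h2 := (hζ.map_of_injective φ.injective).pow_inj (ZMod.val_lt _)
          (Nat.sub_lt hp.out.pos one_pos) h1
        exact Units.ext (ZMod.val_injective p (by rw [h2, Units.val_neg, Units.val_one, hval]))
      · intro h
        rw [h, Units.val_neg, Units.val_one, hval] at hσζ
        have h1 : (ComplexEmbedding.conjugate φ).toRatAlgHom =
            (φ.comp (σ : K →+* K)).toRatAlgHom := by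
          refine (hζ.powerBasis ℚ).algHom_ext ?_
          rw [IsPrimitiveRoot.powerBasis_gen]
          show star (φ ζ) = φ (σ ζ)
          rw [hconj, hσζ, map_pow]
        exact congrArg AlgHom.toRingHom h1
  unfold fixedCount
  split_ifs with h
  · rw [Finset.filter_true_of_mem fun w _ => (key w).mpr h, Finset.card_univ]
  · rw [Finset.card_eq_zero, Finset.filter_eq_empty_iff]
    exact fun w _ hw => h ((key w).mp hw)

theorem card_gal : Fintype.card Gal(K/ℚ) = p - 1 := by
  rw [Fintype.card_of_bijective (cexp_bijective p (K := K)), ZMod.card_units]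

/-- Coordinates of a unit modulo torsion and `p`. -/
def unitCrdMod (p : ℕ) (v : (𝓞 K)ˣ) : Fin (rank K) → ZMod p := fun i => (unitCrd v i : ZMod p)

/-- The reduction of `unitMatrix`. -/
def unitMatrixMod (p : ℕ) (σ : Gal(K/ℚ)) : Matrix (Fin (rank K)) (Fin (rank K)) (ZMod p) :=
  (unitMatrix σ).map (Int.castRingHom (ZMod p))

omit hp hK in
theorem unitCrdMod_unitAct (σ : Gal(K/ℚ)) (v : (𝓞 K)ˣ) :
    unitCrdMod p (unitAct σ v) = unitMatrixMod p σ *ᵥ unitCrdMod p v := by
  ext i
  simp only [unitCrdMod, unitMatrixMod, unitCrd_unitAct, ← eq_intCast (Int.castRingHom (ZMod p)),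
    RingHom.map_mulVec]
  rfl

omit hK in
theorem unitCrdMod_eq_of_modPow_eq {v w : (𝓞 K)ˣ} (h : modPow p v = modPow p w) :
    unitCrdMod p v = unitCrdMod p w := by
  obtain ⟨z, rfl⟩ := modPow_eq_iff.mp h
  ext i
  simp [unitCrdMod, unitCrd_mul, unitCrd_pow]

/-- The eigen property. -/
def IsSqEigen (p : ℕ) [Fact p.Prime] [IsCyclotomicExtension {p} ℚ K] (v : (𝓞 K)ˣ) : Prop :=
  ∀ σ : Gal(K/ℚ),
    modPow p (unitAct σ v) = modPow p v ^ ((cexp p σ ^ 2 : (ZMod p)ˣ) : ZMod p).val

theorem unitCrdMod_unitAct_eigen {v : (𝓞 K)ˣ} (hv : IsSqEigen p v) (σ : Gal(K/ℚ)) :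
    unitCrdMod p (unitAct σ v) = (((cexp p σ) ^ 2 : (ZMod p)ˣ) : ZMod p) • unitCrdMod p v := by
  rw [unitCrdMod_eq_of_modPow_eq ((hv σ).trans (map_pow _ _ _).symm)]
  ext i
  simp [unitCrdMod, unitCrd_pow]

/-- The projection to the `ω²`-eigenspace. -/
def eigenProj (p : ℕ) [Fact p.Prime] (K : Type*) [Field K] [NumberField K]
    [IsCyclotomicExtension {p} ℚ K] : Matrix (Fin (rank K)) (Fin (rank K)) (ZMod p) :=
  -∑ σ : Gal(K/ℚ), (((cexp p σ)⁻¹ ^ 2 : (ZMod p)ˣ) : ZMod p) • unitMatrixMod p σ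

theorem eigenProj_mulVec {v : (𝓞 K)ˣ} (hv : IsSqEigen p v) :
    eigenProj p K *ᵥ unitCrdMod p v = unitCrdMod p v := by
  rw [eigenProj, Matrix.neg_mulVec, Matrix.sum_mulVec]
  have h : ∀ σ : Gal(K/ℚ), ((((cexp p σ)⁻¹ ^ 2 : (ZMod p)ˣ) : ZMod p) • unitMatrixMod p σ) *ᵥ
      unitCrdMod p v = unitCrdMod p v := fun σ => by
    rw [Matrix.smul_mulVec, ← unitCrdMod_unitAct, unitCrdMod_unitAct_eigen hv, smul_smul,
      ← Units.val_mul, ← mul_pow, inv_mul_cancel, one_pow, Units.val_one, one_smul]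
  rw [Finset.sum_congr rfl fun σ _ => h σ, Finset.sum_const, Finset.card_univ, card_gal (p := p),
    ← Nat.cast_smul_eq_nsmul (ZMod p), Nat.cast_sub hp.out.one_le, ZMod.natCast_self]
  simp

theorem eigenProj_isIdempotentElem : IsIdempotentElem (eigenProj p K) := by
  set c : Gal(K/ℚ) → ZMod p := fun σ => (((cexp p σ)⁻¹ ^ 2 : (ZMod p)ˣ) : ZMod p) with hc
  set Q := ∑ σ : Gal(K/ℚ), c σ • unitMatrixMod p σ with hQ
  have hmul : ∀ σ τ : Gal(K/ℚ), (c σ • unitMatrixMod p σ) * (c τ • unitMatrixMod p τ) =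
      c (σ * τ) • unitMatrixMod p (σ * τ) := fun σ τ => by
    rw [Matrix.smul_mul, Matrix.mul_smul, smul_smul]
    congr 1
    · simp only [hc, cexp_mul, mul_inv, mul_pow, Units.val_mul]
    · simp only [unitMatrixMod, unitMatrix_mul, Matrix.map_mul]
  have hsq : Q * Q = ((p - 1 : ℕ) : ZMod p) • Q := by
    rw [hQ, Finset.sum_mul_sum, Finset.sum_congr rfl fun σ _ =>
      (Finset.sum_congr rfl fun τ _ => hmul σ τ).trans
        (Fintype.sum_equiv (Equiv.mulLeft σ) _ (fun ρ => c ρ • unitMatrixMod p ρ) fun τ => rfl),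
      Finset.sum_const, Finset.card_univ, card_gal (p := p), Nat.cast_smul_eq_nsmul]
  show eigenProj p K * eigenProj p K = eigenProj p K
  rw [eigenProj, ← hQ, neg_mul_neg, hsq, Nat.cast_sub hp.out.one_le, ZMod.natCast_self]
  simp

theorem trace_eigenProj (hp3 : 3 < p) (hζ : IsPrimitiveRoot ζ p) :
    (eigenProj p K).trace = 1 := by
  have hA : ∀ σ : Gal(K/ℚ), (unitMatrixMod p σ).trace = (fixedCount σ : ZMod p) - 1 := fun σ => by
    have h : ((unitMatrix σ).map (Int.castRingHom (ZMod p))).trace =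
        ((unitMatrix σ).trace : ZMod p) := by simp [Matrix.trace]
    rw [unitMatrixMod, h, trace_unitMatrix (by omega : 2 < p) σ]
    simp
  rw [eigenProj, Matrix.trace_neg, Matrix.trace_sum]
  simp only [Matrix.trace_smul, hA, smul_eq_mul, mul_sub, mul_one, Finset.sum_sub_distrib,
    fixedCount_eq (by omega : 2 < p) hζ]
  have hs0 : ∑ σ : Gal(K/ℚ), (((cexp p σ)⁻¹ ^ 2 : (ZMod p)ˣ) : ZMod p) = 0 :=
    ((cexp_bijective p).sum_comp fun a : (ZMod p)ˣ => ((a⁻¹ ^ 2 : (ZMod p)ˣ) : ZMod p)).trans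
      (sum_units_zpow_neg hp3).2
  rw [hs0, sub_zero, ((cexp_bijective p).sum_comp fun a : (ZMod p)ˣ =>
    ((a⁻¹ ^ 2 : (ZMod p)ˣ) : ZMod p) *
      ((if a = 1 ∨ a = -1 then Fintype.card (InfinitePlace K) else 0 : ℕ) : ZMod p))]
  have hne : (1 : (ZMod p)ˣ) ≠ -1 := fun h => two_ne_zero_zmod hp3 (by
    have h' := congrArg Units.val h
    simp only [Units.val_one, Units.val_neg] at h'
    linear_combination h')
  have hfilter : Finset.univ.filter (fun a : (ZMod p)ˣ => a = 1 ∨ a = -1) = {1, -1} := by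
    ext a; simp
  simp only [Nat.cast_ite, Nat.cast_zero, mul_ite, mul_zero, ← Finset.sum_filter, hfilter,
    Finset.sum_pair hne]
  have hcard : 2 * Fintype.card (InfinitePlace K) = p - 1 := by
    have h1 := InfinitePlace.sum_mult_eq (K := K)
    rw [IsCyclotomicExtension.finrank (n := p) K (Polynomial.cyclotomic.irreducible_rat hp.out.pos),
      Nat.totient_prime hp.out, Finset.sum_congr rfl fun w _ => mult_eq_two (p := p) (by omega) w,
      Finset.sum_const, Finset.card_univ, smul_eq_mul] at h1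
    omega
  have h2 : (2 : ZMod p) * (Fintype.card (InfinitePlace K) : ZMod p) = -1 := by
    rw [← Nat.cast_two, ← Nat.cast_mul, hcard, Nat.cast_sub hp.out.one_le, ZMod.natCast_self]
    simp
  simp
  linear_combination -h2

/-- A torsion eigen unit is a `p`-th power. -/
theorem modPow_torsion_eq_one (hp3 : 3 < p) (hζ : IsPrimitiveRoot ζ p) {t : (𝓞 K)ˣ}
    (ht : t ∈ torsion K) (he : IsSqEigen p t) : modPow p t = 1 := by
  have hodd : Odd p := hp.out.odd_of_ne_two (by omega)
  obtain ⟨r, -, hr⟩ := hζ.exists_pow_or_neg_mul_pow_of_isOfFinOrder hodd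
    (x := ((t : 𝓞 K) : K)) (by
      exact MonoidHom.isOfFinOrder
        (((algebraMap (𝓞 K) K).toMonoidHom).comp (Units.coeHom (𝓞 K)))
        ((CommGroup.mem_torsion _).mp ht))
  set z : (𝓞 K)ˣ := (hζ.toInteger_isPrimitiveRoot.isUnit hp.out.ne_zero).unit with hz
  have hneg : modPow p (-1 : (𝓞 K)ˣ) = 1 := modPow_eq_one_iff.mpr ⟨-1, hodd.neg_one_pow⟩
  have htz : modPow p t = modPow p z ^ r := by
    rcases hr with h | h
    · rw [← map_pow]
      congr 1
      exact Units.ext (RingOfIntegers.ext (by simp [hz, h]))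
    · rw [← map_pow, ← one_mul (modPow p (z ^ r)), ← hneg, ← map_mul]
      congr 1
      exact Units.ext (RingOfIntegers.ext (by simp [hz, h]))
  obtain ⟨σ, hσ⟩ := (cexp_bijective p (K := K)).2 (Units.mk0 2 (two_ne_zero_zmod hp3))
  have hact : unitAct σ z = z ^ 2 := by
    refine Units.ext ?_
    rw [coe_unitAct, hz, IsUnit.unit_spec, smul_toInteger hζ, hσ, Units.val_mk0,
      Units.val_pow_eq_pow_val, IsUnit.unit_spec]
    congr 1
    exact ZMod.val_natCast_of_lt (by omega : 2 < p)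
  have h1 := he σ
  rw [hσ] at h1
  have h2 : modPow p (unitAct σ t) = modPow p t ^ 2 := by
    obtain ⟨y, hy⟩ := modPow_eq_iff.mp (htz.trans (map_pow _ _ _).symm)
    rw [hy, map_mul (unitAct σ), map_pow (unitAct σ), map_pow (unitAct σ), hact]
    simp only [map_mul, map_pow, pow_prime_quotient_eq_one, mul_one, ← pow_mul]
    rw [mul_comm]
  rw [h2] at h1
  have h4 : modPow p t ^ 2 = modPow p t ^ 4 := by
    rw [h1]
    refine quotient_pow_congr _ ?_
    rw [ZMod.natCast_zmod_val, Units.val_pow_eq_pow_val, Units.val_mk0]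
    norm_num
  have h5 : modPow p t ^ 2 = 1 := by
    have h6 : modPow p t ^ 2 * modPow p t ^ 2 = modPow p t ^ 2 * 1 := by
      rw [mul_one, ← pow_add]; exact h4.symm
    exact mul_left_cancel h6
  have h7 := pow_gcd_eq_one.mpr ⟨pow_prime_quotient_eq_one (modPow p t), h5⟩
  rwa [((Nat.coprime_primes hp.out Nat.prime_two).mpr (by omega)).gcd_eq_one, pow_one] at h7

/-- The eigen cyclotomic unit is not a `p`-th power. -/
theorem exists_eigenUnit_ne_pow (hp3 : 3 < p) (hζ : IsPrimitiveRoot ζ p) :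
    modPow p (eigenUnit hζ) ≠ 1 := by
  intro h
  obtain ⟨w, hw⟩ := modPow_eq_one_iff.mp h
  obtain ⟨m, hm2, hm3⟩ := exists_int_sub_eigenUnit_pow hζ hp3 (k := 1) hp.out.not_dvd_one
  obtain ⟨m', hm'⟩ := exists_int_pow_prime_sub hζ hp3 (w : 𝓞 K)
  have hval : (w : 𝓞 K) ^ p = (eigenUnit hζ : 𝓞 K) := by rw [← Units.val_pow_eq_pow_val, hw]
  rw [hval] at hm'
  rw [pow_one] at hm2 hm3
  have h1 : piElt hζ ^ 2 ∣ ((m' - m : ℤ) : 𝓞 K) := by
    have := dvd_sub hm2 (dvd_trans (pow_dvd_pow _ (by omega)) hm')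
    push_cast
    convert this using 1
    ring
  obtain ⟨d, hd⟩ := (IsCyclotomicExtension.Rat.zeta_sub_one_dvd_intCast_iff' p hζ).mp
    (dvd_trans (dvd_pow_self _ two_ne_zero) h1)
  refine hm3 ?_
  have h3 : piElt hζ ^ 3 ∣ ((m' - m : ℤ) : 𝓞 K) := by
    rw [hd, Int.cast_mul, Int.cast_natCast]
    exact Dvd.dvd.mul_right ((pow_dvd_pow _ (by omega)).trans (pi_pow_dvd_natCast_p hζ)) _
  have := dvd_add hm' h3
  push_cast at this
  simpa using this

/-- The `ω²`-eigen units are powers of the cyclotomic unit modulo `p`-th powers. -/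
theorem exists_modPow_eq_eigenUnit_pow (hp3 : 3 < p) (hζ : IsPrimitiveRoot ζ p) {v : (𝓞 K)ˣ}
    (hv : IsSqEigen p v) : ∃ k : ℕ, modPow p v = modPow p (eigenUnit hζ) ^ k := by
  have hu : IsSqEigen p (eigenUnit hζ) := modPow_unitAct_eigenUnit hζ hp3
  -- units with vanishing coordinates are `p`-th powers
  have hzero : ∀ {x : (𝓞 K)ˣ}, IsSqEigen p x → unitCrdMod p x = 0 → modPow p x = 1 := by
    intro x hx h0
    obtain ⟨⟨t, e⟩, he, -⟩ := exist_unique_eq_mul_prod K x
    have hxe : unitCrd x = e := unitCrd_eq he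
    have hdiv : ∀ i, (p : ℤ) ∣ e i := fun i => by
      rw [← ZMod.intCast_zmod_eq_zero_iff_dvd, ← hxe]
      exact congrFun h0 i
    choose d hd using hdiv
    have hxt : modPow p x = modPow p (t : (𝓞 K)ˣ) := by
      refine modPow_eq_iff.mpr ⟨∏ i, fundSystem K i ^ d i, ?_⟩
      rw [he, ← Finset.prod_pow]
      refine congrArg _ (Finset.prod_congr rfl fun i _ => ?_)
      show fundSystem K i ^ e i = _
      rw [hd i, ← zpow_natCast, ← _root_.zpow_mul, mul_comm]
    rw [hxt]
    refine modPow_torsion_eq_one hp3 hζ t.2 fun σ => ?_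
    rw [← hxt, ← hx σ]
    obtain ⟨y, hy⟩ := modPow_eq_iff.mp hxt
    rw [hy, map_mul (unitAct σ), map_pow (unitAct σ), map_mul, map_pow, pow_prime_quotient_eq_one,
      mul_one]
  set P := Matrix.toLin' (eigenProj p K)
  have hidem : IsIdempotentElem P := by
    show P * P = P
    rw [Module.End.mul_eq_comp, ← Matrix.toLin'_mul, eigenProj_isIdempotentElem.eq]
  have htr : LinearMap.trace (ZMod p) _ P = 1 := by
    rw [Matrix.trace_toLin'_eq, trace_eigenProj hp3 hζ]
  rw [(LinearMap.IsIdempotentElem.isProj_range P hidem).trace] at htr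
  have hfin : finrank (ZMod p) (LinearMap.range P) = 1 := by
    have hle : finrank (ZMod p) (LinearMap.range P) ≤ rank K := by
      simpa using Submodule.finrank_le (LinearMap.range P)
    have hr : rank K < p := by
      have h1 := InfinitePlace.sum_mult_eq (K := K)
      rw [IsCyclotomicExtension.finrank (n := p) K
          (Polynomial.cyclotomic.irreducible_rat hp.out.pos),
        Nat.totient_prime hp.out] at h1
      have h2 : Fintype.card (InfinitePlace K) ≤ ∑ w : InfinitePlace K, mult w := by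
        rw [← Finset.card_univ, Finset.card_eq_sum_ones]
        exact Finset.sum_le_sum fun w _ => mult_pos
      unfold Units.rank
      omega
    have h1 := congrArg ZMod.val htr
    rwa [ZMod.val_natCast_of_lt (by omega), ZMod.val_one] at h1
  have hmem : ∀ {x : (𝓞 K)ˣ}, IsSqEigen p x → unitCrdMod p x ∈ LinearMap.range P :=
    fun hx => ⟨_, (Matrix.toLin'_apply _ _).trans (eigenProj_mulVec hx)⟩
  have hu0 : (⟨_, hmem hu⟩ : LinearMap.range P) ≠ 0 := fun h =>
    exists_eigenUnit_ne_pow hp3 hζ (hzero hu (congrArg Subtype.val h))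
  obtain ⟨c, hc⟩ := (finrank_eq_one_iff_of_nonzero' _ hu0).mp hfin ⟨_, hmem hv⟩
  refine ⟨c.val, ?_⟩
  have hc' : c • unitCrdMod p (eigenUnit hζ) = unitCrdMod p v := congrArg Subtype.val hc
  rw [← map_pow, ← mul_inv_eq_one, ← map_inv, ← map_mul]
  refine hzero ?_ ?_
  · intro σ
    simp only [map_mul, map_inv, map_pow, hv σ, hu σ, mul_pow, inv_pow, ← pow_mul]
    rw [mul_comm (c.val)]
  · ext i
    have := congrFun hc' i
    simp only [unitCrdMod, unitCrd_mul, unitCrd_inv, unitCrd_pow, Pi.add_apply, Pi.neg_apply,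
      Pi.smul_apply, smul_eq_mul, Int.cast_add, Int.cast_neg, Int.cast_mul, Int.cast_natCast,
      ZMod.natCast_zmod_val, Pi.zero_apply] at this ⊢
    linear_combination -this

end Fermat.Agent.ExtVanish
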