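import Fermat.Prelude.Def_ClassGroup_GaloisAction
import Fermat.Agent.ExtVanish.UnitEigen
import Fermat.Agent.ExtVanish.Thaine
import Fermat.Agent.ExtVanish.ClassDensity
import Fermat.Agent.ExtVanish.KummerSplit

/-!
# The `ω²`-eigenspace of the class group of `ℚ(ζ_p)`

For `p > 3` every `ω²`-eigen ideal class of order dividing `p` is trivial (`eigenClass_eq_one`),
by Thaine's argument combined with the density bound for class group characters.
-/

set_option autoImplicit false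

noncomputable section

namespace Fermat.Agent.ExtVanish

open NumberField Filter Topology
open Fermat.Agent.Density
open scoped Classical Pointwise nonZeroDivisors

variable {p : ℕ} [hp : Fact p.Prime] {K : Type} [Field K] [NumberField K]
  [hK : IsCyclotomicExtension {p} ℚ K] {ζ : K} (hζ : IsPrimitiveRoot ζ p)

/-- The action of Galois on the class group. -/
def classAct (σ : Gal(K/ℚ)) : ClassGroup (𝓞 K) →* ClassGroup (𝓞 K) :=
  (ClassGroup.mulEquiv (MulSemiringAction.toRingEquiv Gal(K/ℚ) (𝓞 K) σ)).toMonoidHom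

omit hK in
theorem classAct_mk0 (σ : Gal(K/ℚ)) (I : (Ideal (𝓞 K))⁰)
    (h : σ • (I : Ideal (𝓞 K)) ∈ (Ideal (𝓞 K))⁰) :
    classAct σ (ClassGroup.mk0 I) = ClassGroup.mk0 ⟨σ • (I : Ideal (𝓞 K)), h⟩ := by
  show ClassGroup.mulEquiv _ (ClassGroup.mk0 I) = _
  rw [ClassGroup.mulEquiv_mk0]
  congr 1

omit hK in
theorem classAct_mul (σ τ : Gal(K/ℚ)) (C : ClassGroup (𝓞 K)) :
    classAct (σ * τ) C = classAct σ (classAct τ C) := by
  obtain ⟨I, rfl⟩ := ClassGroup.mk0_surjective C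
  show ClassGroup.mulEquiv _ (ClassGroup.mk0 I) =
    ClassGroup.mulEquiv _ (ClassGroup.mulEquiv _ (ClassGroup.mk0 I))
  rw [ClassGroup.mulEquiv_mk0, ClassGroup.mulEquiv_mk0, ClassGroup.mulEquiv_mk0]
  congr 1
  refine Subtype.ext ?_
  simp only [Ideal.coe_mapNonZero, Ideal.map_map]
  congr 1

omit hK in
theorem gal_smul_ne_bot (σ : Gal(K/ℚ)) {I : Ideal (𝓞 K)} (hI : I ≠ ⊥) : σ • I ≠ ⊥ := by
  intro h
  refine hI ?_
  rw [← inv_smul_smul σ I, h]
  exact Ideal.smul_bot σ⁻¹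

theorem exists_addHom_zmod_ne_zero {A : Type*} [AddCommGroup A] [Module (ZMod p) A] {x : A}
    (hx : x ≠ 0) : ∃ φ : A →+ ZMod p, φ x ≠ 0 := by
  obtain ⟨φ, hφ⟩ : ∃ φ : Module.Dual (ZMod p) A, φ x ≠ 0 := by
    by_contra h
    push Not at h
    exact hx ((Module.forall_dual_apply_eq_zero_iff (ZMod p) x).mp h)
  exact ⟨φ.toAddMonoidHom, hφ⟩

/-- Group elements detected by a character of order `p`. -/
theorem exists_hom_zmod_ne_zero {G : Type*} [CommGroup G] {x : G} (hx : ∀ y, y ^ p ≠ x) :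
    ∃ f : G → ZMod p, (∀ a b, f (a * b) = f a + f b) ∧ f x ≠ 0 := by
  have hne : Additive.ofMul (modPow p x) ≠ 0 := fun h => by
    obtain ⟨y, hy⟩ := modPow_eq_one_iff.mp (ofMul_eq_zero.mp h)
    exact hx y hy
  let : Module (ZMod p) (Additive (G ⧸ (powMonoidHom p : G →* G).range)) :=
    AddCommGroup.zmodModule fun v => congrArg Additive.ofMul
      (pow_prime_quotient_eq_one (p := p) v.toMul)
  obtain ⟨φ, hφ⟩ := exists_addHom_zmod_ne_zero (p := p) hne
  refine ⟨fun a => φ (Additive.ofMul (modPow p a)), fun a b => ?_, hφ⟩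
  show φ _ = _
  rw [map_mul, ofMul_mul, map_add]

include hζ in
/-- **Thaine + density**: every `ω²`-equivariant additive function on the class group vanishes. -/
theorem classFun_eq_zero (hp3 : 3 < p) (f : ClassGroup (𝓞 K) → ZMod p)
    (hadd : ∀ a b, f (a * b) = f a + f b)
    (hequiv : ∀ (σ : Gal(K/ℚ)) C, f (classAct σ C) = ((cexp p σ ^ 2 : (ZMod p)ˣ) : ZMod p) * f C)
    (C₁ : ClassGroup (𝓞 K)) : f C₁ = 0 := by
  by_contra hC₁
  have h1 : f 1 = 0 := by
    have h := hadd 1 1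
    rw [mul_one] at h
    linear_combination -h
  obtain ⟨ω, hω⟩ : ∃ ω : ℂ, IsPrimitiveRoot ω p := ⟨_, Complex.isPrimitiveRoot_exp p hp.out.ne_zero⟩
  let χ : ClassGroup (𝓞 K) →* ℂ :=
    { toFun := fun C => AddChar.zmodChar p hω.pow_eq_one (f C)
      map_one' := by rw [h1, AddChar.map_zero_eq_one]
      map_mul' := fun a b => by rw [hadd, AddChar.map_add_eq_mul] }
  have hχapp : ∀ C, χ C = ω ^ (f C).val := fun C => AddChar.zmodChar_apply hω.pow_eq_one _
  have hχp : ∀ C, χ C ^ p = 1 := fun C => by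
    rw [hχapp, ← pow_mul, mul_comm, pow_mul, hω.pow_eq_one, one_pow]
  have hχ1 : ∀ C, χ C = 1 → f C = 0 := fun C h => by
    rw [hχapp] at h
    exact (ZMod.val_eq_zero _).mp
      (Nat.eq_zero_of_dvd_of_lt (hω.dvd_of_pow_eq_one _ h) (ZMod.val_lt _))
  have hχne : χ ≠ 1 := fun h => hC₁ (hχ1 C₁ (by rw [h]; rfl))
  let ψ : Ideal (𝓞 K) → ZMod p := fun I =>
    if h : I = ⊥ then 0 else f (ClassGroup.mk0 ⟨I, mem_nonZeroDivisors_iff_ne_zero.mpr h⟩)
  have hψ : ∀ {I : Ideal (𝓞 K)} (h : I ≠ ⊥),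
      ψ I = f (ClassGroup.mk0 ⟨I, mem_nonZeroDivisors_iff_ne_zero.mpr h⟩) := fun h => dif_neg h
  have hψmul : ∀ I J : Ideal (𝓞 K), I ≠ ⊥ → J ≠ ⊥ → ψ (I * J) = ψ I + ψ J := by
    intro I J hI hJ
    rw [hψ (I := I * J) (mul_ne_zero hI hJ), hψ hI, hψ hJ, ← hadd, ← map_mul]
    rfl
  have hψprinc : ∀ a : 𝓞 K, a ≠ 0 → ψ (Ideal.span {a}) = 0 := by
    intro a ha
    rw [hψ (I := Ideal.span {a}) (by simpa using ha),
      (ClassGroup.mk0_eq_one_iff _).mpr ⟨a, rfl⟩, h1]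
  have hψequiv : ∀ (σ : Gal(K/ℚ)) (I : Ideal (𝓞 K)), I ≠ ⊥ →
      ψ (σ • I) = ((cexp p σ ^ 2 : (ZMod p)ˣ) : ZMod p) * ψ I := by
    intro σ I hI
    rw [hψ (gal_smul_ne_bot σ hI), hψ hI, ← hequiv, classAct_mk0]
  have hψchar : ∀ P : Ideal (𝓞 K), P ≠ ⊥ → ψ P = 0 → classCharFun χ P = 1 := by
    intro P hP h
    rw [classCharFun_of_ne_bot χ hP, hχapp, ← hψ hP, h, ZMod.val_zero, pow_zero]
  have hu : ∀ b : K, b ^ p ≠ ((eigenUnit hζ : 𝓞 K) : K) := by
    intro b hb
    have hbint : IsIntegral ℤ b := IsIntegral.of_pow hp.out.pos (hb ▸ (eigenUnit hζ : 𝓞 K).2)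
    set b' : 𝓞 K := ⟨b, hbint⟩
    have hb' : b' ^ p = (eigenUnit hζ : 𝓞 K) := RingOfIntegers.ext hb
    have hbu : IsUnit b' := (isUnit_pow_iff hp.out.ne_zero).mp (hb' ▸ (eigenUnit hζ).isUnit)
    exact exists_eigenUnit_ne_pow hp3 hζ (modPow_eq_one_iff.mpr
      ⟨hbu.unit, Units.ext (by rw [Units.val_pow_eq_pow_val, IsUnit.unit_spec, hb'])⟩)
  obtain ⟨B₁, hB₁⟩ := exists_density_bound hp.out χ hχp hχne
  obtain ⟨B₂, hB₂⟩ := exists_residue_density_bound hζ (eigenUnit hζ : 𝓞 K) hu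
  obtain ⟨B₃, hB₃⟩ := eventually_abs_primeTerm_add_log_le K
  set n : ℝ := (Module.finrank ℚ K : ℝ)
  set B := B₁ + B₂ + (p : ℝ) * B₃ + (p : ℝ) * n
  have hbig : ∀ᶠ s in 𝓝[>] (1 : ℝ), B < -Real.log (s - 1) := by
    have h0 : Tendsto (fun s : ℝ => s - 1) (𝓝[>] 1) (𝓝[>] 0) := by
      refine tendsto_nhdsWithin_iff.mpr ⟨?_, ?_⟩
      · have h : Tendsto (fun s : ℝ => s - 1) (𝓝 1) (𝓝 (1 - 1)) :=
          (continuous_sub_right (1 : ℝ)).tendsto 1
        rw [sub_self] at h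
        exact h.mono_left nhdsWithin_le_nhds
      · filter_upwards [self_mem_nhdsWithin] with s hs
        exact sub_pos.mpr (Set.mem_Ioi.mp hs)
    filter_upwards [(Real.tendsto_log_nhdsGT_zero.comp h0).eventually
      (eventually_lt_atBot (-B))] with s hs
    simp only [Function.comp_apply] at hs
    linarith
  obtain ⟨s, hs₁, hs₂, hs₃, hs₄, hs₅⟩ :=
    (hB₁.and (hB₂.and (hB₃.and (hbig.and self_mem_nhdsWithin)))).exists
  -- the primes of degree one
  let fib : Nat.Primes → Finset (Ideal (𝓞 K)) := fun q =>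
    (Ideal.finite_setOfPred_absNorm_eq (S := 𝓞 K) (q : ℕ)).toFinset
  have hfib : ∀ q I, I ∈ fib q ↔ Ideal.absNorm I = (q : ℕ) := fun q I => by simp [fib]
  have hkey : (p : ℝ) * ∑' q, primeTerm K s q ≤ 2 * -Real.log (s - 1) + B₁ + B₂ + (p : ℝ) * n := by
    rw [← tsum_mul_left]
    refine Real.tsum_le_of_sum_le
      (fun q => mul_nonneg (Nat.cast_nonneg _) (primeTerm_nonneg s q)) fun S => ?_
    rw [← Finset.mul_sum]
    set pp : Nat.Primes := ⟨p, hp.out⟩
    have hrest : ∑ q ∈ S, primeTerm K s q ≤ ∑ q ∈ S.erase pp, primeTerm K s q + n := by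
      by_cases hmem : pp ∈ S
      · rw [← Finset.add_sum_erase _ _ hmem, add_comm]
        refine add_le_add le_rfl ?_
        calc primeTerm K s pp ≤ n * 1 := by
              refine mul_le_mul (Nat.cast_le.mpr (normCount_prime_le hp.out)) ?_ (by positivity)
                (Nat.cast_nonneg _)
              exact Real.rpow_le_one_of_one_le_of_nonpos
                (by exact_mod_cast hp.out.one_le) (by linarith)
          _ = n := mul_one n
      · rw [Finset.erase_eq_of_notMem hmem]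
        linarith [(Nat.cast_nonneg (Module.finrank ℚ K) : (0 : ℝ) ≤ n)]
    set T := (S.erase pp).biUnion fib
    have hsum : ∑ q ∈ S.erase pp, primeTerm K s q = ∑ P ∈ T, idealWeight s P := by
      rw [Finset.sum_biUnion]
      · refine Finset.sum_congr rfl fun q _ => ?_
        rw [Finset.sum_congr rfl (g := fun _ => ((q : ℕ) : ℝ) ^ (-s))
          (fun I hI => by rw [idealWeight, (hfib q I).1 hI]), Finset.sum_const, nsmul_eq_mul]
        unfold primeTerm
        congr 1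
        exact congrArg (Nat.cast : ℕ → ℝ) (Nat.card_eq_card_finite_toFinset
          (Ideal.finite_setOfPred_absNorm_eq (S := 𝓞 K) (q : ℕ)))
      · intro q _ q' _ hqq'
        rw [Function.onFun, Finset.disjoint_left]
        intro I hq hq'
        exact hqq' (Subtype.ext (((hfib q I).1 hq).symm.trans ((hfib q' I).1 hq')))
    have hT : ∀ P ∈ T, ∃ l : ℕ, l.Prime ∧ l ≠ p ∧ Ideal.absNorm P = l := by
      intro P hP
      obtain ⟨q, hq, hPq⟩ := Finset.mem_biUnion.1 hP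
      exact ⟨q, q.2, fun h => (Finset.mem_erase.1 hq).1 (Subtype.ext h), (hfib q P).1 hPq⟩
    have hTp : ∀ P ∈ T, P.IsPrime ∧ P ≠ ⊥ := by
      intro P hP
      obtain ⟨l, hl, -, h⟩ := hT P hP
      exact ⟨isPrime_of_absNorm_eq_prime hl h, ne_bot_of_absNorm_eq hl.ne_zero h⟩
    rw [← Finset.sum_filter_add_sum_filter_not T fun P => ψ P = 0] at hsum
    have h₁ := hs₁ (T.filter fun P => ψ P = 0) fun P hP => by
      obtain ⟨hPT, hP0⟩ := Finset.mem_filter.1 hP
      exact ⟨(hTp P hPT).1, (hTp P hPT).2, hψchar P (hTp P hPT).2 hP0⟩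
    have h₂ := hs₂ (T.filter fun P => ¬ ψ P = 0) fun P hP => by
      obtain ⟨hPT, hP0⟩ := Finset.mem_filter.1 hP
      obtain ⟨l, hl, hlp, hN⟩ := hT P hPT
      have : Fact l.Prime := ⟨hl⟩
      refine ⟨(hTp P hPT).1, (hTp P hPT).2, ?_, ?_,
        exists_eigenUnit_sub_pow_mem hζ hp3 ψ hψmul hψprinc hψequiv hN hlp hP0⟩
      · intro h
        rw [← degOneRed_eq_zero_iff hN, map_natCast, ZMod.natCast_eq_zero_iff] at h
        exact hlp ((Nat.prime_dvd_prime_iff_eq hl hp.out).mp h)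
      · exact fun h => (hTp P hPT).1.ne_top (Ideal.eq_top_of_isUnit_mem _ h (eigenUnit hζ).isUnit)
    calc (p : ℝ) * ∑ q ∈ S, primeTerm K s q ≤ p * (∑ q ∈ S.erase pp, primeTerm K s q + n) := by
          gcongr
      _ ≤ _ := by rw [hsum]; linarith
  have hlog := (abs_le.mp hs₃).1
  have hp3' : (3 : ℝ) ≤ p := by exact_mod_cast hp3.le
  have hB3 : 0 ≤ B₃ := le_trans (abs_nonneg _) hs₃
  have h9 := mul_le_mul_of_nonneg_left hlog (by positivity : (0 : ℝ) ≤ p)
  rcases le_or_gt 0 (-Real.log (s - 1)) with hpos | hneg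
  · have h10 := mul_nonneg (sub_nonneg.mpr hp3') hpos
    linarith
  · have h12 := mul_nonneg (Nat.cast_nonneg p : (0 : ℝ) ≤ p)
      (tsum_nonneg (L := SummationFilter.unconditional Nat.Primes)
        fun q => primeTerm_nonneg (K := K) s q)
    have h11 : 0 ≤ (p : ℝ) * B₃ := by positivity
    linarith

theorem pow_eq_self_of_cast_eq_one {G : Type*} [Monoid G] {C : G} (h : C ^ p = 1) {a : ℕ}
    (ha : (a : ZMod p) = 1) : C ^ a = C := by
  rw [← Nat.mod_add_div a p, pow_add, pow_mul, h, one_pow, mul_one]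
  have : a % p = 1 := by
    rw [← ZMod.val_natCast, ha, ZMod.val_one]
  rw [this, pow_one]

include hζ in
/-- An `ω²`-eigen class of order dividing `p` is trivial. -/
theorem eigenClass_eq_one (hp3 : 3 < p) {C₀ : ClassGroup (𝓞 K)} (hC₀ : C₀ ^ p = 1)
    (heigen : ∀ σ : Gal(K/ℚ), classAct σ C₀ = C₀ ^ ((cexp p σ ^ 2 : (ZMod p)ˣ) : ZMod p).val) :
    C₀ = 1 := by
  let e : ClassGroup (𝓞 K) →* ClassGroup (𝓞 K) :=
    ∏ σ : Gal(K/ℚ), (classAct σ) ^ ((((cexp p σ)⁻¹) ^ 2 : (ZMod p)ˣ) : ZMod p).val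
  have he : ∀ C, e C = ∏ σ : Gal(K/ℚ),
      classAct σ C ^ ((((cexp p σ)⁻¹) ^ 2 : (ZMod p)ˣ) : ZMod p).val := fun C => by
    simp [e, MonoidHom.finsetProd_apply]
  -- `e` takes values in `p`-th powers
  have hval : ∀ C, ∃ y, y ^ p = e C := by
    intro C
    by_contra hc
    push Not at hc
    obtain ⟨f, hadd, hf⟩ := exists_hom_zmod_ne_zero hc
    have hf1 : f 1 = 0 := by
      have h := hadd 1 1
      rw [mul_one] at h
      linear_combination -h
    have hpow : ∀ (a : ClassGroup (𝓞 K)) (k : ℕ), f (a ^ k) = (k : ZMod p) * f a := fun a k => by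
      induction k with
      | zero => simp [hf1]
      | succ k ih => rw [pow_succ, hadd, ih]; push_cast; ring
    have hprod : ∀ (s : Finset Gal(K/ℚ)) (g : Gal(K/ℚ) → ClassGroup (𝓞 K)),
        f (∏ σ ∈ s, g σ) = ∑ σ ∈ s, f (g σ) := fun s g => by
      induction s using Finset.induction_on with
      | empty => simp [hf1]
      | insert a s ha ih => rw [Finset.prod_insert ha, Finset.sum_insert ha, hadd, ih]
    refine hf ?_
    rw [he, hprod]
    simp only [hpow, ZMod.natCast_zmod_val]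
    refine classFun_eq_zero hζ hp3 (fun D => ∑ σ : Gal(K/ℚ),
      (((cexp p σ)⁻¹ ^ 2 : (ZMod p)ˣ) : ZMod p) * f (classAct σ D)) (fun a b => ?_)
      (fun τ D => ?_) C
    · simp only [map_mul, hadd, mul_add, Finset.sum_add_distrib]
    · rw [Finset.mul_sum]
      refine Fintype.sum_equiv (Equiv.mulRight τ) _ _ fun σ => ?_
      simp only [Equiv.coe_mulRight, classAct_mul, cexp_mul, ← mul_assoc, ← Units.val_mul]
      congr 2
      rw [mul_inv, mul_pow, mul_comm ((cexp p σ)⁻¹ ^ 2), ← mul_assoc, inv_pow (cexp p τ),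
        mul_inv_cancel, one_mul]
  have heC₀ : e C₀ = C₀ ^ (p - 1) := by
    rw [he, Finset.prod_congr rfl (g := fun _ => C₀) fun σ _ => ?_]
    · rw [Finset.prod_const, Finset.card_univ, card_gal (p := p)]
    · rw [heigen σ, ← pow_mul]
      refine pow_eq_self_of_cast_eq_one (p := p) hC₀ ?_
      rw [Nat.cast_mul, ZMod.natCast_zmod_val, ZMod.natCast_zmod_val, ← Units.val_mul, ← mul_pow,
        mul_inv_cancel, one_pow, Units.val_one]
  have hdiv : ∀ k : ℕ, ∃ D, C₀ = D ^ p ^ k := by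
    intro k
    induction k with
    | zero => exact ⟨C₀, by rw [pow_zero, pow_one]⟩
    | succ k ih =>
      obtain ⟨D, hD⟩ := ih
      obtain ⟨y, hy⟩ := hval D
      refine ⟨y⁻¹, ?_⟩
      have h : C₀ ^ (p - 1) = y ^ p ^ (k + 1) := by
        rw [← heC₀, hD, map_pow, ← hy, ← pow_mul, pow_succ']
      have h2 : C₀ ^ (p - 1) * C₀ = 1 := by
        rw [← pow_succ, Nat.sub_add_cancel hp.out.one_le, hC₀]
      rw [inv_pow, ← h]
      exact (inv_eq_of_mul_eq_one_right h2).symm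
  obtain ⟨D, hD⟩ := hdiv (Fintype.card (ClassGroup (𝓞 K)))
  have hord : orderOf D ∣ p ^ (Fintype.card (ClassGroup (𝓞 K)) + 1) := by
    rw [orderOf_dvd_iff_pow_eq_one, pow_succ, pow_mul, ← hD, hC₀]
  obtain ⟨j, -, hj⟩ := (Nat.dvd_prime_pow hp.out).mp hord
  have hjle : j ≤ Fintype.card (ClassGroup (𝓞 K)) :=
    ((Nat.lt_pow_self hp.out.one_lt).le.trans_eq hj.symm).trans orderOf_le_card_univ
  rw [hD, ← orderOf_dvd_iff_pow_eq_one, hj]
  exact pow_dvd_pow _ hjle

end Fermat.Agent.ExtVanish
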