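import Fermat.Agent.ExtVanish.ConeWeight

/-!
# The cut-off test function on the mixed space

The test function `unitWeight x * |N x| ^ (-s)`, cut off near the origin, decays
(`exists_coneFunCut_le`) and varies slowly, uniformly for `s ∈ [1, 2]`
(`exists_coneFunCut_lipschitz`).
-/

set_option autoImplicit false

noncomputable section

namespace Fermat.Agent.ExtVanish

open NumberField NumberField.InfinitePlace NumberField.mixedEmbedding Module
open NumberField.Units NumberField.Units.dirichletUnitTheorem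
open scoped Classical

variable {K : Type*} [Field K] [NumberField K]

variable (K) in
/-- The homogeneous test function. -/
def coneFun (s : ℝ) (x : mixedSpace K) : ℝ :=
  unitWeight K x * mixedEmbedding.norm x ^ (-s)

/-- Cut-off near the origin. -/
def cutoff (x : mixedSpace K) : ℝ := max 0 (min 1 (‖x‖ - 1))

variable (K) in
/-- The test function cut off near the origin. -/
def coneFunCut (s : ℝ) (x : mixedSpace K) : ℝ := cutoff x * coneFun K s x

theorem cutoff_eq_one {x : mixedSpace K} (h : 2 ≤ ‖x‖) : cutoff x = 1 := by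
  rw [cutoff, min_eq_left (by linarith), max_eq_right zero_le_one]

theorem cutoff_eq_zero {x : mixedSpace K} (h : ‖x‖ ≤ 1) : cutoff x = 0 :=
  max_eq_left ((min_le_right _ _).trans (by linarith))

theorem cutoff_mem (x : mixedSpace K) : cutoff x ∈ Set.Icc (0 : ℝ) 1 :=
  ⟨le_max_left _ _, max_le zero_le_one (min_le_left _ _)⟩

theorem coneFun_nonneg (s : ℝ) (x : mixedSpace K) : 0 ≤ coneFun K s x :=
  mul_nonneg (unitWeight_nonneg x) (Real.rpow_nonneg (mixedEmbedding.norm_nonneg x) _)

theorem coneFunCut_nonneg (s : ℝ) (x : mixedSpace K) : 0 ≤ coneFunCut K s x :=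
  mul_nonneg (cutoff_mem x).1 (coneFun_nonneg s x)

theorem measurable_coneFunCut (s : ℝ) : Measurable (coneFunCut K s) := by
  refine Measurable.mul ?_ (measurable_unitWeight.mul
    ((mixedEmbedding.continuous_norm K).measurable.pow_const _))
  unfold cutoff
  exact Continuous.measurable (by fun_prop)

theorem pow_le_norm_of_forall_le {x : mixedSpace K} {δ : ℝ} (hδ : 0 ≤ δ)
    (h : ∀ w, δ ≤ normAtPlace w x) : δ ^ (finrank ℚ K) ≤ mixedEmbedding.norm x := by
  rw [mixedEmbedding.norm_apply, ← sum_mult_eq, ← Finset.prod_pow_eq_pow_sum]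
  exact Finset.prod_le_prod (fun w _ => pow_nonneg hδ _) fun w _ => pow_le_pow_left₀ hδ (h w) _

variable (K) in
theorem exists_coord_lipschitz :
    ∃ C : ℝ, 0 ≤ C ∧ ∀ (x y : mixedSpace K) (t : ℝ), 0 ≤ t →
      (∀ w, normAtPlace w x ≠ 0) → (∀ w, normAtPlace w y ≠ 0) →
      (∀ w, |Real.log (normAtPlace w x) - Real.log (normAtPlace w y)| ≤ t) →
      |unitWeight K x - unitWeight K y| ≤ C * t ∧
      |Real.log (mixedEmbedding.norm x) - Real.log (mixedEmbedding.norm y)| ≤
        (finrank ℚ K : ℝ) * t := by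
  set T : logSpace K →L[ℝ] (Fin (rank K) → ℝ) := LinearMap.toContinuousLinearMap
    (((basisUnitLattice K).ofZLatticeBasis ℝ (unitLattice K)).equivFun.toLinearMap) with hT
  refine ⟨(rank K : ℝ) * (‖T‖ * 4), by positivity, fun x y t ht hx hy hlog => ?_⟩
  have hNx := mixedEmbedding.norm_ne_zero_iff.mpr hx
  have hNy := mixedEmbedding.norm_ne_zero_iff.mpr hy
  have hN : |Real.log (mixedEmbedding.norm x) - Real.log (mixedEmbedding.norm y)| ≤
      (finrank ℚ K : ℝ) * t := by
    rw [log_norm_eq_sum hNx, log_norm_eq_sum hNy, ← Finset.sum_sub_distrib, ← sum_mult_eq,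
      Nat.cast_sum, Finset.sum_mul]
    refine (Finset.abs_sum_le_sum_abs _ _).trans (Finset.sum_le_sum fun w _ => ?_)
    rw [← mul_sub, abs_mul, Nat.abs_cast]
    exact mul_le_mul_of_nonneg_left (hlog w) (Nat.cast_nonneg _)
  refine ⟨?_, hN⟩
  have hmap : ‖logMap x - logMap y‖ ≤ 4 * t := by
    refine (pi_norm_le_iff_of_nonneg (by positivity)).mpr fun w => ?_
    rw [Pi.sub_apply, logMap_apply, logMap_apply, ← mul_sub, Real.norm_eq_abs, abs_mul,
      Nat.abs_cast]
    have hm : (mult w.1 : ℝ) ≤ 2 := by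
      unfold mult
      split_ifs <;> norm_num
    have hn0 : (0 : ℝ) < finrank ℚ K := Nat.cast_pos.mpr finrank_pos
    have h2 : |Real.log (normAtPlace w.1 x) - Real.log (mixedEmbedding.norm x) * (finrank ℚ K : ℝ)⁻¹
        - (Real.log (normAtPlace w.1 y) - Real.log (mixedEmbedding.norm y) * (finrank ℚ K : ℝ)⁻¹)|
        ≤ 2 * t := by
      rw [sub_sub_sub_comm, ← sub_mul]
      refine (abs_sub _ _).trans ?_
      rw [abs_mul, abs_inv, Nat.abs_cast]
      have h3 : |Real.log (mixedEmbedding.norm x) - Real.log (mixedEmbedding.norm y)| *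
          (finrank ℚ K : ℝ)⁻¹ ≤ t := by
        rw [← div_eq_mul_inv, div_le_iff₀ hn0]
        linarith
      linarith [hlog w.1]
    calc (mult w.1 : ℝ) * _ ≤ 2 * (2 * t) := by gcongr
      _ = 4 * t := by ring
  rw [unitWeight_of_norm_ne_zero hNx, unitWeight_of_norm_ne_zero hNy]
  refine (abs_prod_sub_prod_le _ _ _ (fun j _ => ⟨tent_nonneg _, tent_le_one _⟩)
    (fun j _ => ⟨tent_nonneg _, tent_le_one _⟩)).trans ?_
  refine (Finset.sum_le_sum (g := fun _ : Fin (rank K) => ‖T‖ * (4 * t)) fun j _ => ?_).trans ?_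
  · refine (abs_tent_sub_tent_le _ _).trans ?_
    have h1 : unitCoord K x j - unitCoord K y j = T (logMap x - logMap y) j := by
      simp [hT, unitCoord]
    rw [h1, ← Real.norm_eq_abs]
    exact (norm_le_pi_norm _ j).trans ((T.le_opNorm _).trans (by gcongr))
  · simp only [Finset.sum_const, Finset.card_univ, Fintype.card_fin, nsmul_eq_mul]
    exact le_of_eq (by ring)

variable (K) in
/-- Decay of the cut-off test function. -/
theorem exists_coneFunCut_le :
    ∃ A : ℝ, 0 ≤ A ∧ ∀ s ∈ Set.Icc (1 : ℝ) 2, ∀ x : mixedSpace K,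
      coneFunCut K s x ≤ A * (1 + ‖x‖) ^ (-((finrank ℚ K : ℝ) * s)) := by
  obtain ⟨ε, hε, hε1, hsupp⟩ := exists_support_bound K
  set n : ℝ := (finrank ℚ K : ℝ) with hn
  refine ⟨(2 / ε) ^ (n * 2), by positivity, fun s hs x => ?_⟩
  by_cases hφ : unitWeight K x = 0
  · simp only [coneFunCut, coneFun, hφ, zero_mul, mul_zero]
    positivity
  rcases le_or_gt ‖x‖ 1 with hx | hx
  · rw [coneFunCut, cutoff_eq_zero hx, zero_mul]
    positivity
  have hεx : 0 < ε * ‖x‖ := by positivity
  have hN : (ε * ‖x‖) ^ n ≤ mixedEmbedding.norm x := by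
    rw [hn, Real.rpow_natCast]
    exact pow_le_norm_of_forall_le hεx.le (hsupp x hφ)
  have h2 : ε * (1 + ‖x‖) / 2 ≤ ε * ‖x‖ := by nlinarith
  calc coneFunCut K s x ≤ 1 * (1 * mixedEmbedding.norm x ^ (-s)) := by
        refine mul_le_mul (cutoff_mem x).2 ?_ (coneFun_nonneg s x) zero_le_one
        exact mul_le_mul_of_nonneg_right (unitWeight_le_one x)
          (Real.rpow_nonneg (mixedEmbedding.norm_nonneg x) _)
    _ ≤ ((ε * (1 + ‖x‖) / 2) ^ n) ^ (-s) := by
        rw [one_mul, one_mul]
        refine Real.rpow_le_rpow_of_nonpos (by positivity) (le_trans ?_ hN) (by linarith [hs.1])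
        gcongr
    _ = (2 / ε) ^ (n * s) * (1 + ‖x‖) ^ (-(n * s)) := by
        rw [← Real.rpow_mul (by positivity), mul_neg,
          show ε * (1 + ‖x‖) / 2 = (2 / ε)⁻¹ * (1 + ‖x‖) by field_simp,
          Real.mul_rpow (by positivity) (by positivity),
          Real.rpow_neg (x := (2 / ε)⁻¹) (by positivity), Real.inv_rpow (by positivity), inv_inv]
    _ ≤ _ := by
        gcongr
        · exact (one_le_div hε).mpr (by linarith)
        · exact hs.2

variable (K) in
/-- The cut-off test function varies slowly, uniformly in `s ∈ [1, 2]`. -/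
theorem exists_coneFunCut_lipschitz (D : ℝ) (hD : 0 ≤ D) :
    ∃ M : ℝ, 0 ≤ M ∧ ∀ s ∈ Set.Icc (1 : ℝ) 2, ∀ x y : mixedSpace K, ‖x - y‖ ≤ D →
      |coneFunCut K s x - coneFunCut K s y| ≤
        M * (1 + ‖x‖) ^ (-((finrank ℚ K : ℝ) + 1)) := by
  obtain ⟨A, hA, hdec⟩ := exists_coneFunCut_le K
  obtain ⟨ε, hε, hε1, hsupp⟩ := exists_support_bound K
  obtain ⟨C, hC, hLip⟩ := exists_coord_lipschitz K
  set n : ℝ := (finrank ℚ K : ℝ) with hn
  have hn0 : 0 < n := Nat.cast_pos.mpr finrank_pos
  set R₀ : ℝ := max (4 * D / ε) (max (4 / ε) (2 * D + 4)) with hR₀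
  set M₁ : ℝ := 2 * A * (1 + R₀) ^ (n + 1) with hM₁
  set M₂ : ℝ := (C + 2 * n * Real.exp (2 * n)) * (D * (2 ^ (n + 1) * (4 / ε) ^ (n + 1))) with hM₂
  have hR₀pos : 0 ≤ R₀ := le_max_of_le_left (by positivity)
  have hR1 : 4 * D / ε ≤ R₀ := le_max_left _ _
  have hR2 : 4 / ε ≤ R₀ := le_trans (le_max_left _ _) (le_max_right _ _)
  have hR3 : 2 * D + 4 ≤ R₀ := le_trans (le_max_right _ _) (le_max_right _ _)
  have hM₁0 : 0 ≤ M₁ := by positivity
  clear_value n R₀ M₁ M₂
  refine ⟨max M₁ M₂, le_max_of_le_left hM₁0, fun s hs x y hxy => ?_⟩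
  rcases le_or_gt ‖x‖ R₀ with hxs | hxb
  · -- bounded region
    have hb : ∀ z : mixedSpace K, coneFunCut K s z ≤ A := fun z =>
      (hdec s hs z).trans (mul_le_of_le_one_right hA (Real.rpow_le_one_of_one_le_of_nonpos
        (by linarith [norm_nonneg z]) (by nlinarith [hs.1])))
    have h1 : (1 + R₀) ^ (-(n + 1)) ≤ (1 + ‖x‖) ^ (-(n + 1)) :=
      Real.rpow_le_rpow_of_nonpos (by linarith [norm_nonneg x]) (by linarith) (by linarith)
    calc |coneFunCut K s x - coneFunCut K s y| ≤ 2 * A := by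
          rw [abs_sub_le_iff]
          constructor <;>
            linarith [hb x, hb y, coneFunCut_nonneg s x, coneFunCut_nonneg s y]
      _ = M₁ * (1 + R₀) ^ (-(n + 1)) := by
          rw [hM₁, mul_assoc, ← Real.rpow_add (by linarith), add_neg_cancel, Real.rpow_zero,
            mul_one]
      _ ≤ max M₁ M₂ * (1 + ‖x‖) ^ (-(n + 1)) :=
          mul_le_mul (le_max_left _ _) h1 (by positivity) (le_max_of_le_left hM₁0)
  · have hy : ‖x‖ / 2 ≤ ‖y‖ := by linarith [norm_sub_norm_le x y]
    unfold coneFunCut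
    rw [cutoff_eq_one (by linarith), cutoff_eq_one (by linarith), one_mul, one_mul]
    by_cases hboth : unitWeight K x = 0 ∧ unitWeight K y = 0
    · simp only [coneFun, hboth.1, hboth.2, zero_mul, sub_self, abs_zero]
      positivity
    set δ : ℝ := ε * ‖x‖ / 4 with hδ
    have hδ1 : 1 ≤ δ := by
      rw [hδ, le_div_iff₀ (by norm_num)]
      rw [div_le_iff₀ hε] at hR2
      nlinarith
    have hδD : D ≤ δ := by
      rw [hδ, le_div_iff₀ (by norm_num)]
      rw [div_le_iff₀ hε] at hR1
      nlinarith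
    have hplaces : (∀ w, δ ≤ normAtPlace w x) ∧ (∀ w, δ ≤ normAtPlace w y) := by
      have hmain : ∀ w, 2 * δ ≤ normAtPlace w x ∨ 2 * δ ≤ normAtPlace w y := fun w => by
        rcases not_and_or.mp hboth with h | h
        · exact Or.inl (le_trans (by rw [hδ]; nlinarith) (hsupp x h w))
        · exact Or.inr (le_trans (by rw [hδ]; nlinarith) (hsupp y h w))
      constructor <;> intro w <;>
        · have := abs_le.mp ((abs_normAtPlace_sub_le w x y).trans hxy)
          rcases hmain w with h | h <;> linarith [this.1, this.2]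
    have hδ0 : 0 < δ := by linarith
    have hxne : ∀ w, normAtPlace w x ≠ 0 := fun w => by linarith [hplaces.1 w]
    have hyne : ∀ w, normAtPlace w y ≠ 0 := fun w => by linarith [hplaces.2 w]
    set t := D / δ with ht
    have ht1 : t ≤ 1 := (div_le_one hδ0).mpr hδD
    have ht0 : 0 ≤ t := by positivity
    obtain ⟨hφ, hlN⟩ := hLip x y t ht0 hxne hyne fun w =>
      (abs_log_sub_log_le hδ0 (hplaces.1 w) (hplaces.2 w)).trans
        (div_le_div_of_nonneg_right ((abs_normAtPlace_sub_le w x y).trans hxy) hδ0.le)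
    clear_value δ t
    have hNx : 0 < mixedEmbedding.norm x := lt_of_le_of_ne (mixedEmbedding.norm_nonneg x)
      (mixedEmbedding.norm_ne_zero_iff.mpr hxne).symm
    have hNy : 0 < mixedEmbedding.norm y := lt_of_le_of_ne (mixedEmbedding.norm_nonneg y)
      (mixedEmbedding.norm_ne_zero_iff.mpr hyne).symm
    set d := -s * (Real.log (mixedEmbedding.norm y) - Real.log (mixedEmbedding.norm x)) with hd
    have hdabs : |d| ≤ 2 * n * t := by
      rw [hd, abs_mul, abs_neg, abs_of_pos (by linarith [hs.1] : (0 : ℝ) < s), abs_sub_comm]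
      calc s * _ ≤ 2 * (n * t) := by gcongr; exact hs.2
        _ = 2 * n * t := by ring
    have hyeq : mixedEmbedding.norm y ^ (-s) = mixedEmbedding.norm x ^ (-s) * Real.exp d := by
      rw [Real.rpow_def_of_pos hNy, Real.rpow_def_of_pos hNx, ← Real.exp_add, hd]
      ring_nf
    have hexp : |Real.exp d - 1| ≤ 2 * n * t * Real.exp (2 * n) := by
      refine (abs_exp_sub_one_le d).trans (mul_le_mul hdabs ?_ (Real.exp_pos _).le (by positivity))
      exact Real.exp_le_exp.mpr (hdabs.trans (mul_le_of_le_one_right (by positivity) ht1))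
    have hNb : mixedEmbedding.norm x ^ (-s) ≤ δ ^ (-n) := by
      have h1 : δ ^ n ≤ mixedEmbedding.norm x := by
        rw [hn, Real.rpow_natCast]; exact pow_le_norm_of_forall_le hδ0.le hplaces.1
      refine (Real.rpow_le_rpow_of_nonpos (by positivity) h1 (by linarith [hs.1])).trans ?_
      rw [← Real.rpow_mul hδ0.le]
      exact Real.rpow_le_rpow_of_exponent_le hδ1 (by nlinarith [hs.1])
    calc |coneFun K s x - coneFun K s y|
        = mixedEmbedding.norm x ^ (-s) * |(unitWeight K x - unitWeight K y) +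
            unitWeight K y * (1 - Real.exp d)| := by
          rw [coneFun, coneFun, hyeq,
            ← abs_of_nonneg (Real.rpow_nonneg hNx.le (-s)), ← abs_mul,
            abs_of_nonneg (Real.rpow_nonneg hNx.le (-s))]
          congr 1; ring
      _ ≤ δ ^ (-n) * (C * t + 1 * (2 * n * t * Real.exp (2 * n))) := by
          refine mul_le_mul hNb ?_ (abs_nonneg _) (by positivity)
          refine (abs_add_le _ _).trans (add_le_add hφ ?_)
          rw [abs_mul, abs_of_nonneg (unitWeight_nonneg y), abs_sub_comm (1 : ℝ)]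
          exact mul_le_mul (unitWeight_le_one y) hexp (abs_nonneg _) zero_le_one
      _ = (C + 2 * n * Real.exp (2 * n)) * D * δ ^ (-(n + 1)) := by
          rw [neg_add, Real.rpow_add hδ0, Real.rpow_neg_one, ht]
          field_simp
      _ ≤ M₂ * (1 + ‖x‖) ^ (-(n + 1)) := by
          rw [hM₂, mul_assoc (C + 2 * n * Real.exp (2 * n)) D,
            mul_assoc (C + 2 * n * Real.exp (2 * n))]
          refine mul_le_mul_of_nonneg_left ?_
            (by positivity : (0 : ℝ) ≤ C + 2 * n * Real.exp (2 * n))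
          have h8 : ε / 4 * ((1 + ‖x‖) / 2) ≤ δ := by
            rw [hδ]; nlinarith
          calc D * δ ^ (-(n + 1)) ≤ D * (ε / 4 * ((1 + ‖x‖) / 2)) ^ (-(n + 1)) := by
                refine mul_le_mul_of_nonneg_left ?_ hD
                exact Real.rpow_le_rpow_of_nonpos (by positivity) h8 (by linarith)
            _ = D * (2 ^ (n + 1) * (4 / ε) ^ (n + 1) * (1 + ‖x‖) ^ (-(n + 1))) := by
                congr 1
                rw [← Real.mul_rpow (by norm_num) (by positivity),
                  show ε / 4 * ((1 + ‖x‖) / 2) = (2 * (4 / ε))⁻¹ * (1 + ‖x‖) by field_simp,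
                  Real.mul_rpow (by positivity) (by positivity),
                  Real.rpow_neg (x := (2 * (4 / ε))⁻¹) (by positivity),
                  Real.inv_rpow (by positivity), inv_inv]
            _ = D * (2 ^ (n + 1) * (4 / ε) ^ (n + 1)) * (1 + ‖x‖) ^ (-(n + 1)) := by ring
      _ ≤ _ := by gcongr; exact le_max_right _ _

end Fermat.Agent.ExtVanish
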