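import Fermat.Agent.ExtVanish.LatticeSum
import Fermat.Agent.ExtVanish.ConeFunction
import Fermat.Agent.Density.Analytic

/-!
# Partial zeta functions of ideal classes

The partial zeta functions of the ideal classes of a number field differ by bounded amounts as
`s → 1⁺` (`exists_abs_classZeta_sub_le`): each of them is compared with the integral of a test
function on the mixed space (`exists_classZeta_sub_integral_le`). The sum of the test function
over an ideal is unfolded into a sum over a class for an arbitrary bounded weight on ideals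
(`hasSum_coneFun_ideal`).
-/

set_option autoImplicit false

noncomputable section

namespace Fermat.Agent.ExtVanish

open NumberField NumberField.InfinitePlace NumberField.mixedEmbedding Module
open NumberField.Units NumberField.Units.dirichletUnitTheorem
open Fermat.Agent.Density MeasureTheory
open scoped Classical nonZeroDivisors

variable {K : Type*} [Field K] [NumberField K]

variable (K) in
/-- Ideals in a given class. -/
abbrev IdealsInClass (C : ClassGroup (𝓞 K)) :=
  {I : (Ideal (𝓞 K))⁰ // ClassGroup.mk0 I = C}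

variable (K) in
/-- The partial zeta function of an ideal class. -/
def classZeta (C : ClassGroup (𝓞 K)) (s : ℝ) : ℝ :=
  ∑' I : IdealsInClass K C, idealWeight s (I.1 : Ideal (𝓞 K))

theorem summable_idealWeight_class (C : ClassGroup (𝓞 K)) {s : ℝ} (hs : 1 < s) :
    Summable fun I : IdealsInClass K C => idealWeight s (I.1 : Ideal (𝓞 K)) := by
  refine summable_of_sum_le (fun I => idealWeight_nonneg _ _) (c := ∑' n, zetaTerm K s n)
    fun T => ?_
  rw [← Finset.sum_image (g := fun I : IdealsInClass K C => (I.1 : Ideal (𝓞 K)))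
    (f := idealWeight s) (fun I _ J _ h => Subtype.ext (Subtype.ext h))]
  exact sum_idealWeight_le_tsum_zetaTerm hs _

/-- The unit with the given coordinates. -/
def unitOfCoord (z : torsion K × (Fin (rank K) → ℤ)) : (𝓞 K)ˣ :=
  (z.1 : (𝓞 K)ˣ) * ∏ i, fundSystem K i ^ z.2 i

theorem unitCoord_unitOfCoord_smul (z : torsion K × (Fin (rank K) → ℤ)) {x : mixedSpace K}
    (hx : mixedEmbedding.norm x ≠ 0) (j : Fin (rank K)) :
    unitCoord K (unitOfCoord z • x) j = z.2 j + unitCoord K x j := by
  have hlog : logEmbedding K (Additive.ofMul (unitOfCoord z)) =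
      ∑ i, (z.2 i : ℝ) • ((basisUnitLattice K).ofZLatticeBasis ℝ (unitLattice K) i) := by
    rw [unitOfCoord, ofMul_mul, map_add, ofMul_prod, map_sum]
    have h0 : logEmbedding K (Additive.ofMul (z.1 : (𝓞 K)ˣ)) = 0 :=
      logEmbedding_eq_zero_iff.mpr z.1.2
    rw [h0, zero_add]
    refine Finset.sum_congr rfl fun i _ => ?_
    rw [ofMul_zpow, map_zsmul, logEmbedding_fundSystem, Basis.ofZLatticeBasis_apply,
      Int.cast_smul_eq_zsmul]
  rw [unitCoord, logMap_unit_smul _ hx, map_add, hlog]
  simp [unitCoord, Finsupp.single_apply]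

theorem tent_eq_zero {t : ℝ} (h : 1 ≤ |t|) : tent t = 0 := max_eq_left (by linarith)

theorem sum_tent_floor (c : ℝ) :
    ∑ m ∈ ({-⌊c⌋, -⌊c⌋ - 1} : Finset ℤ), tent (m + c) = 1 := by
  have h1 := Int.fract_nonneg c
  have h2 := Int.fract_lt_one c
  rw [Finset.sum_pair (by omega)]
  push_cast
  rw [show -(⌊c⌋ : ℝ) + c = Int.fract c by rw [Int.fract]; ring,
    show -(⌊c⌋ : ℝ) - 1 + c = Int.fract c - 1 by rw [Int.fract]; ring]
  unfold tent
  rw [abs_of_nonneg h1, abs_of_nonpos (by linarith), max_eq_right (by linarith),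
    max_eq_right (by linarith)]
  ring

theorem tent_eq_zero_of_notMem {c : ℝ} {m : ℤ}
    (hm : m ∉ ({-⌊c⌋, -⌊c⌋ - 1} : Finset ℤ)) : tent (m + c) = 0 := by
  simp only [Finset.mem_insert, Finset.mem_singleton, not_or] at hm
  refine tent_eq_zero ?_
  have h1 := Int.floor_le c
  have h2 := Int.lt_floor_add_one c
  rcases lt_or_gt_of_ne hm.1 with h | h
  · have : m ≤ -⌊c⌋ - 2 := by omega
    have h3 : (m : ℝ) ≤ -(⌊c⌋ : ℝ) - 2 := by exact_mod_cast this
    rw [abs_of_nonpos (by linarith)]
    linarith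
  · have : -⌊c⌋ + 1 ≤ m := by omega
    have h3 : -(⌊c⌋ : ℝ) + 1 ≤ (m : ℝ) := by exact_mod_cast this
    rw [abs_of_nonneg (by linarith)]
    linarith

/-- The translates of the weight by the units sum to the order of the torsion. -/
theorem hasSum_unitWeight_units {x : mixedSpace K} (hx : mixedEmbedding.norm x ≠ 0) :
    HasSum (fun z : torsion K × (Fin (rank K) → ℤ) => unitWeight K (unitOfCoord z • x))
      (Units.torsionOrder K : ℝ) := by
  have := Fintype.ofFinite (torsion K)
  set S : Finset (torsion K × (Fin (rank K) → ℤ)) :=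
    Finset.univ ×ˢ Fintype.piFinset fun j =>
      ({-⌊unitCoord K x j⌋, -⌊unitCoord K x j⌋ - 1} : Finset ℤ) with hS
  have hval : ∀ z : torsion K × (Fin (rank K) → ℤ),
      unitWeight K (unitOfCoord z • x) = ∏ j, tent ((z.2 j : ℝ) + unitCoord K x j) := by
    intro z
    rw [unitWeight_of_norm_ne_zero (by rwa [norm_unit_smul])]
    exact Finset.prod_congr rfl fun j _ => by rw [unitCoord_unitOfCoord_smul z hx]
  have hzero : ∀ z ∉ S, unitWeight K (unitOfCoord z • x) = 0 := by
    intro z hz
    rw [hval]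
    simp only [hS, Finset.mem_product, Finset.mem_univ, true_and, Fintype.mem_piFinset,
      not_forall] at hz
    obtain ⟨j, hj⟩ := hz
    exact Finset.prod_eq_zero (Finset.mem_univ j) (tent_eq_zero_of_notMem hj)
  have hS' := hasSum_sum_of_ne_finset_zero (L := SummationFilter.unconditional _) hzero
  convert hS' using 1
  rw [hS, Finset.sum_product]
  simp_rw [hval]
  rw [Finset.sum_const, ← Finset.prod_univ_sum
    (fun j => ({-⌊unitCoord K x j⌋, -⌊unitCoord K x j⌋ - 1} : Finset ℤ))
    (fun j (m : ℤ) => tent (m + unitCoord K x j))]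
  simp [sum_tent_floor, Units.torsionOrder, Nat.card_eq_fintype_card]

theorem unitWeight_zero : unitWeight K (0 : mixedSpace K) = 0 :=
  if_pos (map_zero _)

theorem norm_mixedEmbedding_int (a : 𝓞 K) :
    mixedEmbedding.norm (mixedEmbedding K (a : K)) =
      (Ideal.absNorm (Ideal.span {a}) : ℝ) := by
  rw [norm_eq_norm, Ideal.absNorm_span_singleton, ← Algebra.coe_norm_int, Nat.cast_natAbs,
    Int.cast_abs]
  norm_num

theorem unitWeight_smul {c : ℝ} (hc : c ≠ 0) (x : mixedSpace K) :
    unitWeight K (c • x) = unitWeight K x := by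
  by_cases hx : mixedEmbedding.norm x = 0
  · rw [unitWeight, unitWeight, if_pos hx, if_pos]
    rw [mixedEmbedding.norm_smul, hx, mul_zero]
  · have hcx : mixedEmbedding.norm (c • x) ≠ 0 := by
      rw [mixedEmbedding.norm_smul]
      exact mul_ne_zero (pow_ne_zero _ (abs_ne_zero.mpr hc)) hx
    rw [unitWeight_of_norm_ne_zero hcx, unitWeight_of_norm_ne_zero hx]
    exact Finset.prod_congr rfl fun j _ => by rw [unitCoord, unitCoord, logMap_real_smul hx hc]

theorem coneFun_smul {c : ℝ} (hc : 0 < c) (s : ℝ) (x : mixedSpace K) :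
    coneFun K s (c • x) = c ^ (-((finrank ℚ K : ℝ) * s)) * coneFun K s x := by
  rw [coneFun, coneFun, unitWeight_smul hc.ne', mixedEmbedding.norm_smul, abs_of_pos hc,
    Real.mul_rpow (by positivity) (mixedEmbedding.norm_nonneg x), ← Real.rpow_natCast,
    ← Real.rpow_mul hc.le, mul_neg]
  ring

/-- The embedding of an element of an ideal in the mixed space. -/
def idealEmb {J : Ideal (𝓞 K)} (b : J) : mixedSpace K := mixedEmbedding K ((b : 𝓞 K) : K)

theorem idealEmb_injective (J : Ideal (𝓞 K)) : Function.Injective (idealEmb (J := J)) :=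
  fun _ _ h => Subtype.ext (RingOfIntegers.ext ((mixedEmbedding K).injective h))

/-- An element of a nonzero ideal as a point of the ideal lattice. -/
def idealToLattice (J : (Ideal (𝓞 K))⁰) (b : (J : Ideal (𝓞 K))) :
    mixedEmbedding.idealLattice K (FractionalIdeal.mk0 K J) :=
  ⟨idealEmb b, by
    rw [mem_idealLattice]
    exact ⟨_, by
      rw [FractionalIdeal.coe_mk0, SetLike.mem_coe]
      exact FractionalIdeal.mem_coeIdeal_of_mem _ b.2, rfl⟩⟩

theorem bijective_idealToLattice (J : (Ideal (𝓞 K))⁰) :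
    Function.Bijective (idealToLattice (K := K) J) := by
  refine ⟨fun a b h => idealEmb_injective _ (congrArg Subtype.val h), fun v => ?_⟩
  obtain ⟨y, hy, hyv⟩ := (mem_idealLattice K _).mp v.2
  rw [FractionalIdeal.coe_mk0, SetLike.mem_coe, FractionalIdeal.mem_coeIdeal] at hy
  obtain ⟨b, hb, rfl⟩ := hy
  exact ⟨⟨b, hb⟩, Subtype.ext hyv⟩

/-- Unfolding a weighted sum over an ideal `J` into a sum over the ideals of the class inverse to
that of `J`: the weight `w` of a principal ideal is constant on the orbits of the units, and the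
translates of the test function by the units sum to a multiple of a power of the norm. -/
theorem hasSum_coneFun_ideal (w : Ideal (𝓞 K) → ℂ) (hw : ∀ I, ‖w I‖ ≤ 1) (J : (Ideal (𝓞 K))⁰)
    {C : ClassGroup (𝓞 K)} (hC : ClassGroup.mk0 J * C = 1) {s : ℝ} (hs : 1 < s) :
    HasSum (fun b : (J : Ideal (𝓞 K)) =>
        w (Ideal.span {(b : 𝓞 K)}) * (coneFun K s (idealEmb b) : ℂ))
      ((Units.torsionOrder K : ℂ) * ((idealWeight s (J : Ideal (𝓞 K)) : ℂ) *
        ∑' I : IdealsInClass K C, w ((J : Ideal (𝓞 K)) * (I.1 : Ideal (𝓞 K))) *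
          (idealWeight s (I.1 : Ideal (𝓞 K)) : ℂ))) := by
  have hgen : ∀ I : IdealsInClass K C, ∃ a : 𝓞 K, a ≠ 0 ∧
      Ideal.span {a} = (J : Ideal (𝓞 K)) * (I.1 : Ideal (𝓞 K)) := by
    intro I
    have h1 : ClassGroup.mk0 (J * I.1) = 1 := by rw [map_mul, I.2, hC]
    obtain ⟨a, ha⟩ := (ClassGroup.mk0_eq_one_iff (J * I.1).2).mp h1
    have ha' : Ideal.span {a} = (J : Ideal (𝓞 K)) * (I.1 : Ideal (𝓞 K)) := by
      rw [Ideal.span, ← ha]; rfl
    refine ⟨a, ?_, ha'⟩
    rintro rfl
    have h0 : (J : Ideal (𝓞 K)) * (I.1 : Ideal (𝓞 K)) ≠ ⊥ :=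
      mul_ne_zero (nonZeroDivisors.coe_ne_zero J) (nonZeroDivisors.coe_ne_zero I.1)
    exact h0 (by rw [← ha']; simp)
  choose a ha0 ha using hgen
  let Ψ : IdealsInClass K C × (torsion K × (Fin (rank K) → ℤ)) → (J : Ideal (𝓞 K)) := fun p =>
    ⟨(unitOfCoord p.2 : 𝓞 K) * a p.1, Ideal.mul_mem_left _ _ (Ideal.mul_le_left
      (by rw [← ha p.1]; exact Ideal.mem_span_singleton_self _))⟩
  have hΨval : ∀ p, idealEmb (Ψ p) = unitOfCoord p.2 • mixedEmbedding K (a p.1 : K) := by
    intro p
    simp [Ψ, idealEmb, unitSMul_smul, map_mul]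
  have hspan : ∀ p, Ideal.span {(Ψ p : 𝓞 K)} = (J : Ideal (𝓞 K)) * (p.1.1 : Ideal (𝓞 K)) :=
    fun p => by simp [Ψ, Ideal.span_singleton_mul_left_unit (Units.isUnit _), ha]
  have hnorm : ∀ I : IdealsInClass K C, mixedEmbedding.norm (mixedEmbedding K (a I : K)) =
      (Ideal.absNorm (J : Ideal (𝓞 K)) : ℝ) * (Ideal.absNorm (I.1 : Ideal (𝓞 K)) : ℝ) := by
    intro I
    rw [norm_mixedEmbedding_int, ha, map_mul, Nat.cast_mul]
  have hnorm0 : ∀ I : IdealsInClass K C,
      mixedEmbedding.norm (mixedEmbedding K (a I : K)) ≠ 0 := by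
    intro I
    rw [hnorm]
    exact mul_ne_zero (Nat.cast_ne_zero.mpr (Ideal.absNorm_ne_zero_of_nonZeroDivisors J))
      (Nat.cast_ne_zero.mpr (Ideal.absNorm_ne_zero_of_nonZeroDivisors I.1))
  have hinj : Function.Injective Ψ := by
    rintro ⟨I, z⟩ ⟨I', z'⟩ h
    have hI : I = I' := by
      have := congrArg (fun b : (J : Ideal (𝓞 K)) => Ideal.span {(b : 𝓞 K)}) h
      simp only [hspan] at this
      exact Subtype.ext (Subtype.ext (mul_left_cancel₀ (nonZeroDivisors.coe_ne_zero J) this))
    subst hI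
    have hu : unitOfCoord z = unitOfCoord z' :=
      Units.ext (mul_right_cancel₀ (ha0 I) (congrArg Subtype.val h))
    exact Prod.ext rfl ((exist_unique_eq_mul_prod K (unitOfCoord z)).unique rfl hu)
  rw [← hinj.hasSum_iff]
  swap
  · intro v hv
    by_contra hne
    have hb0 : (v : 𝓞 K) ≠ 0 := fun h0 => hne (by
      rw [coneFun, idealEmb, h0]
      simp [unitWeight_zero])
    obtain ⟨I, hI⟩ := Ideal.dvd_iff_le.mpr ((Ideal.span_singleton_le_iff_mem _).mpr v.2)
    have hI0 : I ∈ (Ideal (𝓞 K))⁰ := mem_nonZeroDivisors_iff_ne_zero.mpr fun h => by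
      rw [h, mul_zero] at hI
      exact hb0 (by simpa using hI)
    have hIC : ClassGroup.mk0 (⟨I, hI0⟩ : (Ideal (𝓞 K))⁰) = C := by
      have h1 : ClassGroup.mk0 (J * ⟨I, hI0⟩) = 1 :=
        (ClassGroup.mk0_eq_one_iff _).mpr
          ⟨(v : 𝓞 K), by show (J : Ideal (𝓞 K)) * I = _; rw [← hI]⟩
      rw [map_mul, mul_comm] at h1
      rw [mul_comm] at hC
      exact mul_right_cancel (h1.trans hC.symm)
    obtain ⟨u, hu⟩ := Ideal.span_singleton_eq_span_singleton.mp
      ((ha ⟨⟨I, hI0⟩, hIC⟩).trans hI.symm)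
    obtain ⟨z, hz, -⟩ := exist_unique_eq_mul_prod K u
    refine hv ⟨(⟨⟨I, hI0⟩, hIC⟩, z), Subtype.ext ?_⟩
    show (unitOfCoord z : 𝓞 K) * a ⟨⟨I, hI0⟩, hIC⟩ = (v : 𝓞 K)
    rw [unitOfCoord, ← hz, mul_comm, hu]
  have hi : ∀ I : IdealsInClass K C, HasSum (fun z => coneFun K s (idealEmb (Ψ (I, z))))
      ((Units.torsionOrder K : ℝ) * (idealWeight s (J : Ideal (𝓞 K)) *
        idealWeight s (I.1 : Ideal (𝓞 K)))) := by
    intro I
    have h := (hasSum_unitWeight_units (hnorm0 I)).mul_right
      (mixedEmbedding.norm (mixedEmbedding K (a I : K)) ^ (-s))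
    rw [idealWeight, idealWeight, ← Real.mul_rpow (Nat.cast_nonneg _) (Nat.cast_nonneg _),
      ← hnorm]
    refine h.congr_fun fun z => ?_
    rw [coneFun, hΨval, norm_unit_smul]
  have hinner : ∀ I : IdealsInClass K C, HasSum
      (fun z => w (Ideal.span {(Ψ (I, z) : 𝓞 K)}) * (coneFun K s (idealEmb (Ψ (I, z))) : ℂ))
      ((Units.torsionOrder K : ℂ) * ((idealWeight s (J : Ideal (𝓞 K)) : ℂ) *
        (w ((J : Ideal (𝓞 K)) * (I.1 : Ideal (𝓞 K))) *
          (idealWeight s (I.1 : Ideal (𝓞 K)) : ℂ)))) := by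
    intro I
    rw [show (Units.torsionOrder K : ℂ) * ((idealWeight s (J : Ideal (𝓞 K)) : ℂ) *
        (w ((J : Ideal (𝓞 K)) * (I.1 : Ideal (𝓞 K))) *
          (idealWeight s (I.1 : Ideal (𝓞 K)) : ℂ))) =
        w ((J : Ideal (𝓞 K)) * (I.1 : Ideal (𝓞 K))) * (((Units.torsionOrder K : ℝ) *
          (idealWeight s (J : Ideal (𝓞 K)) * idealWeight s (I.1 : Ideal (𝓞 K))) : ℝ) : ℂ) by
      push_cast; ring]
    exact ((Complex.hasSum_ofReal.mpr (hi I)).mul_left _).congr_fun fun z => by rw [hspan]
  have hbound : ∀ I (x : ℝ), 0 ≤ x → ‖w I * (x : ℂ)‖ ≤ x := fun I x hx => by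
    rw [norm_mul, Complex.norm_real, Real.norm_of_nonneg hx]
    exact mul_le_of_le_one_left hx (hw I)
  have houter := ((Summable.of_norm_bounded (summable_idealWeight_class C hs) fun I =>
    hbound ((J : Ideal (𝓞 K)) * (I.1 : Ideal (𝓞 K))) _
      (idealWeight_nonneg s (I.1 : Ideal (𝓞 K)))).hasSum.mul_left
      (idealWeight s (J : Ideal (𝓞 K)) : ℂ)).mul_left (Units.torsionOrder K : ℂ)
  have hreal : Summable fun p => coneFun K s (idealEmb (Ψ p)) :=
    (summable_prod_of_nonneg (fun p => coneFun_nonneg _ _)).mpr ⟨fun I => (hi I).summable,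
      (((summable_idealWeight_class C hs).mul_left _).mul_left _).congr
        fun I => (hi I).tsum_eq.symm⟩
  have hsum : Summable fun p => w (Ideal.span {(Ψ p : 𝓞 K)}) *
      (coneFun K s (idealEmb (Ψ p)) : ℂ) :=
    Summable.of_norm_bounded hreal fun p => hbound _ _ (coneFun_nonneg _ _)
  have h := hsum.hasSum
  rwa [(h.prod_fiberwise hinner).unique houter] at h

/-- Unfolding the sum over an ideal into a sum over ideals in a class. -/
theorem hasSum_coneFun_idealLattice (J : (Ideal (𝓞 K))⁰) {C : ClassGroup (𝓞 K)}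
    (hC : ClassGroup.mk0 J * C = 1) {s : ℝ} (hs : 1 < s) :
    HasSum (fun v : mixedEmbedding.idealLattice K (FractionalIdeal.mk0 K J) =>
        coneFun K s (v : mixedSpace K))
      ((Units.torsionOrder K : ℝ) *
        (idealWeight s (J : Ideal (𝓞 K)) * classZeta K C s)) := by
  rw [← (Equiv.ofBijective _ (bijective_idealToLattice J)).hasSum_iff, ← Complex.hasSum_ofReal]
  simpa [Function.comp_def, classZeta, idealToLattice, Complex.ofReal_tsum] using
    hasSum_coneFun_ideal (fun _ => 1) (fun _ => by simp) J hC hs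

variable (K) in
/-- The constant relating the class zeta functions to the integral of the test function. -/
def classConst : ℝ :=
  (2⁻¹ : ℝ) ^ nrComplexPlaces K * √|(discr K : ℝ)| * (Units.torsionOrder K : ℝ)

variable (K) in
theorem classConst_pos : 0 < classConst K := by
  have : (discr K : ℝ) ≠ 0 := Int.cast_ne_zero.mpr (discr_ne_zero K)
  have := Units.torsionOrder_pos K
  unfold classConst
  positivity

theorem integrable_coneFunCut {s : ℝ} (hs : 1 < s) (hs2 : s ≤ 2) :
    Integrable (coneFunCut K s) := by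
  obtain ⟨A, hA, hdec⟩ := exists_coneFunCut_le K
  have hn : (finrank ℝ (mixedSpace K) : ℝ) < (finrank ℚ K : ℝ) * s := by
    rw [mixedEmbedding.finrank]
    have : (0 : ℝ) < finrank ℚ K := Nat.cast_pos.mpr finrank_pos
    nlinarith
  refine ((integrable_one_add_norm hn).const_mul A).mono'
    (measurable_coneFunCut s).aestronglyMeasurable (ae_of_all _ fun x => ?_)
  rw [Real.norm_of_nonneg (coneFunCut_nonneg s x)]
  exact hdec s ⟨hs.le, hs2⟩ x

variable (K) in
/-- A multiple of each class zeta function is within a bounded distance of the integral of the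
test function for `s ∈ (1, 2]`. -/
theorem exists_classZeta_sub_integral_le (C : ClassGroup (𝓞 K)) :
    ∃ M : ℝ, ∀ s : ℝ, 1 < s → s ≤ 2 →
      |classConst K * classZeta K C s - ∫ x, coneFunCut K s x| ≤ M := by
  obtain ⟨J, hJ⟩ := ClassGroup.mk0_surjective C⁻¹
  have hC : ClassGroup.mk0 J * C = 1 := by rw [hJ, inv_mul_cancel]
  set L := mixedEmbedding.idealLattice K (FractionalIdeal.mk0 K J) with hL
  set N : ℝ := (Ideal.absNorm (J : Ideal (𝓞 K)) : ℝ) with hN
  have hN1 : 1 ≤ N := by
    rw [hN]; exact_mod_cast Nat.one_le_iff_ne_zero.mpr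
      (Ideal.absNorm_ne_zero_of_nonZeroDivisors J)
  set n : ℝ := (finrank ℚ K : ℝ) with hn
  have hn0 : 0 < n := Nat.cast_pos.mpr finrank_pos
  set t : ℝ := N ^ (-n⁻¹) with ht
  have ht0 : 0 < t := by positivity
  have htn : t ^ (finrank ℚ K) = N⁻¹ := by
    rw [ht, ← Real.rpow_natCast, ← Real.rpow_mul (by linarith), neg_mul,
      inv_mul_cancel₀ hn0.ne', Real.rpow_neg_one]
  obtain ⟨D, B, hD, hlat⟩ := exists_abs_covolume_mul_tsum_sub_integral_le volume L
  obtain ⟨A, hA, hdec⟩ := exists_coneFunCut_le K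
  obtain ⟨M₀, hM₀, hlip⟩ := exists_coneFunCut_lipschitz K (t * D) (by positivity)
  have hcov : ZLattice.covolume L volume = N * ((2⁻¹ : ℝ) ^ nrComplexPlaces K *
      √|(discr K : ℝ)|) := by
    rw [hL, covolume_idealLattice, FractionalIdeal.coe_mk0, FractionalIdeal.coeIdeal_absNorm]
    push_cast
    rw [hN, mul_assoc]
  have hfinset : Set.Finite {v : L | ‖(v : mixedSpace K)‖ ≤ 2 / t} := by
    have H : IsClosed (X := mixedSpace K) L := @AddSubgroup.isClosed_of_discrete _ _ _ _ _
      L.toAddSubgroup (inferInstance : DiscreteTopology L)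
    refine ((Metric.finite_isBounded_inter_isClosed
      (isDiscrete_iff_discreteTopology.mpr (inferInstance : DiscreteTopology L))
      (Metric.isBounded_closedBall (x := (0 : mixedSpace K)) (r := 2 / t)) H).preimage_embedding
        (.subtype _)).subset ?_
    intro v hv
    exact ⟨mem_closedBall_zero_iff.mpr hv, v.2⟩
  set c := t * min 1 t⁻¹ with hc
  have hc0 : 0 < c := by positivity
  have hscale : ∀ x : mixedSpace K, c * (1 + ‖x‖) ≤ 1 + ‖t • x‖ := by
    intro x
    rw [_root_.norm_smul, Real.norm_of_nonneg ht0.le, hc]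
    have h1 : t * min 1 t⁻¹ ≤ 1 :=
      (mul_le_mul_of_nonneg_left (min_le_right _ _) ht0.le).trans_eq (mul_inv_cancel₀ ht0.ne')
    have h2 : t * min 1 t⁻¹ ≤ t := mul_le_of_le_one_right ht0.le (min_le_left _ _)
    nlinarith [norm_nonneg x]
  set M' : ℝ := M₀ * c ^ (-(n + 1)) with hM'
  refine ⟨M' * B + (N * ((2⁻¹ : ℝ) ^ nrComplexPlaces K * √|(discr K : ℝ)|)) *
    (hfinset.toFinset.card * N ^ (2 : ℝ)) / N, fun s hs hs2 => ?_⟩
  have hsum_f : HasSum (fun v : L => coneFun K s (t • (v : mixedSpace K)))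
      ((Units.torsionOrder K : ℝ) * classZeta K C s) := by
    have h := (hasSum_coneFun_idealLattice J hC hs).mul_left (t ^ (-(n * s)))
    have he : t ^ (-(n * s)) = N ^ s := by
      rw [ht, ← Real.rpow_mul (by linarith)]
      congr 1
      field_simp
    have hval : t ^ (-(n * s)) * ((Units.torsionOrder K : ℝ) *
        (idealWeight s (J : Ideal (𝓞 K)) * classZeta K C s)) =
        (Units.torsionOrder K : ℝ) * classZeta K C s := by
      rw [he, idealWeight, ← hN, Real.rpow_neg (by linarith)]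
      field_simp
    rw [hval] at h
    exact h.congr_fun fun v => coneFun_smul ht0 s _
  have hsum_g : Summable fun v : L => coneFunCut K s (t • (v : mixedSpace K)) :=
    Summable.of_nonneg_of_le (fun v => coneFunCut_nonneg _ _)
      (fun v => mul_le_of_le_one_left (coneFun_nonneg _ _) (cutoff_mem _).2) hsum_f.summable
  have hint : Integrable fun x : mixedSpace K => coneFunCut K s (t • x) :=
    (integrable_comp_smul_iff volume _ ht0.ne').mpr (integrable_coneFunCut hs hs2)
  have hmain := hlat (fun x => coneFunCut K s (t • x)) M' (by positivity) hint hsum_g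
    fun x y hxy => by
      refine (hlip s ⟨hs.le, hs2⟩ (t • x) (t • y) ?_).trans ?_
      · rw [← smul_sub, _root_.norm_smul, Real.norm_of_nonneg ht0.le]
        exact mul_le_mul_of_nonneg_left hxy ht0.le
      · rw [mixedEmbedding.finrank, ← hn, hM', mul_assoc,
          ← Real.mul_rpow hc0.le (by positivity)]
        exact mul_le_mul_of_nonneg_left
          (Real.rpow_le_rpow_of_nonpos (by positivity) (hscale x) (by linarith)) hM₀
  have hI : ∫ x : mixedSpace K, coneFunCut K s (t • x) = N * ∫ x, coneFunCut K s x := by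
    rw [Measure.integral_comp_smul, mixedEmbedding.finrank, htn, inv_inv, smul_eq_mul,
      abs_of_pos (by linarith)]
  rw [hI, hcov] at hmain
  set c₀ : ℝ := (2⁻¹ : ℝ) ^ nrComplexPlaces K * √|(discr K : ℝ)| with hc₀
  have hdiff : |(Units.torsionOrder K : ℝ) * classZeta K C s -
      ∑' v : L, coneFunCut K s (t • (v : mixedSpace K))| ≤
        hfinset.toFinset.card * N ^ (2 : ℝ) := by
    rw [← hsum_f.tsum_eq, ← Summable.tsum_sub hsum_f.summable hsum_g]
    rw [tsum_eq_sum (s := hfinset.toFinset) (fun v hv => by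
      rw [Set.Finite.mem_toFinset, Set.mem_ofPred_eq, not_le, div_lt_iff₀ ht0] at hv
      rw [coneFunCut, cutoff_eq_one, one_mul, sub_self]
      rw [_root_.norm_smul, Real.norm_of_nonneg ht0.le]
      linarith)]
    refine (Finset.abs_sum_le_sum_abs _ _).trans ((Finset.sum_le_card_nsmul _ _
      (N ^ (2 : ℝ)) fun v _ => ?_).trans_eq (nsmul_eq_mul _ _))
    have h0 : 0 ≤ coneFun K s (t • (v : mixedSpace K)) := coneFun_nonneg _ _
    have h1 : coneFun K s (t • (v : mixedSpace K)) ≤ N ^ (2 : ℝ) := by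
      by_cases hφ : unitWeight K (v : mixedSpace K) = 0
      · rw [coneFun, unitWeight_smul ht0.ne', hφ, zero_mul]; positivity
      obtain ⟨y, hy, hyv⟩ := (mem_idealLattice K _).mp v.2
      rw [FractionalIdeal.coe_mk0, SetLike.mem_coe, FractionalIdeal.mem_coeIdeal] at hy
      obtain ⟨b, -, rfl⟩ := hy
      have hb : (1 : ℝ) ≤ mixedEmbedding.norm (v : mixedSpace K) := by
        have hne := norm_ne_zero_of_unitWeight_ne_zero hφ
        rw [← hyv, norm_mixedEmbedding_int] at hne ⊢
        exact_mod_cast Nat.one_le_iff_ne_zero.mpr (by exact_mod_cast hne)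
      rw [coneFun, mixedEmbedding.norm_smul, abs_of_pos ht0, htn]
      calc unitWeight K (t • (v : mixedSpace K)) *
            (N⁻¹ * mixedEmbedding.norm (v : mixedSpace K)) ^ (-s)
          ≤ 1 * (N⁻¹) ^ (-s) := by
            refine mul_le_mul (unitWeight_le_one _) ?_ (by positivity) zero_le_one
            exact Real.rpow_le_rpow_of_nonpos (by positivity)
              (le_mul_of_one_le_right (by positivity) hb) (by linarith)
        _ ≤ N ^ (2 : ℝ) := by
            rw [one_mul, Real.inv_rpow (by linarith), ← Real.rpow_neg (by linarith), neg_neg]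
            exact Real.rpow_le_rpow_of_exponent_le hN1 hs2
    have h2 : coneFunCut K s (t • (v : mixedSpace K)) ≤ coneFun K s (t • (v : mixedSpace K)) :=
      mul_le_of_le_one_left h0 (cutoff_mem _).2
    rw [abs_of_nonneg (by linarith)]
    linarith [coneFunCut_nonneg s (t • (v : mixedSpace K))]
  set S := ∑' v : L, coneFunCut K s (t • (v : mixedSpace K))
  have hN0 : 0 < N := by linarith
  have hc00 : 0 ≤ c₀ := by positivity
  have h1 : |c₀ * S - ∫ x, coneFunCut K s x| * N ≤ M' * B := by
    rw [← abs_of_pos hN0, ← abs_mul]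
    refine le_trans (le_of_eq ?_) hmain
    congr 1; ring
  have h2 : |c₀ * S - ∫ x, coneFunCut K s x| ≤ M' * B :=
    le_trans (le_mul_of_one_le_right (abs_nonneg _) hN1) h1
  have h3 : |classConst K * classZeta K C s - c₀ * S| ≤
      (N * c₀) * (hfinset.toFinset.card * N ^ (2 : ℝ)) / N := by
    rw [mul_assoc N, mul_div_cancel_left₀ _ hN0.ne', classConst, ← hc₀, mul_assoc, ← mul_sub,
      abs_mul, abs_of_nonneg hc00]
    exact mul_le_mul_of_nonneg_left hdiff hc00
  calc _ ≤ |classConst K * classZeta K C s - c₀ * S| + |c₀ * S - ∫ x, coneFunCut K s x| :=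
        abs_sub_le _ _ _
    _ ≤ _ := by linarith

variable (K) in
/-- Ideals are equidistributed among the classes: the class zeta functions differ by bounded
amounts near `1`. -/
theorem exists_abs_classZeta_sub_le :
    ∃ M : ℝ, ∀ C C' : ClassGroup (𝓞 K), ∀ s : ℝ, 1 < s → s ≤ 2 →
      |classZeta K C s - classZeta K C' s| ≤ M := by
  choose M hM using exists_classZeta_sub_integral_le K
  refine ⟨2 * (∑ C, |M C|) / classConst K, fun C C' s hs hs2 => ?_⟩
  rw [le_div_iff₀ (classConst_pos K), ← abs_of_pos (classConst_pos K), ← abs_mul, sub_mul]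
  have h := abs_sub_le (classConst K * classZeta K C s) (∫ x, coneFunCut K s x)
    (classConst K * classZeta K C' s)
  have h1 := hM C s hs hs2
  have h2 := hM C' s hs hs2
  rw [abs_sub_comm] at h2
  have hb : ∀ C, M C ≤ ∑ C, |M C| := fun C =>
    (le_abs_self _).trans
      (Finset.single_le_sum (f := fun C => |M C|) (fun _ _ => abs_nonneg _)
        (Finset.mem_univ C))
  rw [mul_comm (classZeta K C s), mul_comm (classZeta K C' s)]
  linarith [hb C, hb C']

end Fermat.Agent.ExtVanish
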