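import Mathlib

/-!
# A weight for the action of the units on the mixed space

A Lipschitz partition of unity `unitWeight` for the action of the units on the mixed space; on
its support all absolute values are comparable (`exists_support_bound`).
-/

set_option autoImplicit false

noncomputable section

namespace Fermat.Agent.ExtVanish

open NumberField NumberField.InfinitePlace NumberField.mixedEmbedding Module
open NumberField.Units NumberField.Units.dirichletUnitTheorem
open scoped Classical

variable {K : Type*} [Field K] [NumberField K]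

/-- The tent function. -/
def tent (t : ℝ) : ℝ := max 0 (1 - |t|)

theorem tent_nonneg (t : ℝ) : 0 ≤ tent t := le_max_left _ _

theorem tent_le_one (t : ℝ) : tent t ≤ 1 := max_le zero_le_one (by linarith [abs_nonneg t])

theorem abs_lt_one_of_tent_ne_zero {t : ℝ} (h : tent t ≠ 0) : |t| < 1 := by
  by_contra hc
  exact h (max_eq_left (by linarith [not_lt.mp hc]))

theorem abs_tent_sub_tent_le (t u : ℝ) : |tent t - tent u| ≤ |t - u| := by
  refine (abs_max_sub_max_le_max _ _ _ _).trans ?_
  simp only [sub_self, abs_zero, sub_sub_sub_cancel_left]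
  refine max_le (abs_nonneg _) ?_
  rw [abs_sub_comm t u]
  exact abs_abs_sub_abs_le_abs_sub u t

theorem abs_prod_sub_prod_le {ι : Type*} (s : Finset ι) (a b : ι → ℝ)
    (ha : ∀ i ∈ s, a i ∈ Set.Icc (0 : ℝ) 1) (hb : ∀ i ∈ s, b i ∈ Set.Icc (0 : ℝ) 1) :
    |∏ i ∈ s, a i - ∏ i ∈ s, b i| ≤ ∑ i ∈ s, |a i - b i| := by
  classical
  induction s using Finset.induction_on with
  | empty => simp
  | insert i s hi ih =>
    rw [Finset.prod_insert hi, Finset.prod_insert hi, Finset.sum_insert hi]
    have ha' : ∀ j ∈ s, a j ∈ Set.Icc (0 : ℝ) 1 := fun j hj => ha j (Finset.mem_insert_of_mem hj)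
    have hb' : ∀ j ∈ s, b j ∈ Set.Icc (0 : ℝ) 1 := fun j hj => hb j (Finset.mem_insert_of_mem hj)
    have h1 := ih ha' hb'
    have hai := ha i (Finset.mem_insert_self _ _)
    have hB0 : 0 ≤ ∏ j ∈ s, b j := Finset.prod_nonneg fun j hj => (hb' j hj).1
    have hB1 : ∏ j ∈ s, b j ≤ 1 :=
      Finset.prod_le_one (fun j hj => (hb' j hj).1) (fun j hj => (hb' j hj).2)
    calc |a i * ∏ j ∈ s, a j - b i * ∏ j ∈ s, b j|
        = |a i * (∏ j ∈ s, a j - ∏ j ∈ s, b j) + (a i - b i) * ∏ j ∈ s, b j| := by ring_nf
      _ ≤ |a i * (∏ j ∈ s, a j - ∏ j ∈ s, b j)| + |(a i - b i) * ∏ j ∈ s, b j| := abs_add_le _ _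
      _ ≤ 1 * |∏ j ∈ s, a j - ∏ j ∈ s, b j| + |a i - b i| * 1 := by
          rw [abs_mul, abs_mul, abs_of_nonneg hai.1, abs_of_nonneg hB0]
          gcongr
          exact hai.2
      _ ≤ |a i - b i| + ∑ j ∈ s, |a j - b j| := by linarith

variable (K) in
/-- The coordinates of `logMap x` in the basis given by the fundamental units. -/
def unitCoord (x : mixedSpace K) (j : Fin (rank K)) : ℝ :=
  ((basisUnitLattice K).ofZLatticeBasis ℝ (unitLattice K)).repr (logMap x) j

variable (K) in
/-- A Lipschitz partition of unity for the action of the units. -/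
def unitWeight (x : mixedSpace K) : ℝ :=
  if mixedEmbedding.norm x = 0 then 0 else ∏ j, tent (unitCoord K x j)

theorem unitWeight_nonneg (x : mixedSpace K) : 0 ≤ unitWeight K x := by
  unfold unitWeight
  split_ifs
  · exact le_rfl
  · exact Finset.prod_nonneg fun j _ => tent_nonneg _

theorem unitWeight_le_one (x : mixedSpace K) : unitWeight K x ≤ 1 := by
  unfold unitWeight
  split_ifs
  · exact zero_le_one
  · exact Finset.prod_le_one (fun j _ => tent_nonneg _) (fun j _ => tent_le_one _)

theorem norm_ne_zero_of_unitWeight_ne_zero {x : mixedSpace K} (h : unitWeight K x ≠ 0) :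
    mixedEmbedding.norm x ≠ 0 := fun hN => h (if_pos hN)

theorem unitWeight_of_norm_ne_zero {x : mixedSpace K} (h : mixedEmbedding.norm x ≠ 0) :
    unitWeight K x = ∏ j, tent (unitCoord K x j) := if_neg h

theorem measurable_logMap : Measurable (logMap : mixedSpace K → logSpace K) := by
  unfold logMap
  refine measurable_pi_iff.mpr fun w ↦ measurable_const.mul ?_
  exact (continuous_normAtPlace _).measurable.log.sub <|
    (mixedEmbedding.continuous_norm _).measurable.log.mul measurable_const

theorem measurable_unitWeight : Measurable (unitWeight K) := by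
  classical
  refine Measurable.ite (measurableSet_eq_fun (mixedEmbedding.continuous_norm K).measurable
    measurable_const) measurable_const ?_
  refine Finset.measurable_prod _ fun j _ => ?_
  have h1 : Continuous fun v : logSpace K =>
      tent (((basisUnitLattice K).ofZLatticeBasis ℝ (unitLattice K)).repr v j) := by
    have h2 : Continuous fun v : logSpace K =>
        ((basisUnitLattice K).ofZLatticeBasis ℝ (unitLattice K)).repr v j :=
      LinearMap.continuous_of_finiteDimensional
        (((basisUnitLattice K).ofZLatticeBasis ℝ (unitLattice K)).coord j)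
    unfold tent
    fun_prop
  simpa [unitCoord, Function.comp_def] using h1.measurable.comp measurable_logMap

theorem normAtPlace_le_norm (w : InfinitePlace K) (x : mixedSpace K) :
    normAtPlace w x ≤ ‖x‖ := by
  rw [norm_eq_sup'_normAtPlace]
  exact Finset.le_sup' (fun w => normAtPlace w x) (Finset.mem_univ w)

theorem abs_normAtPlace_sub_le (w : InfinitePlace K) (x y : mixedSpace K) :
    |normAtPlace w x - normAtPlace w y| ≤ ‖x - y‖ := by
  rw [abs_sub_le_iff]
  constructor
  · have h := normAtPlace_add_le w y (x - y)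
    rw [add_sub_cancel] at h
    linarith [normAtPlace_le_norm w (x - y)]
  · have h := normAtPlace_add_le w x (y - x)
    rw [add_sub_cancel, ← neg_sub x y, normAtPlace_neg] at h
    linarith [normAtPlace_le_norm w (x - y)]

theorem log_norm_eq_sum {x : mixedSpace K} (h : mixedEmbedding.norm x ≠ 0) :
    Real.log (mixedEmbedding.norm x) =
      ∑ w : InfinitePlace K, (mult w : ℝ) * Real.log (normAtPlace w x) := by
  rw [mixedEmbedding.norm_apply, Real.log_prod
    (fun w _ => pow_ne_zero _ (mixedEmbedding.norm_ne_zero_iff.mp h w))]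
  exact Finset.sum_congr rfl fun w _ => Real.log_pow _ _

variable (K) in
/-- On the support of the weight all the absolute values are comparable. -/
theorem exists_support_bound :
    ∃ ε : ℝ, 0 < ε ∧ ε ≤ 1 ∧ ∀ x : mixedSpace K, unitWeight K x ≠ 0 →
      ∀ w : InfinitePlace K, ε * ‖x‖ ≤ normAtPlace w x := by
  classical
  set bE := (basisUnitLattice K).ofZLatticeBasis ℝ (unitLattice K)
  set B : ℝ := ∑ j, ‖bE j‖ with hB
  set n : ℝ := (finrank ℚ K : ℝ) with hn
  set B' : ℝ := ((Fintype.card (InfinitePlace K) : ℝ) * 2 + 1) * B with hB'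
  have hB0 : 0 ≤ B := Finset.sum_nonneg fun j _ => norm_nonneg _
  have hB'0 : 0 ≤ B' := by positivity
  refine ⟨Real.exp (-(2 * B')), Real.exp_pos _, Real.exp_le_one_iff.mpr (by linarith),
    fun x hx w => ?_⟩
  have hN := norm_ne_zero_of_unitWeight_ne_zero hx
  have hlog : ‖logMap x‖ ≤ B := by
    rw [← bE.sum_repr (logMap x)]
    refine (norm_sum_le _ _).trans (Finset.sum_le_sum fun j _ => ?_)
    rw [_root_.norm_smul]
    refine mul_le_of_le_one_left (norm_nonneg _) ?_
    rw [unitWeight_of_norm_ne_zero hN] at hx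
    exact (abs_lt_one_of_tent_ne_zero (Finset.prod_ne_zero_iff.mp hx j (Finset.mem_univ j))).le
  set L := Real.log (mixedEmbedding.norm x) with hL
  have hne : ∀ v : InfinitePlace K, v ≠ w₀ →
      |(mult v : ℝ) * (Real.log (normAtPlace v x) - L * n⁻¹)| ≤ B := by
    intro v hv
    refine le_trans ?_ hlog
    have h := norm_le_pi_norm (logMap x) ⟨v, hv⟩
    rwa [logMap_apply, Real.norm_eq_abs] at h
  have hsum : ∑ v : InfinitePlace K,
      (mult v : ℝ) * (Real.log (normAtPlace v x) - L * n⁻¹) = 0 := by
    simp_rw [mul_sub, Finset.sum_sub_distrib, ← Finset.sum_mul]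
    rw [← Nat.cast_sum, sum_mult_eq, ← log_norm_eq_sum hN, ← hL, ← hn]
    have : n ≠ 0 := by rw [hn]; exact Nat.cast_ne_zero.mpr finrank_pos.ne'
    field_simp
    ring
  have hall : ∀ v : InfinitePlace K, |Real.log (normAtPlace v x) - L * n⁻¹| ≤ B' := by
    intro v
    have hm : (1 : ℝ) ≤ mult v := one_le_mult
    refine le_trans (le_mul_of_one_le_left (abs_nonneg _) hm) ?_
    rw [← abs_of_pos (lt_of_lt_of_le one_pos hm), ← abs_mul]
    by_cases hv : v = w₀
    · subst hv
      rw [Fintype.sum_eq_add_sum_subtype_ne _ w₀, add_eq_zero_iff_eq_neg] at hsum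
      rw [hsum, abs_neg]
      refine (Finset.abs_sum_le_sum_abs _ _).trans ?_
      refine (Finset.sum_le_sum fun u _ => hne u.1 u.2).trans ?_
      rw [Finset.sum_const, nsmul_eq_mul, Finset.card_univ]
      refine mul_le_mul_of_nonneg_right ?_ hB0
      have : (Fintype.card {u : InfinitePlace K // u ≠ w₀} : ℝ) ≤
          Fintype.card (InfinitePlace K) := by exact_mod_cast Fintype.card_subtype_le _
      linarith [Nat.cast_nonneg (α := ℝ) (Fintype.card (InfinitePlace K))]
    · refine (hne v hv).trans (le_mul_of_one_le_left hB0 ?_)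
      linarith [Nat.cast_nonneg (α := ℝ) (Fintype.card (InfinitePlace K))]
  obtain ⟨v, -, hv⟩ :=
    Finset.exists_mem_eq_sup' Finset.univ_nonempty fun v : InfinitePlace K => normAtPlace v x
  rw [norm_eq_sup'_normAtPlace, hv]
  have hpos : ∀ u, 0 < normAtPlace u x := fun u =>
    lt_of_le_of_ne (normAtPlace_nonneg u x) (mixedEmbedding.norm_ne_zero_iff.mp hN u).symm
  rw [← Real.log_le_log_iff (by positivity [hpos v]) (hpos w),
    Real.log_mul (Real.exp_pos _).ne' (hpos v).ne', Real.log_exp]
  have h1 := abs_le.mp (hall v)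
  have h2 := abs_le.mp (hall w)
  linarith [h1.2, h2.1]

theorem abs_log_sub_log_le {a b δ : ℝ} (hδ : 0 < δ) (ha : δ ≤ a) (hb : δ ≤ b) :
    |Real.log a - Real.log b| ≤ |a - b| / δ := by
  have key : ∀ u v : ℝ, δ ≤ u → δ ≤ v → Real.log u - Real.log v ≤ |u - v| / δ := by
    intro u v hu hv
    have hu0 := lt_of_lt_of_le hδ hu
    have hv0 := lt_of_lt_of_le hδ hv
    rw [← Real.log_div hu0.ne' hv0.ne']
    refine (Real.log_le_sub_one_of_pos (div_pos hu0 hv0)).trans ?_
    rw [div_sub_one hv0.ne']
    calc (u - v) / v ≤ |u - v| / v := by gcongr; exact le_abs_self _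
      _ ≤ |u - v| / δ := by gcongr
  rw [abs_sub_le_iff]
  exact ⟨key a b ha hb, by rw [abs_sub_comm a b]; exact key b a hb ha⟩

theorem abs_exp_sub_one_le (d : ℝ) : |Real.exp d - 1| ≤ |d| * Real.exp |d| := by
  have h1 : d + 1 ≤ Real.exp d := Real.add_one_le_exp d
  have h2 : -d + 1 ≤ Real.exp (-d) := Real.add_one_le_exp (-d)
  have h3 : Real.exp d - 1 ≤ d * Real.exp d := by
    have h4 := mul_le_mul_of_nonneg_left h2 (Real.exp_pos d).le
    rw [← Real.exp_add, add_neg_cancel, Real.exp_zero] at h4
    linarith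
  rcases le_or_gt 0 d with hd | hd
  · rw [abs_of_nonneg hd, abs_of_nonneg (by linarith)]
    exact h3
  · rw [abs_of_neg hd, abs_of_nonpos (by linarith [Real.exp_lt_one_iff.mpr hd])]
    calc -(Real.exp d - 1) ≤ -d * 1 := by linarith
      _ ≤ -d * Real.exp (-d) := by gcongr <;> linarith

end Fermat.Agent.ExtVanish
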