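import Fermat.Agent.ExtVanish.CycloUnit

/-!
# The eigen cyclotomic unit modulo `π³`, `π = ζ - 1`

A power prime to `p` of the `ω²`-eigen cyclotomic unit is congruent to an integer modulo `π²`
but not modulo `π³` (`exists_int_sub_eigenUnit_pow`), while `p`-th powers are congruent to
integers modulo `π³` (`exists_int_pow_prime_sub`).
-/

set_option autoImplicit false

noncomputable section

namespace Fermat.Agent.ExtVanish

open NumberField Finset
open scoped Classical

variable {p : ℕ} [hp : Fact p.Prime] {K : Type*} [Field K] [NumberField K]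
  [hK : IsCyclotomicExtension {p} ℚ K] {ζ : K} (hζ : IsPrimitiveRoot ζ p)

/-- `π = ζ - 1`. -/
def piElt : 𝓞 K := hζ.toInteger - 1

/-- `𝓞 K / (π³)`. -/
abbrev LocalQuot := 𝓞 K ⧸ Ideal.span {piElt hζ ^ 3}

theorem prime_piElt : Prime (piElt hζ) := hζ.zeta_sub_one_prime'

omit [NumberField K] hK in
theorem pi_pow_dvd_natCast_p : piElt hζ ^ (p - 1) ∣ (p : 𝓞 K) :=
  (IsCyclotomicExtension.Rat.associated_zeta_sub_one_pow_prime p hζ).dvd

variable (hp3 : 3 < p)

include hp3 in
theorem charP_localQuot : CharP (LocalQuot hζ) p := by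
  have h0 : ((p : ℕ) : LocalQuot hζ) = 0 := by
    rw [← map_natCast (Ideal.Quotient.mk _), Ideal.Quotient.eq_zero_iff_mem,
      Ideal.mem_span_singleton]
    exact (pow_dvd_pow _ (by omega)).trans (pi_pow_dvd_natCast_p hζ)
  have : Nontrivial (LocalQuot hζ) := Ideal.Quotient.nontrivial_iff.mpr (by
    rw [Ne, Ideal.span_singleton_eq_top, isUnit_pow_iff three_ne_zero]
    exact (prime_piElt hζ).not_isUnit)
  exact (CharP.charP_iff_prime_eq_zero hp.out).mpr h0

/-- The scalars in the local quotient. -/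
def scalarHom : ZMod p →+* LocalQuot hζ :=
  haveI := charP_localQuot hζ hp3
  ZMod.castHom (dvd_refl p) _

/-- The image of `π`. -/
def epsElt : LocalQuot hζ := Ideal.Quotient.mk _ (piElt hζ)

omit [NumberField K] hK in
theorem epsElt_pow_three : epsElt hζ ^ 3 = 0 := by
  rw [epsElt, ← map_pow, Ideal.Quotient.eq_zero_iff_mem]
  exact Ideal.mem_span_singleton_self _

/-- `a + b π + c π²` modulo `π³`. -/
def trunc (a b c : ZMod p) : LocalQuot hζ :=
  scalarHom hζ hp3 a + scalarHom hζ hp3 b * epsElt hζ + scalarHom hζ hp3 c * epsElt hζ ^ 2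

theorem trunc_mul (a b c a' b' c' : ZMod p) :
    trunc hζ hp3 a b c * trunc hζ hp3 a' b' c' =
      trunc hζ hp3 (a * a') (a * b' + b * a') (a * c' + b * b' + c * a') := by
  simp only [trunc, map_add, map_mul]
  linear_combination (scalarHom hζ hp3 b * scalarHom hζ hp3 c' +
    scalarHom hζ hp3 c * scalarHom hζ hp3 b' +
    scalarHom hζ hp3 c * scalarHom hζ hp3 c' * epsElt hζ) * epsElt_pow_three hζ

theorem trunc_add (a b c a' b' c' : ZMod p) :
    trunc hζ hp3 a b c + trunc hζ hp3 a' b' c' = trunc hζ hp3 (a + a') (b + b') (c + c') := by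
  simp only [trunc, map_add]
  ring

theorem trunc_scalar (a : ZMod p) : trunc hζ hp3 a 0 0 = scalarHom hζ hp3 a := by simp [trunc]

/-- The exponential-type coordinates of principal units. -/
def expUnit (a b : ZMod p) : LocalQuot hζ := trunc hζ hp3 1 a (b + a * a / 2)

include hp3 in
theorem two_ne_zero_zmod : (2 : ZMod p) ≠ 0 := by
  intro h
  have := Nat.le_of_dvd two_pos ((ZMod.natCast_eq_zero_iff 2 p).mp (by exact_mod_cast h))
  omega

include hp3 in
theorem twentyfour_ne_zero : (24 : ZMod p) ≠ 0 := by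
  intro h
  have h24 : p ∣ 2 ^ 3 * 3 := (ZMod.natCast_eq_zero_iff 24 p).mp (by exact_mod_cast h)
  rcases hp.out.dvd_mul.mp h24 with h | h
  · have := Nat.le_of_dvd two_pos (hp.out.dvd_of_dvd_pow h); omega
  · have := Nat.le_of_dvd three_pos h; omega

include hp3 in
theorem six_ne_zero_zmod : (6 : ZMod p) ≠ 0 := fun h =>
  twentyfour_ne_zero hp3 (by linear_combination 4 * h)

theorem expUnit_mul (a b a' b' : ZMod p) :
    expUnit hζ hp3 a b * expUnit hζ hp3 a' b' = expUnit hζ hp3 (a + a') (b + b') := by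
  have := two_ne_zero_zmod hp3
  rw [expUnit, expUnit, expUnit, trunc_mul]
  congr 1
  · ring
  · ring
  · field_simp
    ring

theorem expUnit_zero : expUnit hζ hp3 0 0 = 1 := by simp [expUnit, trunc]

theorem expUnit_pow (a b : ZMod p) (k : ℕ) :
    expUnit hζ hp3 a b ^ k = expUnit hζ hp3 (k * a) (k * b) := by
  induction k with
  | zero => simp [expUnit_zero]
  | succ k ih =>
    rw [pow_succ, ih, expUnit_mul]
    push_cast
    congr 1 <;> ring

theorem prod_expUnit {ι : Type*} (s : Finset ι) (a b : ι → ZMod p) :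
    ∏ i ∈ s, expUnit hζ hp3 (a i) (b i) = expUnit hζ hp3 (∑ i ∈ s, a i) (∑ i ∈ s, b i) := by
  induction s using Finset.induction_on with
  | empty => simp [expUnit_zero]
  | insert i s hi ih =>
    rw [Finset.prod_insert hi, ih, expUnit_mul, Finset.sum_insert hi, Finset.sum_insert hi]

theorem mk_toInteger_pow (n : ℕ) :
    Ideal.Quotient.mk (Ideal.span {piElt hζ ^ 3}) (hζ.toInteger ^ n) =
      trunc hζ hp3 1 n ((n : ZMod p) * ((n : ZMod p) - 1) / 2) := by
  have h2 := two_ne_zero_zmod hp3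
  have hz : Ideal.Quotient.mk (Ideal.span {piElt hζ ^ 3}) hζ.toInteger = trunc hζ hp3 1 1 0 := by
    rw [show hζ.toInteger = 1 + piElt hζ by simp [piElt]]
    simp [trunc, epsElt]
  induction n with
  | zero => simp [trunc]
  | succ n ih =>
    rw [pow_succ hζ.toInteger n, map_mul, ih, hz, trunc_mul]
    push_cast
    congr 1
    · ring
    · ring
    · field_simp
      ring

theorem mk_geom_sum (n : ℕ) :
    Ideal.Quotient.mk (Ideal.span {piElt hζ ^ 3}) (∑ i ∈ range n, hζ.toInteger ^ i) =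
      trunc hζ hp3 n ((n : ZMod p) * ((n : ZMod p) - 1) / 2)
        ((n : ZMod p) * ((n : ZMod p) - 1) * ((n : ZMod p) - 2) / 6) := by
  have h2 := two_ne_zero_zmod hp3
  have h6 := six_ne_zero_zmod hp3
  induction n with
  | zero => simp [trunc]
  | succ n ih =>
    rw [Finset.sum_range_succ, map_add, ih, mk_toInteger_pow hζ hp3, trunc_add]
    push_cast
    congr 1
    · field_simp
      ring
    · field_simp
      ring

theorem mk_cycloEta (a : (ZMod p)ˣ) :
    Ideal.Quotient.mk (Ideal.span {piElt hζ ^ 3}) (cycloEta hζ a : 𝓞 K) =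
      scalarHom hζ hp3 a *
        expUnit hζ hp3 (((a : ZMod p) - 1) / 2) (((a : ZMod p) - 1) * ((a : ZMod p) - 5) / 24) := by
  have h2 := two_ne_zero_zmod hp3
  have h6 := six_ne_zero_zmod hp3
  have h24 := twentyfour_ne_zero hp3
  rw [coe_cycloEta, mk_geom_sum hζ hp3, ZMod.natCast_zmod_val, ← trunc_scalar hζ hp3, expUnit,
    trunc_mul]
  congr 1
  · ring
  · field_simp
    ring
  · field_simp
    ring

/-- The constant term of the eigen unit. -/
def eigenConst : ZMod p := ∏ a : (ZMod p)ˣ, (a : ZMod p) ^ eigenExp a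

theorem eigenConst_ne_zero : (eigenConst : ZMod p) ≠ 0 :=
  Finset.prod_ne_zero_iff.mpr fun a _ => pow_ne_zero _ a.ne_zero

theorem mk_eigenUnit :
    Ideal.Quotient.mk (Ideal.span {piElt hζ ^ 3}) (eigenUnit hζ : 𝓞 K) =
      scalarHom hζ hp3 eigenConst * expUnit hζ hp3 0 (-1 / 24) := by
  simp only [eigenUnit, Units.coe_prod, Units.val_pow_eq_pow_val, map_prod, map_pow,
    mk_cycloEta hζ hp3, mul_pow, Finset.prod_mul_distrib, expUnit_pow, prod_expUnit,
    cast_eigenExp, eigenConst]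
  obtain ⟨s1, s2⟩ := sum_units_zpow_neg (p := p) hp3
  simp only [Units.val_pow_eq_pow_val] at s2 ⊢
  congr 2
  · have key : ∀ a : (ZMod p)ˣ, ((a⁻¹ : (ZMod p)ˣ) : ZMod p) ^ 2 * (((a : ZMod p) - 1) / 2) =
        (((a⁻¹ : (ZMod p)ˣ) : ZMod p) - ((a⁻¹ : (ZMod p)ˣ) : ZMod p) ^ 2) / 2 := fun a => by
      push_cast
      field_simp
    rw [Finset.sum_congr rfl fun a _ => key a, ← Finset.sum_div, Finset.sum_sub_distrib,
      s1, s2, sub_zero, zero_div]
  · have key : ∀ a : (ZMod p)ˣ, ((a⁻¹ : (ZMod p)ˣ) : ZMod p) ^ 2 *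
        (((a : ZMod p) - 1) * ((a : ZMod p) - 5) / 24) =
        (1 - 6 * ((a⁻¹ : (ZMod p)ˣ) : ZMod p) + 5 * ((a⁻¹ : (ZMod p)ˣ) : ZMod p) ^ 2) / 24 :=
      fun a => by
        push_cast
        field_simp
        ring
    rw [Finset.sum_congr rfl fun a _ => key a, ← Finset.sum_div, Finset.sum_add_distrib,
      Finset.sum_sub_distrib, ← Finset.mul_sum, ← Finset.mul_sum,
      s1, s2]
    simp
    rw [Nat.totient_prime hp.out, Nat.cast_sub hp.out.one_le]
    simp

include hp3 in
/-- A power prime to `p` of the eigen unit is `≡` an integer modulo `π²` but not modulo `π³`. -/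
theorem exists_int_sub_eigenUnit_pow {k : ℕ} (hk : ¬ p ∣ k) :
    ∃ m : ℤ, piElt hζ ^ 2 ∣ (eigenUnit hζ : 𝓞 K) ^ k - m ∧
      ¬ piElt hζ ^ 3 ∣ (eigenUnit hζ : 𝓞 K) ^ k - m := by
  have h24 := twentyfour_ne_zero hp3
  have hk' : (k : ZMod p) ≠ 0 := fun h => hk ((ZMod.natCast_eq_zero_iff k p).mp h)
  set d : ZMod p := eigenConst ^ k * ((k : ZMod p) * (-1 / 24)) with hd
  have hd0 : d ≠ 0 := by
    refine mul_ne_zero (pow_ne_zero _ eigenConst_ne_zero) (mul_ne_zero hk' ?_)
    simp [h24]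
  set m : ℤ := ((eigenConst ^ k : ZMod p).val : ℤ)
  refine ⟨m, ?_⟩
  have hval : Ideal.Quotient.mk (Ideal.span {piElt hζ ^ 3})
      ((eigenUnit hζ : 𝓞 K) ^ k - m) = scalarHom hζ hp3 d * epsElt hζ ^ 2 := by
    rw [map_sub, map_pow, mk_eigenUnit hζ hp3, mul_pow, expUnit_pow, ← map_pow, map_intCast,
      ← map_intCast (scalarHom hζ hp3)]
    rw [show ((m : ℤ) : ZMod p) = eigenConst ^ k by simp [m],
      expUnit, trunc, hd]
    simp only [map_mul, map_one, mul_zero, zero_mul, zero_div, add_zero, map_zero]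
    ring
  have hlift : ∀ c : ZMod p, scalarHom hζ hp3 c =
      Ideal.Quotient.mk (Ideal.span {piElt hζ ^ 3}) ((c.val : ℕ) : 𝓞 K) := fun c => by
    rw [map_natCast, ← map_natCast (scalarHom hζ hp3), ZMod.natCast_zmod_val]
  rw [hlift, epsElt, ← map_pow, ← map_mul, Ideal.Quotient.mk_eq_mk_iff_sub_mem,
    Ideal.mem_span_singleton] at hval
  constructor
  · have h1 : piElt hζ ^ 2 ∣ (d.val : 𝓞 K) * piElt hζ ^ 2 := dvd_mul_left _ _
    simpa using dvd_add (dvd_trans (pow_dvd_pow _ (by omega)) hval) h1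
  · intro h
    have h1 : piElt hζ ^ 3 ∣ (d.val : 𝓞 K) * piElt hζ ^ 2 := by simpa using dvd_sub h hval
    rw [pow_succ', mul_dvd_mul_iff_right (pow_ne_zero _ (prime_piElt hζ).ne_zero)] at h1
    have h2 := (IsCyclotomicExtension.Rat.zeta_sub_one_dvd_intCast_iff' p hζ (n := (d.val : ℤ))).mp
      (by simpa [piElt] using h1)
    refine hd0 ?_
    rw [← ZMod.natCast_zmod_val d, (ZMod.natCast_eq_zero_iff _ p).mpr (by exact_mod_cast h2)]

include hp3 in
/-- `p`-th powers are congruent to rational integers modulo `π³`. -/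
theorem exists_int_pow_prime_sub (w : 𝓞 K) : ∃ m : ℤ, piElt hζ ^ 3 ∣ w ^ p - m := by
  have hcard : Nat.card (𝓞 K ⧸ Ideal.span {piElt hζ}) = p := by
    rw [← Submodule.cardQuot_apply, ← Ideal.absNorm_apply]
    have : IsCyclotomicExtension {p ^ (0 + 1)} ℚ K := by simpa using hK
    exact IsCyclotomicExtension.Rat.absNorm_span_zeta_sub_one p 0
      (by simpa using hζ : IsPrimitiveRoot ζ (p ^ (0 + 1)))
  obtain ⟨m, hm⟩ : ∃ m : ℤ, piElt hζ ∣ w - m := by
    have : Finite (𝓞 K ⧸ Ideal.span {piElt hζ}) :=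
      Nat.finite_of_card_ne_zero (by rw [hcard]; exact hp.out.ne_zero)
    let f : ZMod p → 𝓞 K ⧸ Ideal.span {piElt hζ} := fun c =>
      Ideal.Quotient.mk _ ((c.val : ℕ) : 𝓞 K)
    have hinj : Function.Injective f := by
      intro a b hab
      simp only [f, Ideal.Quotient.mk_eq_mk_iff_sub_mem, Ideal.mem_span_singleton] at hab
      have h := (IsCyclotomicExtension.Rat.zeta_sub_one_dvd_intCast_iff' p hζ
        (n := (a.val : ℤ) - b.val)).mp (by simpa [piElt] using hab)
      rw [← ZMod.intCast_zmod_eq_zero_iff_dvd] at h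
      simpa [sub_eq_zero] using h
    obtain ⟨c, hc⟩ := (Nat.bijective_iff_injective_and_card f).mpr
      ⟨hinj, by rw [hcard, Nat.card_zmod]⟩ |>.2 (Ideal.Quotient.mk _ w)
    refine ⟨(c.val : ℤ), ?_⟩
    have := (Ideal.Quotient.mk_eq_mk_iff_sub_mem _ _).mp hc.symm
    simpa [Ideal.mem_span_singleton] using this
  obtain ⟨r, hr⟩ := hm
  refine ⟨m ^ p, ?_⟩
  have := charP_localQuot hζ hp3
  rw [← Ideal.mem_span_singleton, ← Ideal.Quotient.eq_zero_iff_mem,
    show w = m + piElt hζ * r by rw [← hr]; ring, map_sub, map_pow, map_add, map_mul,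
    add_pow_char, mul_pow, Int.cast_pow, map_pow]
  rw [show Ideal.Quotient.mk (Ideal.span {piElt hζ ^ 3}) (piElt hζ) ^ p = 0 from
    pow_eq_zero_of_le (by omega) (epsElt_pow_three hζ), zero_mul, add_zero, sub_self]

end Fermat.Agent.ExtVanish
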