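import Fermat.Agent.ExtVanish.ModPow

/-!
# The cyclotomic unit in the `ω²`-eigenspace

Definition of `eigenUnit`, the product of the cyclotomic units `(1 - ζ^a)/(1 - ζ)` with exponents
`a⁻²`, and its eigen property modulo `p`-th powers (`modPow_unitAct_eigenUnit`).
-/

set_option autoImplicit false

noncomputable section

namespace Fermat.Agent.ExtVanish

open NumberField Finset
open scoped Classical

variable (p : ℕ) [hp : Fact p.Prime] {K : Type*} [Field K] [NumberField K]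
  [hK : IsCyclotomicExtension {p} ℚ K] {ζ : K}

/-- The exponent by which an automorphism acts on `p`-th roots of unity. -/
def cexp (σ : Gal(K/ℚ)) : (ZMod p)ˣ := IsCyclotomicExtension.Rat.galEquivZMod p K σ

theorem cexp_mul (σ τ : Gal(K/ℚ)) : cexp p (σ * τ) = cexp p σ * cexp p τ := map_mul _ _ _

theorem cexp_bijective : Function.Bijective (cexp p : Gal(K/ℚ) → (ZMod p)ˣ) :=
  (IsCyclotomicExtension.Rat.galEquivZMod p K).bijective

/-- The action of Galois on units. -/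
def unitAct (σ : Gal(K/ℚ)) : (𝓞 K)ˣ →* (𝓞 K)ˣ :=
  Units.map (MulSemiringAction.toRingHom Gal(K/ℚ) (𝓞 K) σ).toMonoidHom

@[simp]
theorem coe_unitAct (σ : Gal(K/ℚ)) (u : (𝓞 K)ˣ) : (unitAct σ u : 𝓞 K) = σ • (u : 𝓞 K) := rfl

variable {p} (hζ : IsPrimitiveRoot ζ p)

/-- `(1 - ζ^a) / (1 - ζ)`. -/
def cycloEta (a : (ZMod p)ˣ) : (𝓞 K)ˣ :=
  (hζ.toInteger_isPrimitiveRoot.geom_sum_isUnit hp.out.two_le
    (ZMod.val_coe_unit_coprime a)).unit

omit [NumberField K] hK in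
theorem coe_cycloEta (a : (ZMod p)ˣ) :
    (cycloEta hζ a : 𝓞 K) = ∑ i ∈ range (a : ZMod p).val, hζ.toInteger ^ i := rfl

omit [NumberField K] hK in
theorem sub_one_mul_cycloEta (a : (ZMod p)ˣ) :
    (hζ.toInteger - 1) * (cycloEta hζ a : 𝓞 K) = hζ.toInteger ^ (a : ZMod p).val - 1 := by
  rw [coe_cycloEta, mul_geom_sum]

theorem smul_toInteger (σ : Gal(K/ℚ)) :
    σ • hζ.toInteger = hζ.toInteger ^ (cexp p σ : ZMod p).val :=
  IsCyclotomicExtension.Rat.galEquivZMod_smul_of_pow_eq p K σ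
    (hζ.toInteger_isPrimitiveRoot.pow_eq_one)

theorem unitAct_cycloEta (σ : Gal(K/ℚ)) (a : (ZMod p)ˣ) :
    unitAct σ (cycloEta hζ a) * cycloEta hζ (cexp p σ) = cycloEta hζ (cexp p σ * a) := by
  have h1 : hζ.toInteger - 1 ≠ 0 :=
    sub_ne_zero.mpr (hζ.toInteger_isPrimitiveRoot.ne_one hp.out.one_lt)
  refine Units.ext (mul_left_cancel₀ h1 ?_)
  rw [Units.val_mul, coe_unitAct, sub_one_mul_cycloEta, mul_comm (σ • _), ← mul_assoc,
    sub_one_mul_cycloEta]
  have h2 := congrArg (σ • ·) (sub_one_mul_cycloEta hζ a)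
  simp only [smul_mul', smul_sub, smul_one, smul_pow', smul_toInteger] at h2
  rw [h2, ← pow_mul, ← pow_mod_orderOf, ← hζ.toInteger_isPrimitiveRoot.eq_orderOf, Units.val_mul,
    ZMod.val_mul]

/-- The exponents `a⁻²` of the eigen cyclotomic unit. -/
def eigenExp (a : (ZMod p)ˣ) : ℕ := (((a⁻¹) ^ 2 : (ZMod p)ˣ) : ZMod p).val

theorem cast_eigenExp (a : (ZMod p)ˣ) :
    (eigenExp a : ZMod p) = (((a⁻¹) ^ 2 : (ZMod p)ˣ) : ZMod p) := ZMod.natCast_zmod_val _

/-- The cyclotomic unit `∏ ((1 - ζ^a)/(1 - ζ))^(a⁻²)`. -/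
def eigenUnit : (𝓞 K)ˣ := ∏ a : (ZMod p)ˣ, cycloEta hζ a ^ eigenExp a

theorem sum_units_zpow_neg (hp3 : 3 < p) :
    (∑ a : (ZMod p)ˣ, ((a⁻¹ : (ZMod p)ˣ) : ZMod p)) = 0 ∧
      (∑ a : (ZMod p)ˣ, (((a⁻¹) ^ 2 : (ZMod p)ˣ) : ZMod p)) = 0 := by
  constructor
  · rw [← Fintype.sum_equiv (Equiv.inv (ZMod p)ˣ) (fun a => ((a : ZMod p) ^ 1))
      (fun a => ((a⁻¹ : (ZMod p)ˣ) : ZMod p)) (fun a => by simp)]
    have h := FiniteField.sum_pow_units (ZMod p) 1
    simp only [ZMod.card] at h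
    rw [h, if_neg]
    intro hd
    have := Nat.le_of_dvd one_pos hd
    omega
  · rw [← Fintype.sum_equiv (Equiv.inv (ZMod p)ˣ) (fun a => ((a : ZMod p) ^ 2))
      (fun a => (((a⁻¹) ^ 2 : (ZMod p)ˣ) : ZMod p)) (fun a => by simp)]
    have h := FiniteField.sum_pow_units (ZMod p) 2
    simp only [ZMod.card] at h
    rw [h, if_neg]
    intro hd
    have := Nat.le_of_dvd two_pos hd
    omega

/-- The eigen unit lies in the `ω²`-eigenspace modulo `p`-th powers. -/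
theorem modPow_unitAct_eigenUnit (hp3 : 3 < p) (σ : Gal(K/ℚ)) :
    modPow p (unitAct σ (eigenUnit hζ)) =
      modPow p (eigenUnit hζ) ^ ((cexp p σ ^ 2 : (ZMod p)ˣ) : ZMod p).val := by
  set c := cexp p σ with hc
  have hact : ∀ a, modPow p (unitAct σ (cycloEta hζ a)) =
      modPow p (cycloEta hζ (c * a)) * (modPow p (cycloEta hζ c))⁻¹ := fun a => by
    rw [eq_mul_inv_iff_mul_eq, ← map_mul, unitAct_cycloEta, ← hc]
  have hE : modPow p (cycloEta hζ c) ^ (∑ a : (ZMod p)ˣ, eigenExp a) = 1 := by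
    rw [← pow_zero (modPow p (cycloEta hζ c))]
    refine quotient_pow_congr _ ?_
    push_cast
    simp only [cast_eigenExp]
    exact (sum_units_zpow_neg hp3).2
  have h1 : modPow p (unitAct σ (eigenUnit hζ)) =
      ∏ a : (ZMod p)ˣ, modPow p (cycloEta hζ (c * a)) ^ eigenExp a := by
    simp only [eigenUnit, map_prod, map_pow, hact, mul_pow, inv_pow, Finset.prod_mul_distrib,
      Finset.prod_inv_distrib, Finset.prod_pow_eq_pow_sum, hE, inv_one, mul_one]
  rw [h1]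
  simp only [eigenUnit, map_prod, map_pow, ← Finset.prod_pow, ← pow_mul]
  refine Fintype.prod_equiv (Equiv.mulLeft c) _ _ fun a => quotient_pow_congr _ ?_
  simp only [Equiv.coe_mulLeft, Nat.cast_mul, cast_eigenExp, ZMod.natCast_zmod_val,
    ← Units.val_mul]
  congr 1
  rw [mul_inv_rev, mul_pow, mul_assoc, inv_pow c, inv_mul_cancel, mul_one]

end Fermat.Agent.ExtVanish
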