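import Mathlib

/-!
# Lattice sums and integrals

For a function varying slowly at the scale of a fundamental domain, the sum over the lattice is
close to the integral (`exists_abs_covolume_mul_tsum_sub_integral_le`).
-/

set_option autoImplicit false

noncomputable section

namespace Fermat.Agent.ExtVanish

open MeasureTheory ZSpan Module Submodule

variable {E : Type*} [NormedAddCommGroup E] [NormedSpace ℝ E] [FiniteDimensional ℝ E]
  [MeasurableSpace E] [BorelSpace E]

omit [MeasurableSpace E] [BorelSpace E] in
/-- `(1 + ‖v‖) ^ (-r)` is summable over a lattice when `r` exceeds the rank. -/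
theorem summable_one_add_norm_rpow (L : Submodule ℤ E) [DiscreteTopology L] [IsZLattice ℝ L]
    {r : ℝ} (hr : (finrank ℝ E : ℝ) < r) :
    Summable fun v : L => (1 + ‖v‖) ^ (-r) := by
  have hrk : Module.finrank ℤ L = finrank ℝ E := ZLattice.rank ℝ L
  refine Summable.of_norm_bounded_eventually
    (g := fun v : L => ‖v‖ ^ (-r)) (ZLattice.summable_norm_rpow L (-r) (by rw [hrk]; linarith)) ?_
  refine (Set.finite_singleton (0 : L)).subset ?_
  intro v hv
  by_contra hv0
  apply hv
  have hpos : 0 < ‖v‖ := norm_pos_iff.mpr hv0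
  show ‖(1 + ‖v‖) ^ (-r)‖ ≤ ‖v‖ ^ (-r)
  rw [Real.norm_of_nonneg (by positivity)]
  exact Real.rpow_le_rpow_of_nonpos hpos (by linarith) (by linarith)

/-- For a function varying slowly at the scale of a fundamental domain, the lattice sum
approximates the integral, uniformly in the function. -/
theorem exists_abs_covolume_mul_tsum_sub_integral_le
    (μ : Measure E) [Measure.IsAddHaarMeasure μ]
    (L : Submodule ℤ E) [DiscreteTopology L] [IsZLattice ℝ L] :
    ∃ D B : ℝ, 0 ≤ D ∧ ∀ (g : E → ℝ) (M : ℝ), 0 ≤ M → Integrable g μ →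
      Summable (fun v : L => g v) →
      (∀ x y : E, ‖x - y‖ ≤ D → |g x - g y| ≤ M * (1 + ‖x‖) ^ (-((finrank ℝ E : ℝ) + 1))) →
      |ZLattice.covolume L μ * (∑' v : L, g v) - ∫ x, g x ∂μ| ≤ M * B := by
  classical
  let b := Free.chooseBasis ℤ L
  let bE := b.ofZLatticeBasis ℝ L
  have hF : IsAddFundamentalDomain L (fundamentalDomain bE) μ :=
    ZLattice.isAddFundamentalDomain b μ
  obtain ⟨D, hD⟩ := (fundamentalDomain_isBounded bE).subset_closedBall 0
  have hDle : ∀ x ∈ fundamentalDomain bE, ‖x‖ ≤ max D 0 := fun x hx =>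
    le_trans (mem_closedBall_zero_iff.mp (hD hx)) (le_max_left _ _)
  set c := ZLattice.covolume L μ with hc
  have hcF : c = μ.real (fundamentalDomain bE) :=
    ZLattice.covolume_eq_measure_fundamentalDomain L μ hF
  have hFfin : μ (fundamentalDomain bE) < ⊤ := (fundamentalDomain_isBounded bE).measure_lt_top
  set w : L → ℝ := fun v => (1 + ‖v‖) ^ (-((finrank ℝ E : ℝ) + 1)) with hw
  have hwsum : Summable w := summable_one_add_norm_rpow L (by linarith)
  refine ⟨max D 0, c * ∑' v, w v, le_max_right _ _, fun g M hM hg hgs hlip => ?_⟩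
  have hterm : ∀ v : L, |c * g v - ∫ x in fundamentalDomain bE, g ((v : E) + x) ∂μ|
      ≤ M * (c * w v) := by
    intro v
    have hint : IntegrableOn (fun x => g ((v : E) + x)) (fundamentalDomain bE) μ :=
      ((hg.comp_add_left (v : E))).integrableOn
    have hconst : c * g v = ∫ _ in fundamentalDomain bE, g (v : E) ∂μ := by
      rw [setIntegral_const, smul_eq_mul, ← hcF]
    have hcint : IntegrableOn (fun _ : E => g (v : E)) (fundamentalDomain bE) μ :=
      integrableOn_const hFfin.ne
    rw [hconst, ← integral_sub hcint hint]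
    have := norm_setIntegral_le_of_norm_le_const (μ := μ)
      (f := fun x => g (v : E) - g ((v : E) + x))
      (C := M * w v) hFfin (fun x hx => by
        rw [Real.norm_eq_abs]
        refine hlip _ _ ?_
        simpa using hDle x hx)
    rw [Real.norm_eq_abs, ← hcF] at this
    linarith [this, show M * w v * c = M * (c * w v) by ring]
  have hsplit : ∫ x, g x ∂μ = ∑' v : L, ∫ x in fundamentalDomain bE, g ((v : E) + x) ∂μ := by
    have : VAddInvariantMeasure L E μ :=
      (inferInstance : VAddInvariantMeasure L.toAddSubgroup E μ)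
    rw [hF.integral_eq_tsum' g hg, ← (Equiv.neg L).tsum_eq]
    refine tsum_congr fun v => ?_
    simp [Submodule.vadd_def]
  have hdiff : Summable fun v : L =>
      c * g v - ∫ x in fundamentalDomain bE, g ((v : E) + x) ∂μ :=
    Summable.of_norm_bounded (g := fun v => M * (c * w v)) ((hwsum.mul_left c).mul_left M)
      (fun v => by simpa [Real.norm_eq_abs] using hterm v)
  have hgint : Summable fun v : L => ∫ x in fundamentalDomain bE, g ((v : E) + x) ∂μ :=
    (((hgs.mul_left c)).sub hdiff).congr fun v => by ring
  calc |c * (∑' v : L, g v) - ∫ x, g x ∂μ|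
      = |∑' v : L, (c * g v - ∫ x in fundamentalDomain bE, g ((v : E) + x) ∂μ)| := by
        rw [Summable.tsum_sub (hgs.mul_left c) hgint, tsum_mul_left, hsplit]
    _ ≤ ∑' v : L, M * (c * w v) := by
        rw [← Real.norm_eq_abs]
        exact tsum_of_norm_bounded (((hwsum.mul_left c).mul_left M).hasSum)
          (fun v => by simpa [Real.norm_eq_abs] using hterm v)
    _ = M * (c * ∑' v, w v) := by rw [tsum_mul_left, tsum_mul_left]

end Fermat.Agent.ExtVanish
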