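import Mathlib

/-!
# Commutative groups modulo `p`-th powers

The projection `modPow` to the quotient by `p`-th powers and its elementary properties.
-/

set_option autoImplicit false

namespace Fermat.Agent.ExtVanish

variable {G : Type*} [CommGroup G] {p : ℕ}

/-- The projection to the quotient by `p`-th powers. -/
def modPow (p : ℕ) : G →* G ⧸ (powMonoidHom p : G →* G).range := QuotientGroup.mk' _

/-- An element is trivial modulo `p`-th powers iff it is a `p`-th power. -/
theorem modPow_eq_one_iff {x : G} : modPow p x = 1 ↔ ∃ y, y ^ p = x := by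
  rw [modPow, QuotientGroup.mk'_apply, QuotientGroup.eq_one_iff]
  rfl

theorem modPow_eq_iff {x y : G} : modPow p x = modPow p y ↔ ∃ z, x = y * z ^ p := by
  rw [← mul_inv_eq_one, ← map_inv, ← map_mul, modPow_eq_one_iff]
  refine exists_congr fun z => ?_
  rw [eq_mul_inv_iff_mul_eq, eq_comm, mul_comm]

theorem pow_prime_quotient_eq_one (x : G ⧸ (powMonoidHom p : G →* G).range) : x ^ p = 1 := by
  obtain ⟨y, rfl⟩ := QuotientGroup.mk_surjective x
  rw [← QuotientGroup.mk_pow, QuotientGroup.eq_one_iff]
  exact ⟨y, rfl⟩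

theorem quotient_pow_congr (x : G ⧸ (powMonoidHom p : G →* G).range) {a b : ℕ}
    (h : (a : ZMod p) = (b : ZMod p)) : x ^ a = x ^ b := by
  rw [← Nat.mod_add_div a p, ← Nat.mod_add_div b p, pow_add, pow_add, pow_mul, pow_mul,
    pow_prime_quotient_eq_one, one_pow, one_pow, (ZMod.natCast_eq_natCast_iff' a b p).mp h]

end Fermat.Agent.ExtVanish
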